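import Fermat.Agent.Deform.Matrix
import Fermat.Agent.RT.Glue.FlatDescent
import Fermat.Agent.GaloisReps.Flat

/-!
# Triangular frames, the relation at an auxiliary prime, and flatness along ring maps
-/

set_option autoImplicit false
set_option linter.unusedSectionVars false

noncomputable section

namespace Fermat.Agent.RT.Two.Hecke

open IsLocalRing Fermat.Agent.Arith Fermat.Agent.Deform
open Fermat.Agent.FiniteFlat (GalOrder)

section Frame

variable {B k : Type} [CommRing B] [IsLocalRing B] [Field k] (aug : B →+* k)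
  (hker : ∀ b, aug b ≠ 0 → IsUnit b)
include hker

/-- A root of the characteristic polynomial of a residually nonscalar matrix gives a frame in
which the matrix is triangular. -/
theorem exists_frame (M : M2 B) (X : B) (hX : X ^ 2 - M.trace * X + M.det = 0)
    (hns : ∀ c : k, M.map aug ≠ c • 1) :
    ∃ P : (M2 B)ˣ, ((↑P⁻¹ : M2 B) * M * P) 1 0 = 0 ∧ ((↑P⁻¹ : M2 B) * M * P) 0 0 = X := by
  rw [Matrix.trace_fin_two, Matrix.det_fin_two] at hX
  have key : ∀ v0 v1 : B, (IsUnit v0 ∨ IsUnit v1) → M 0 0 * v0 + M 0 1 * v1 = X * v0 →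
      M 1 0 * v0 + M 1 1 * v1 = X * v1 →
      ∃ P : (M2 B)ˣ, ((↑P⁻¹ : M2 B) * M * P) 1 0 = 0 ∧ ((↑P⁻¹ : M2 B) * M * P) 0 0 = X := by
    intro v0 v1 hu h0 h1
    obtain ⟨w0, w1, hw⟩ : ∃ w0 w1 : B, v0 * w0 + v1 * w1 = 1 := by
      rcases hu with ⟨u, rfl⟩ | ⟨u, rfl⟩
      exacts [⟨↑u⁻¹, 0, by simp⟩, ⟨0, ↑u⁻¹, by simp⟩]
    refine ⟨⟨!![v0, -w1; v1, w0], !![w0, w1; -v1, v0], ?_, ?_⟩, ?_, ?_⟩
    · ext i j
      fin_cases i <;> fin_cases j <;> simp [Matrix.mul_apply, Fin.sum_univ_two] <;>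
        first
          | linear_combination hw
          | ring
    · ext i j
      fin_cases i <;> fin_cases j <;> simp [Matrix.mul_apply, Fin.sum_univ_two] <;>
        first
          | linear_combination hw
          | ring
    · simp [Matrix.mul_apply, Fin.sum_univ_two, Matrix.vecMul, dotProduct]
      linear_combination (-v1) * h0 + v0 * h1
    · simp [Matrix.mul_apply, Fin.sum_univ_two, Matrix.vecMul, dotProduct]
      linear_combination w0 * h0 + w1 * h1 + X * hw
  by_cases hA : IsUnit (M 1 1 - X) ∨ IsUnit (-(M 1 0))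
  · exact key _ _ hA (by linear_combination hX) (by ring)
  by_cases hB : IsUnit (-(M 0 1)) ∨ IsUnit (M 0 0 - X)
  · exact key _ _ hB (by ring) (by linear_combination hX)
  simp only [not_or] at hA hB
  have hz : ∀ b, ¬ IsUnit b → aug b = 0 := fun b hb => by_contra fun h => hb (hker b h)
  refine absurd ?_ (hns (aug X))
  have e11 := hz _ hA.1
  have e10 := hz _ hA.2
  have e01 := hz _ hB.1
  have e00 := hz _ hB.2
  simp only [map_sub, map_neg, sub_eq_zero, neg_eq_zero] at e11 e10 e01 e00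
  ext i j
  fin_cases i <;> fin_cases j <;> simp [e11, e10, e01, e00]

/-- **The relation from a commutator in a frame.** -/
theorem relation_mem (F τ : M2 B) (P : (M2 B)ˣ) {X x v : B} (I : Ideal B)
    (h10 : ((↑P⁻¹ : M2 B) * F * P) 1 0 = 0) (h00 : ((↑P⁻¹ : M2 B) * F * P) 0 0 = X)
    (htr : τ.trace = 2 + x) (hdet : τ.det = 1 + x) (hcomm : ∀ a b, v * (τ * F - F * τ) a b ∈ I)
    (hns : ∀ c : k, F.map aug ≠ c • 1) :
    v * ((((↑P⁻¹ : M2 B) * τ * P) 0 0 - 1) * (((↑P⁻¹ : M2 B) * τ * P) 0 0 - 1 - x)) ∈ I := by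
  set Q : M2 B := ↑P⁻¹ with hQ
  set F' := Q * F * P with hF'
  set t := Q * τ * P with ht
  have hPQ : (P : M2 B) * Q = 1 := Units.mul_inv P
  have hQP : Q * (P : M2 B) = 1 := Units.inv_mul P
  have hC : t * F' - F' * t = Q * (τ * F - F * τ) * P := by
    have e1 : t * F' = Q * (τ * F) * P := by
      rw [ht, hF', show Q * τ * P * (Q * F * P) = Q * τ * (P * Q) * F * P by simp only [mul_assoc],
        hPQ, mul_one, mul_assoc Q τ F]
    have e2 : F' * t = Q * (F * τ) * P := by
      rw [ht, hF', show Q * F * P * (Q * τ * P) = Q * F * (P * Q) * τ * P by simp only [mul_assoc],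
        hPQ, mul_one, mul_assoc Q F τ]
    rw [e1, e2, mul_sub, sub_mul]
  have hC' : ∀ a b, v * (t * F' - F' * t) a b ∈ I := fun a b => by
    rw [hC, Matrix.mul_apply, Finset.mul_sum]
    refine I.sum_mem fun j _ => ?_
    rw [← mul_assoc]
    refine Ideal.mul_mem_right _ _ ?_
    rw [Matrix.mul_apply, Finset.mul_sum]
    refine I.sum_mem fun i _ => ?_
    rw [mul_left_comm]
    exact Ideal.mul_mem_left _ _ (hcomm i j)
  have htr' : t.trace = 2 + x := by
    rw [ht, Matrix.trace_mul_comm, ← mul_assoc, hPQ, one_mul, htr]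
  have hdet' : t.det = 1 + x := by
    rw [ht, Matrix.det_mul, Matrix.det_mul, mul_right_comm, ← Matrix.det_mul, hQP, Matrix.det_one,
      one_mul, hdet]
  rw [Matrix.trace_fin_two] at htr'
  rw [Matrix.det_fin_two] at hdet'
  have hbz : (t 0 0 - 1) * (t 0 0 - 1 - x) = -(t 0 1 * t 1 0) := by
    linear_combination t 0 0 * htr' - hdet'
  have h00' := hC' 0 0
  have h10' := hC' 1 0
  simp only [Matrix.sub_apply, Matrix.mul_apply, Fin.sum_univ_two, h10, h00] at h00' h10'
  have hu : IsUnit (F' 0 1) ∨ IsUnit (X - F' 1 1) := by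
    by_contra hno
    simp only [not_or] at hno
    have hz : ∀ b, ¬ IsUnit b → aug b = 0 := fun b hb => by_contra fun h => hb (hker b h)
    have e01 := hz _ hno.1
    have e11 := hz _ hno.2
    rw [map_sub, sub_eq_zero] at e11
    refine hns (aug X) ?_
    have hF1 : F'.map aug = aug X • (1 : M2 k) := by
      ext i j
      fin_cases i <;> fin_cases j <;> simp [h00, h10, e01, e11]
    have hF : F = (P : M2 B) * F' * Q := by
      rw [hF', show (P : M2 B) * (Q * F * P) * Q = P * Q * F * (P * Q) by simp only [mul_assoc],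
        hPQ, one_mul, mul_one]
    rw [hF, Matrix.map_mul, Matrix.map_mul, hF1, mul_smul_comm, mul_one, smul_mul_assoc,
      ← Matrix.map_mul, hPQ, Matrix.map_one _ (map_zero aug) (map_one aug)]
  have hz : v * t 1 0 ∈ I := by
    rcases hu with h | h
    · refine (I.unit_mul_mem_iff_mem h).1 ?_
      convert I.neg_mem h00' using 1
      ring
    · refine (I.unit_mul_mem_iff_mem h).1 ?_
      convert h10' using 1
      ring
  rw [hbz]
  convert I.neg_mem (I.mul_mem_left (t 0 1) hz) using 1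
  ring

end Frame

theorem mem_smul_top_apply {A : Type} [CommRing A] (I : Ideal A) {v : Fin 2 → A}
    (hv : v ∈ I • (⊤ : Submodule A (Fin 2 → A))) (i : Fin 2) : v i ∈ I := by
  induction hv using Submodule.smul_induction_on' with
  | smul a ha w _ => exact Ideal.mul_mem_right _ _ ha
  | add w _ z _ hw hz => exact add_mem hw hz

/-- Flatness along any local map to a ring with finite residue field: the finite quotients are
generated by representatives of their elements. -/
theorem isFlatAt_map {A B : Type} [CommRing A] [IsLocalRing A] [CommRing B] [IsLocalRing B]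
    {p : ℕ} (φ : A →+* B) (hres : Finite (ResidueField B)) (R : GQ →* M2 A)
    (hR : IsCont R) (hR' : IsCont (mapM φ R)) (h : (toRep R hR).IsFlatAt p) :
    (toRep (mapM φ R) hR').IsFlatAt p := by
  classical
  refine EC.Rep.isFlatAt_of_galOrder _ p hres fun I hI => ?_
  let : Algebra A B := φ.toAlgebra
  set J : Ideal A := I.comap φ
  have : Finite (A ⧸ J) :=
    Finite.of_injective _ (Ideal.quotientMap_injective (f := φ) (I := I))
  obtain ⟨H, i1, i2, i3, -, -, e, he, heσ⟩ := h.2 J inferInstance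
  let ρ := toRep R hR
  let ρ' := toRep (mapM φ R) hR'
  let : DistribMulAction GQ (ρ.V ⧸ (J • (⊤ : Submodule A ρ.V))) :=
    EC.Rep.levelDistribMulAction ρ J
  have : Finite (ρ.V ⧸ (J • (⊤ : Submodule A ρ.V))) := by
    have : Module.Finite A ρ.V := inferInstanceAs (Module.Finite A (Fin 2 → A))
    exact Module.finite_of_finite (A ⧸ J)
  obtain ⟨O₁⟩ := Glue.nonempty_galOrder_of_hopf e he fun σ f g hfg => heσ σ f g hfg
  have := Fintype.ofFinite (B ⧸ I)
  let E := Fintype.equivFin (B ⧸ I)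
  set d := Fintype.card (B ⧸ I)
  choose t ht using fun j : Fin d => Ideal.Quotient.mk_surjective (E.symm j)
  obtain ⟨Od⟩ := GaloisReps.nonempty_galOrder_pi O₁ (Fin d)
  let lin : Fin d → (Fin 2 → A) →+ ρ'.V ⧸ (I • (⊤ : Submodule B ρ'.V)) := fun j =>
    { toFun := fun v => Submodule.Quotient.mk (t j • (φ ∘ v) : Fin 2 → B)
      map_zero' := by
        rw [show (φ ∘ (0 : Fin 2 → A)) = 0 from funext fun i => map_zero φ, smul_zero]; rfl
      map_add' := fun v w => by
        rw [show (φ ∘ (v + w)) = φ ∘ v + φ ∘ w from funext fun i => map_add φ _ _, smul_add]; rfl }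
  have hlin : ∀ j, ∀ v ∈ (J • (⊤ : Submodule A (Fin 2 → A))), lin j v = 0 := fun j v hv => by
    refine (Submodule.Quotient.mk_eq_zero _).2 ?_
    show (t j • (φ ∘ v) : Fin 2 → B) ∈ I • (⊤ : Submodule B (Fin 2 → B))
    rw [pi_eq_sum_univ' (t j • (φ ∘ v) : Fin 2 → B)]
    refine Submodule.sum_mem _ fun i _ => Submodule.smul_mem_smul ?_ Submodule.mem_top
    exact Ideal.mul_mem_left _ _ (mem_smul_top_apply J hv i)
  let g : Fin d → (ρ.V ⧸ (J • (⊤ : Submodule A ρ.V))) →+ ρ'.V ⧸ (I • (⊤ : Submodule B ρ'.V)) :=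
    fun j => QuotientAddGroup.lift (J • (⊤ : Submodule A ρ.V)).toAddSubgroup (lin j)
      fun v hv => hlin j v hv
  let π : (Fin d → ρ.V ⧸ (J • (⊤ : Submodule A ρ.V))) →+ ρ'.V ⧸ (I • (⊤ : Submodule B ρ'.V)) :=
    ∑ j, (g j).comp (Pi.evalAddMonoidHom _ j)
  have hπ : ∀ w, π w = ∑ j, g j (w j) := fun w => by
    simp [π, AddMonoidHom.finsetSum_apply]
  refine ⟨_, inferInstance, inferInstance, inferInstance, Od, π, fun y => ?_, fun σ w => ?_⟩
  · obtain ⟨u₀, rfl⟩ := Submodule.Quotient.mk_surjective _ y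
    obtain ⟨u, rfl⟩ : ∃ u : Fin 2 → B, u = u₀ := ⟨u₀, rfl⟩
    set a : Fin 2 → Fin d → A :=
      fun i j => if j = E (Ideal.Quotient.mk I ((u : Fin 2 → B) i)) then 1 else 0 with ha
    refine ⟨fun j => Submodule.Quotient.mk (fun i => a i j : Fin 2 → A), ?_⟩
    rw [hπ]
    show ∑ j, lin j (fun i => a i j) = _
    simp only [lin, AddMonoidHom.coe_mk, ZeroHom.coe_mk]
    refine Eq.trans (map_sum (I • (⊤ : Submodule B (Fin 2 → B))).mkQ
      (fun j => (t j • (φ ∘ fun i => a i j) : Fin 2 → B)) Finset.univ).symm ?_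
    refine (Submodule.Quotient.eq (I • (⊤ : Submodule B (Fin 2 → B)))).2 ?_
    show ((∑ j, (t j • (φ ∘ fun i => a i j) : Fin 2 → B)) - u : Fin 2 → B) ∈
      I • (⊤ : Submodule B (Fin 2 → B))
    rw [pi_eq_sum_univ' ((∑ j, (t j • (φ ∘ fun i => a i j) : Fin 2 → B)) - u : Fin 2 → B)]
    refine Submodule.sum_mem _ fun i _ => Submodule.smul_mem_smul ?_ Submodule.mem_top
    rw [Pi.sub_apply, Finset.sum_apply,
      Finset.sum_eq_single (E (Ideal.Quotient.mk I ((u : Fin 2 → B) i)))
        (fun j _ hj => by simp [ha, hj]) (fun hj => absurd (Finset.mem_univ _) hj)]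
    refine (Ideal.Quotient.eq).1 ?_
    simp [ha, ht]
  · rw [hπ, hπ, map_sum]
    refine Finset.sum_congr rfl fun j _ => ?_
    obtain ⟨v, hv⟩ := Submodule.Quotient.mk_surjective _ (w j)
    show g j (σ • w j) = ρ'.levelAction I σ (g j (w j))
    rw [← hv]
    show lin j ((R σ).mulVec v) =
      Submodule.Quotient.mk (((R σ).map φ).mulVec (t j • (φ ∘ v)))
    show Submodule.Quotient.mk _ = _
    congr 1
    rw [Matrix.mulVec_smul]
    congr 1
    funext i
    exact RingHom.map_mulVec φ (R σ) v i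

end Fermat.Agent.RT.Two.Hecke

end
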