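import Fermat.Agent.RT.GammaH.LevelOps

/-!
# Corestriction without halving

When `S` has no fixed point on the cosets of `Γ`, its orbits can be ordered, so that corestriction
is surjective and its kernel is spanned by the translation differences for coefficients without
`2`-torsion in which `3` is invertible.
-/

set_option autoImplicit false

noncomputable section

namespace Fermat.Agent.RT.Two.Hecke

open Fermat.Agent.RT.GammaH
open scoped MatrixGroups

open Fermat.Agent Fermat.Agent.Gamma0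

variable {Γ' Γ : Subgroup SL(2, ℤ)} {ι : Type*} {σ : ι → SL(2, ℤ)} {A : Type*} [AddCommGroup A]
  {R : Type*} [Semiring R] [Module R A]

/-- An involution without fixed points has a set of representatives of its orbits. -/
theorem exists_orbit_reps {α : Type*} (f : α → α) (hf : ∀ x, f (f x) = x) (hfree : ∀ x, f x ≠ x) :
    ∃ P : α → Prop, ∀ x, P (f x) ↔ ¬ P x := by
  refine ⟨fun x => WellOrderingRel x (f x), fun x => ?_⟩
  show WellOrderingRel (f x) (f (f x)) ↔ ¬ WellOrderingRel x (f x)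
  rw [hf]
  constructor
  · exact fun h h' => asymm h h'
  · intro h
    rcases trichotomous_of WellOrderingRel x (f x) with h' | h' | h'
    · exact absurd h' h
    · exact absurd h'.symm (hfree x)
    · exact h'

theorem apply_neg_one_of_torsionFree (hA : ∀ a : A, a + a = 0 → a = 0) (hneg : -1 ∈ Γ)
    (φ : Additive Γ →+ A) : φ (Additive.ofMul ⟨-1, hneg⟩) = 0 := by
  refine hA _ ?_
  rw [← map_add, ← ofMul_mul]
  convert map_zero φ
  exact congrArg Additive.ofMul (Subtype.ext (by simp))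

open scoped Classical in
/-- Antisymmetrisation along the orbit representatives. -/
def antiS (P : SL(2, ℤ) ⧸ Γ' → Prop) (w : SL(2, ℤ) ⧸ Γ' → A) : SL(2, ℤ) ⧸ Γ' → A :=
  fun y => (if P y then w y else 0) -
    if P (ModularGroup.S • y) then w (ModularGroup.S • y) else 0

theorem antiS_add_smul (hneg : -1 ∈ Γ') (P : SL(2, ℤ) ⧸ Γ' → Prop) (w : SL(2, ℤ) ⧸ Γ' → A)
    (y : SL(2, ℤ) ⧸ Γ') : antiS P w y + antiS P w (ModularGroup.S • y) = 0 := by
  have hSS : ModularGroup.S • ModularGroup.S • y = y := by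
    rw [← mul_smul, S_mul_S, neg_one_smul_coset hneg]
  unfold antiS
  rw [hSS]
  abel

theorem antiS_eq_self {P : SL(2, ℤ) ⧸ Γ' → Prop} {u : SL(2, ℤ) ⧸ Γ' → A}
    (hP : ∀ y, P (ModularGroup.S • y) ↔ ¬ P y)
    (hu : ∀ y, u (ModularGroup.S • y) = -u y) (y : SL(2, ℤ) ⧸ Γ') : antiS P u y = u y := by
  by_cases h : P y
  · simp [antiS, h, mt (hP y).1 (not_not.2 h)]
  · simp [antiS, h, (hP y).2 h, hu]

variable [Fintype ι] (h : IsCoreps Γ' Γ σ) (h3 : IsUnit (3 : R))
  (hA : ∀ a : A, a + a = 0 → a = 0)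
  {P : SL(2, ℤ) ⧸ Γ → Prop} (hP : ∀ x, P (ModularGroup.S • x) ↔ ¬ P x)

theorem fibreSum_antiS (w : SL(2, ℤ) ⧸ Γ' → A) (x : SL(2, ℤ) ⧸ Γ) :
    h.fibreSum (antiS (fun y => P (h.proj y)) w) x = antiS P (h.fibreSum w) x := by
  classical
  obtain ⟨y, rfl⟩ := h.proj_surjective x
  have e : ∀ i, P (h.proj (ModularGroup.S • h.rightMul i y)) = P (ModularGroup.S • h.proj y) :=
    fun i => by rw [h.proj_smul, h.proj_rightMul]
  rw [h.fibreSum_eq (y := y) rfl]
  show _ = (if P (h.proj y) then h.fibreSum w (h.proj y) else 0) -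
    if P (ModularGroup.S • h.proj y) then h.fibreSum w (ModularGroup.S • h.proj y) else 0
  rw [h.fibreSum_eq (f := w) (y := y) rfl,
    h.fibreSum_eq (f := w) (y := ModularGroup.S • y) (h.proj_smul _ _)]
  simp only [antiS, h.proj_rightMul, e, h.rightMul_smul]
  split_ifs <;> simp only [sub_zero, zero_sub, sub_self, Finset.sum_sub_distrib,
    Finset.sum_neg_distrib, Finset.sum_const_zero]

theorem antiS_sum_sub (Q : SL(2, ℤ) ⧸ Γ' → Prop) (hQ : ∀ i y, Q (h.rightMul i y) ↔ Q y)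
    (u : ι → SL(2, ℤ) ⧸ Γ' → A) (y : SL(2, ℤ) ⧸ Γ') :
    antiS Q (fun y => ∑ i, (u i (h.rightMul i y) - u i y)) y =
      ∑ i, (antiS Q (u i) (h.rightMul i y) - antiS Q (u i) y) := by
  classical
  have e : ∀ i, Q (ModularGroup.S • h.rightMul i y) ↔ Q (ModularGroup.S • y) := fun i => by
    rw [← h.rightMul_smul, hQ]
  simp only [antiS, hQ, e, h.rightMul_smul]
  split_ifs <;> simp only [sub_zero, zero_sub, sub_self, Finset.sum_sub_distrib,
    Finset.sum_neg_distrib, Finset.sum_const_zero] <;> abel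

theorem isRelPair_antiS (hneg : -1 ∈ Γ') (Q : SL(2, ℤ) ⧸ Γ' → Prop) (b : R)
    (w w' : SL(2, ℤ) ⧸ Γ' → A) : IsRelPair (antiS Q w) (IsCoreps.projR R b w') :=
  ⟨fun y => antiS_add_smul hneg Q w y,
    (IsCoreps.isRelPair_proj (R := R) hneg b b w w').2⟩

include h3 hA hP in
/-- Corestriction is surjective. -/
theorem cores_surjective_of_free (hneg : -1 ∈ Γ') :
    Function.Surjective (h.cores (A := A) R) := by
  intro φ
  obtain ⟨c₀, hc₀, ⟨hu, hv⟩, rfl⟩ :=
    exists_cocycle_toHom (h.le hneg) φ (apply_neg_one_of_torsionFree hA (h.le hneg) φ)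
  obtain ⟨b, hb⟩ := IsCoreps.exists_third (A := A) h3
  obtain ⟨w, hw⟩ := h.fibreSum_surjective (c₀ ModularGroup.S)
  obtain ⟨w', hw'⟩ := h.fibreSum_surjective (c₀ Gamma0.ST)
  obtain ⟨c, hc, hcS, hcR⟩ :=
    exists_cocycle hneg (isRelPair_antiS hneg (fun y => P (h.proj y)) b w w')
  refine ⟨hc.toHom, ?_⟩
  rw [h.cores_toHom hc]
  congr 1
  refine (h.isCocycle_fibreSum hc).ext_of_eq hc₀ (funext fun x => ?_) (funext fun x => ?_)
  · rw [hcS, fibreSum_antiS h, show h.fibreSum w = c₀ ModularGroup.S from funext hw,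
      antiS_eq_self hP fun y => eq_neg_of_add_eq_zero_right (hu y)]
  · have h' := eq_neg_of_add_eq_zero_right (hv x)
    rw [hcR, IsCoreps.projR, h.fibreSum_smul, h.fibreSum_add, h.fibreSum_sub, h.fibreSum_sub,
      h.fibreSum_comp_smul (f := w') Gamma0.ST,
      show (fun y => w' (Gamma0.ST • Gamma0.ST • y)) = fun y => w' ((Gamma0.ST * Gamma0.ST) • y) from
        funext fun y => by rw [mul_smul],
      h.fibreSum_comp_smul, mul_smul, hw', hw', hw', h']
    conv_rhs => rw [← hb (c₀ Gamma0.ST x)]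
    congr 1
    abel

include h3 hA hP in
/-- The kernel of corestriction. -/
theorem exists_eq_sum_conjOp_of_free (hneg : -1 ∈ Γ') {φ : Additive Γ' →+ A}
    (hφ : h.cores R φ = 0) :
    ∃ ψ : ι → (Additive Γ' →+ A), φ = ∑ i, (h.conjOp R i (ψ i) - ψ i) := by
  refine h.exists_eq_sum_conjOp_of_solve hneg (apply_neg_one_of_torsionFree hA hneg φ) hφ
    (fun w hw hsum => ?_) fun _ => h.exists_solve_R h3 hneg
  set Q : SL(2, ℤ) ⧸ Γ' → Prop := fun y => P (h.proj y) with hQdef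
  have hQ : ∀ y, Q (ModularGroup.S • y) ↔ ¬ Q y := fun y => by
    simp only [hQdef, h.proj_smul]
    exact hP _
  obtain ⟨u, hu⟩ := h.exists_eq_sum_rightMul hsum
  refine ⟨fun i => antiS Q (u i), fun i y => antiS_add_smul hneg Q (u i) y, fun y => ?_⟩
  conv_lhs => rw [← antiS_eq_self hQ hw y]
  rw [show w = fun y => ∑ i, (u i (h.rightMul i y) - u i y) from funext hu]
  exact antiS_sum_sub h Q (fun i y => by simp only [hQdef, h.proj_rightMul]) u y

end Fermat.Agent.RT.Two.Hecke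

namespace Fermat.Agent.RT.Two.Hecke

open Fermat.Agent.RT.GammaH
open scoped MatrixGroups

/-- `S` fixes no coset of a level with a prime `3 mod 4`. -/
theorem S_smul_ne {M p : ℕ} [hp : Fact p.Prime] (hpM : p ∣ M) (h4 : p % 4 = 3)
    (K : Subgroup (ZMod M)ˣ) (x : SL(2, ℤ) ⧸ gammaH M K) : ModularGroup.S • x ≠ x := by
  induction x using QuotientGroup.induction_on with | _ g => ?_
  intro hx
  rw [MulAction.Quotient.smul_coe, smul_eq_mul, QuotientGroup.eq] at hx
  set γ := (ModularGroup.S * g)⁻¹ * g with hγ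
  obtain ⟨hc, -⟩ := hx
  have h2 : γ * γ = -1 := by
    rw [hγ, mul_inv_rev]
    have hS : (ModularGroup.S : SL(2, ℤ))⁻¹ * ModularGroup.S⁻¹ = -1 := by
      rw [← mul_inv_rev, Gamma0.S_mul_S, inv_neg, inv_one]
    calc g⁻¹ * ModularGroup.S⁻¹ * g * (g⁻¹ * ModularGroup.S⁻¹ * g)
        = g⁻¹ * (ModularGroup.S⁻¹ * ModularGroup.S⁻¹) * g := by group
      _ = -1 := by rw [hS, mul_neg, neg_mul, mul_one, inv_mul_cancel]
  have h00 : ((γ * γ : SL(2, ℤ)) 0 0 : ℤ) = -1 := by rw [h2]; simp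
  have hcp : (γ 1 0 : ZMod p) = 0 := by
    have := congrArg (ZMod.castHom hpM (ZMod p)) hc
    rwa [map_intCast, map_zero] at this
  have hsq : ((γ 0 0 : ℤ) : ZMod p) ^ 2 = -1 := by
    have h := congrArg (fun z : ℤ => (z : ZMod p)) h00
    simp only [Matrix.SpecialLinearGroup.coe_mul, Matrix.mul_apply, Fin.sum_univ_two,
      Int.cast_add, Int.cast_mul, hcp, mul_zero, add_zero, Int.cast_neg, Int.cast_one] at h
    rw [pow_two, h]
  exact ZMod.mod_four_ne_three_of_sq_eq_neg_one hsq h4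

/-- Representatives of the orbits of `S`. -/
theorem exists_reps {M p : ℕ} [Fact p.Prime] (hpM : p ∣ M) (h4 : p % 4 = 3)
    (K : Subgroup (ZMod M)ˣ) (hneg : -1 ∈ K) :
    ∃ P : SL(2, ℤ) ⧸ gammaH M K → Prop, ∀ x, P (ModularGroup.S • x) ↔ ¬ P x :=
  exists_orbit_reps _ (fun x => by
    rw [← mul_smul, Gamma0.S_mul_S, Gamma0.neg_one_smul_coset (neg_one_mem_gammaH hneg)])
    (S_smul_ne hpM h4 K)

variable (R : Type*) [Semiring R] {A : Type*} [AddCommGroup A] [Module R A] {M p : ℕ}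
  [Fact p.Prime] {K : Subgroup (ZMod M)ˣ} [Fintype ((ZMod M)ˣ ⧸ K)]
  (h3 : IsUnit (3 : R)) (hA : ∀ a : A, a + a = 0 → a = 0) (hneg : -1 ∈ K) (hpM : p ∣ M)
  (h4 : p % 4 = 3)

include h3 hA hneg hpM h4

theorem coresTop_surjective_two : Function.Surjective (coresTop (A := A) R K) := by
  obtain ⟨P, hP⟩ := exists_reps hpM h4 (⊤ : Subgroup (ZMod M)ˣ) trivial
  exact cores_surjective_of_free (isCoreps_deltaRep (K := K)) h3 hA hP (neg_one_mem_gammaH hneg)

theorem exists_eq_sum_diamond_two {φ : Additive (gammaH M K) →+ A} (hφ : coresTop R K φ = 0) :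
    ∃ ψ : (ZMod M)ˣ ⧸ K → (Additive (gammaH M K) →+ A),
      φ = ∑ q, (diamond M K R q.out (ψ q) - ψ q) := by
  obtain ⟨P, hP⟩ := exists_reps hpM h4 (⊤ : Subgroup (ZMod M)ˣ) trivial
  exact exists_eq_sum_conjOp_of_free (isCoreps_deltaRep (K := K)) h3 hA hP
    (neg_one_mem_gammaH hneg) hφ

end Fermat.Agent.RT.Two.Hecke

end
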