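import Fermat.Agent.RT.Two.Hecke.Coinv

/-!
# Generators of the dual of the localised module

An equivariant functional to the residue field is evaluation at a reduction of an invariant, which
is the restriction of a class of `Γ₀(L)`; on the localised module the restriction is injective
modulo the maximal ideal. So the minimal number of generators is bounded by the socle.
-/

set_option autoImplicit false
set_option linter.unusedSectionVars false

noncomputable section

namespace Fermat.Agent.RT.Two

open IsLocalRing MvPolynomial Fermat.Agent.Arith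
open Fermat.Agent.RT.GammaH

variable {O : Type} [CommRing O] [IsDomain O] [IsDiscreteValuationRing O]
  [IsAdicComplete (maximalIdeal O) O] [Finite (ResidueField O)] [CharZero O]
  [Algebra (ZMod 2) (ResidueField O)] {N r : ℕ}

namespace TwoSetup

variable {T : TwoSetup O N r} (l : T.Loc)

instance (T : TwoSetup O N r) : Fintype ((ZMod T.level)ˣ ⧸ T.psi.ker) := Fintype.ofFinite _

theorem res_cores (T : TwoSetup O N r) (x : HomMod O T.S T.psi.ker O) :
    resLin T.S T.psi.ker O (coresLin T.S T.psi.ker O x) =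
      ∑ q : T.Delta, (X (Sum.inl (psiInv T.psi_surjective q)) : T.OpR) • x := by
  obtain ⟨E, hEout⟩ := exists_deltaEquiv (ψ := T.psi) (K := T.psi.ker)
    (fun _ => MonoidHom.mem_ker) T.psi_surjective
  refine (resTop_coresTop O x).trans ((E.sum_comp fun i => diamond T.level T.psi.ker O i.out x).symm.trans
    (Finset.sum_congr rfl fun q _ => ?_))
  rw [X_inl_smul, diamond_congr_ker (K := T.psi.ker) (fun _ => MonoidHom.mem_ker)
    (u := psiInv T.psi_surjective q) (v := (E q).out)]
  exact (Function.surjInv_eq T.psi_surjective q).trans (hEout q).symm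

/-- Reduction of coefficients. -/
def redMap (T : TwoSetup O N r) (K : Subgroup (ZMod T.level)ˣ) :
    HomMod O T.S K O →ₗ[T.OpR] HomMod O T.S K (ResidueField O) :=
  mapCoeff (Algebra.linearMap O (ResidueField O))

theorem redMap_eq_zero_iff {T : TwoSetup O N r} {K : Subgroup (ZMod T.level)ˣ}
    {x : HomMod O T.S K O} : T.redMap K x = 0 ↔ ∀ γ, residue O (x γ) = 0 :=
  ⟨fun h γ => DFunLike.congr_fun h γ, fun h => DFunLike.ext _ _ h⟩

/-- **The restriction is injective modulo the maximal ideal on localised classes.** -/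
theorem Loc.redMap_eq_zero_of_res {Z : HomMod O T.S (⊤ : Subgroup (ZMod T.level)ˣ) O}
    (hZ : l.e • Z = Z) (h : T.redMap _ (resLin T.S T.psi.ker O Z) = 0) : T.redMap _ Z = 0 := by
  obtain ⟨ℓ, hℓ, hℓS, hEis⟩ := T.exists_nonEisenstein
  have : Fact ℓ.Prime := ⟨hℓ⟩
  set t : T.OpR := X (Sum.inr ⟨ℓ, hℓ, hℓS⟩) - C ((1 : O) + (ℓ : O))
  have htm : t ∉ resIdeal T.S T.abar T.level := by
    rw [mem_resIdeal, map_sub, opRes_inr, ← algebraMap_eq, AlgHom.commutes,
      ResidueField.algebraMap_eq, map_add, map_one, map_natCast, sub_eq_zero]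
    exact hEis
  have h0 : resTop O T.psi.ker (T.redMap _ Z) = 0 := by
    show resLin T.S T.psi.ker _ (T.redMap _ Z) = 0
    rw [← h]
    exact (mapCoeff_resLin _ _ _).symm
  have hT : hecke T.level ⊤ ℓ O (T.redMap _ Z) = (ℓ + 1) • T.redMap _ Z :=
    hecke_of_resTop_eq_zero' O h0 fun hc => hℓS (T.mem_S_of_dvd_level hℓ hc)
  have ht0 : t • T.redMap _ Z = 0 := by
    rw [sub_smul, X_inr_smul, hT, ← algebraMap_eq, algebraMap_smul, sub_eq_zero,
      ← Nat.cast_smul_eq_nsmul O (ℓ + 1)]
    congr 1
    push_cast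
    ring
  obtain ⟨t', ht'⟩ := l.heH₀.invert t htm
  have h1 : Z = (t' * l.e) • t • Z := by
    rw [smul_smul, show t' * l.e * t = t * t' * l.e by ring, ht', hZ]
  rw [h1, map_smul, map_smul, ht0, smul_zero]

/-- The functionals to the residue field through which the algebra acts by the residual map. -/
def Loc.resFun : Submodule (ResidueField O) (l.DualP →ₗ[O] ResidueField O) where
  carrier := {Λ | ∀ a φ, Λ (a • φ) = l.aug a * Λ φ}
  add_mem' := fun h h' a φ => by rw [LinearMap.add_apply, LinearMap.add_apply, h, h', mul_add]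
  zero_mem' := fun a φ => by simp
  smul_mem' := fun c Λ h a φ => by
    rw [LinearMap.smul_apply, LinearMap.smul_apply, h, smul_eq_mul, smul_eq_mul, mul_left_comm]

instance : Module.Finite (ResidueField O) (l.DualP →ₗ[O] ResidueField O) :=
  Module.Finite.of_restrictScalars_finite O _ _

theorem Loc.resFun_coord {Λ : l.DualP →ₗ[O] ResidueField O} (hΛ : Λ ∈ l.resFun) (i : l.Idx)
    (q : T.Delta) : Λ (l.ev.symm (l.basisP.coord (i, q))) =
      Λ (l.ev.symm (l.basisP.coord (i, 1))) := by
  classical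
  have h : l.dia q⁻¹ • l.ev.symm (l.basisP.coord (i, 1)) = l.ev.symm (l.basisP.coord (i, q)) := by
    refine l.ev.injective (l.basisP.ext fun jh => ?_)
    rw [l.smul_dual_apply, LinearEquiv.apply_symm_apply, LinearEquiv.apply_symm_apply, l.dia_basisP,
      Module.Basis.coord_apply, Module.Basis.coord_apply, Module.Basis.repr_self, Module.Basis.repr_self,
      Finsupp.single_apply, Finsupp.single_apply]
    refine if_congr ?_ rfl rfl
    rw [Prod.ext_iff, Prod.ext_iff, inv_mul_eq_one]
    exact and_congr Iff.rfl eq_comm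
  rw [← h, hΛ, l.aug_dia, one_mul]

/-- The class of `Γ₀(L)` modulo the maximal ideal attached to a functional. -/
def Loc.toSocle : l.resFun →ₗ[ResidueField O]
    (Additive (gammaH T.level (⊤ : Subgroup (ZMod T.level)ˣ)) →+ ResidueField O) :=
  ∑ i : l.Idx,
    ((LinearMap.applyₗ' (R := O) (S := ResidueField O) (l.ev.symm (l.basisP.coord (i, 1)))).comp
      l.resFun.subtype).smulRight
      (toHomMod.symm (T.redMap _ (coresLin T.S T.psi.ker O (l.b i : HomMod O T.S T.psi.ker O))))

/-- A lift of the class attached to a functional. -/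
theorem Loc.exists_lift_toSocle (Λ : l.resFun) : ∃ x : l.P,
    (∀ φ, residue O (l.ev φ x) = Λ.1 φ) ∧
    ∃ Z, l.e • Z = Z ∧ resLin T.S T.psi.ker O Z = (x : HomMod O T.S T.psi.ker O) ∧
      toHomMod.symm (T.redMap _ Z) = l.toSocle Λ := by
  classical
  choose lift hlift using residue_surjective (R := O)
  set c : l.Idx → O := fun i => lift (Λ.1 (l.ev.symm (l.basisP.coord (i, 1)))) with hc
  refine ⟨∑ i, c i • l.normB i, fun φ => ?_,
    ∑ i, c i • coresLin T.S T.psi.ker O (l.b i : HomMod O T.S T.psi.ker O), ?_, ?_, ?_⟩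
  · have hφ : φ = ∑ iq, l.ev φ (l.basisP iq) • l.ev.symm (l.basisP.coord iq) := by
      refine l.ev.injective ?_
      simp only [map_sum, map_smul, LinearEquiv.apply_symm_apply]
      exact (l.basisP.sum_dual_apply_smul_coord (l.ev φ)).symm
    conv_rhs => rw [hφ]
    simp only [Loc.normB, Finset.smul_sum, map_sum, map_smul, Fintype.sum_prod_type, smul_eq_mul,
      map_mul]
    refine Finset.sum_congr rfl fun i _ => Finset.sum_congr rfl fun q _ => ?_
    rw [l.resFun_coord Λ.2 i q, hc, hlift, Algebra.smul_def, ResidueField.algebraMap_eq, mul_comm]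
  · rw [Finset.smul_sum]
    exact Finset.sum_congr rfl fun i _ => by rw [smul_comm, ← map_smul, (l.b i).2]
  · rw [map_sum, Submodule.coe_sum]
    refine Finset.sum_congr rfl fun i _ => ?_
    rw [LinearMap.map_smul_of_tower, Submodule.coe_smul, res_cores, Loc.normB, Submodule.coe_sum]
    refine congrArg _ (Finset.sum_congr rfl fun q _ => ?_)
    rw [l.basisP_apply]
    exact (l.coe_act _ _).symm
  · refine DFunLike.ext _ _ fun γ => ?_
    simp only [Loc.toSocle, map_sum, LinearMap.sum_apply, AddMonoidHom.finsetSum_apply,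
      LinearMap.smulRight_apply]
    refine Finset.sum_congr rfl fun i _ => ?_
    show residue O (c i * _) = Λ.1 (l.ev.symm (l.basisP.coord (i, 1))) * residue O _
    rw [map_mul, hc, hlift, Algebra.algebraMap_self, RingHom.id_apply]

theorem Loc.redMap_coe_eq_zero {x : l.P} (h : ∀ φ, residue O (l.ev φ x) = 0) :
    T.redMap _ (x : HomMod O T.S T.psi.ker O) = 0 := by
  classical
  refine redMap_eq_zero_iff.2 fun γ => ?_
  have h1 := congrArg (fun y : l.P => (y : HomMod O T.S T.psi.ker O) γ) (l.basisP.sum_repr x).symm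
  simp only [Submodule.coe_sum, Submodule.coe_smul] at h1
  rw [h1, show (∑ iq, l.basisP.repr x iq • (l.basisP iq : HomMod O T.S T.psi.ker O)) γ =
      ∑ iq, l.basisP.repr x iq * (l.basisP iq : HomMod O T.S T.psi.ker O) γ from
    AddMonoidHom.finsetSum_apply _ _ _, map_sum]
  refine Finset.sum_eq_zero fun iq _ => ?_
  have h2 := h (l.ev.symm (l.basisP.coord iq))
  rw [LinearEquiv.apply_symm_apply, Module.Basis.coord_apply] at h2
  rw [map_mul, h2, zero_mul]

theorem Loc.residue_eq_of_redMap {x : l.P} (h : T.redMap _ (x : HomMod O T.S T.psi.ker O) = 0)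
    (φ : l.DualP) : residue O (l.ev φ x) = 0 := by
  obtain ⟨ϖ, hϖ⟩ := IsDiscreteValuationRing.exists_irreducible O
  obtain ⟨χ, hχ⟩ := exists_eq_smul (S := T.S) (K := T.psi.ker) hϖ
    (φ := (x : HomMod O T.S T.psi.ker O)) fun γ => by
      have h1 := redMap_eq_zero_iff.1 h γ
      rwa [residue_eq_zero_iff, hϖ.maximalIdeal_eq, Ideal.mem_span_singleton] at h1
  have hx : x = ϖ • (⟨_, l.heH.smul_self_mem (O := O) χ⟩ : l.P) := Subtype.ext (by
    rw [Submodule.coe_smul]
    show (x : HomMod O T.S T.psi.ker O) = ϖ • l.e • χ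
    rw [smul_comm, ← hχ]
    exact (x.2 : l.e • (x : HomMod O T.S T.psi.ker O) = x).symm)
  rw [hx, map_smul, smul_eq_mul, map_mul, (residue_eq_zero_iff ϖ).2 hϖ.not_isUnit, zero_mul]

theorem Loc.toSocle_injective : Function.Injective l.toSocle := by
  refine (injective_iff_map_eq_zero _).2 fun Λ hΛ => Subtype.ext (LinearMap.ext fun φ => ?_)
  obtain ⟨x, hx, Z, -, hZx, hZ⟩ := l.exists_lift_toSocle Λ
  rw [hΛ] at hZ
  have hZ0 : T.redMap _ Z = 0 := toHomMod.symm.injective (hZ.trans (map_zero _).symm)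
  rw [← hx φ]
  refine l.residue_eq_of_redMap ?_ φ
  rw [← hZx]
  refine (mapCoeff_resLin _ _ _).trans ?_
  show resLin T.S T.psi.ker _ (T.redMap _ Z) = 0
  rw [hZ0, map_zero]

theorem Loc.toSocle_mem (Λ : l.resFun) : l.toSocle Λ ∈ T.socle := by
  simp only [socle, Submodule.mem_iInf]
  rintro ⟨ℓ, hℓ, hℓS⟩
  have : Fact ℓ.Prime := ⟨hℓ⟩
  obtain ⟨x, hx, Z, hZe, hZx, hZ⟩ := l.exists_lift_toSocle Λ
  rw [LinearMap.mem_ker, LinearMap.sub_apply, LinearMap.smul_apply, Module.End.one_apply,
    sub_eq_zero, ← hZ]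
  set a : T.OpR := X (Sum.inr ⟨ℓ, hℓ, hℓS⟩) with ha
  set t : T.OpR := a - C ((T.aE ℓ : O)) with ht
  have h1 : T.redMap _ (t • Z) = 0 := by
    refine l.redMap_eq_zero_of_res (by rw [smul_comm, hZe]) ?_
    rw [map_smul, hZx]
    have h2 := l.redMap_coe_eq_zero (x := l.act t x) fun φ => by
      rw [← l.actA_toA, ← l.smul_dual_apply, hx, Λ.2, l.aug_toA, ht, map_sub, ha, opRes_inr,
        ← algebraMap_eq, AlgHom.commutes, map_intCast, sub_self, zero_mul]
    rwa [l.coe_act] at h2
  rw [map_smul, ht, sub_smul, sub_eq_zero, ha, X_inr_smul, ← algebraMap_eq, algebraMap_smul] at h1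
  refine DFunLike.ext _ _ fun γ => (DFunLike.congr_fun h1 γ).trans ?_
  show (T.aE ℓ : O) • residue O (Z γ) = (T.aE ℓ : ResidueField O) * residue O (Z γ)
  rw [Algebra.smul_def, map_intCast]

/-- **The number of generators is bounded by the socle.** -/
theorem Loc.exists_generators {μ : ℕ} (hfin : Module.Finite (ResidueField O) T.socle)
    (hμ : Module.finrank (ResidueField O) T.socle ≤ μ) :
    ∃ (n : ℕ) (g : Fin n → l.DualP), n ≤ μ ∧ Submodule.span l.A (Set.range g) = ⊤ := by
  classical
  set k := ResidueField O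
  have : Module.Free k l.resFun := Module.Free.of_divisionRing (ResidueField O) l.resFun
  have hn : Module.finrank k l.resFun ≤ μ :=
    ((LinearMap.codRestrict T.socle l.toSocle l.toSocle_mem).finrank_le_finrank_of_injective
      fun x y h => l.toSocle_injective (congrArg Subtype.val h)).trans hμ
  choose lift hlift using residue_surjective (R := O)
  let evW : l.DualP →+ Module.Dual k l.resFun :=
    { toFun := fun φ =>
        { toFun := fun Λ => Λ.1 φ
          map_add' := fun _ _ => rfl
          map_smul' := fun _ _ => rfl }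
      map_zero' := LinearMap.ext fun Λ => map_zero Λ.1
      map_add' := fun φ ψ => LinearMap.ext fun Λ => map_add Λ.1 φ ψ }
  let S : Submodule k (Module.Dual k l.resFun) :=
    { AddMonoidHom.mrange evW with
      smul_mem' := by
        rintro c _ ⟨φ, rfl⟩
        refine ⟨lift c • φ, LinearMap.ext fun Λ => ?_⟩
        show Λ.1 (lift c • φ) = c * Λ.1 φ
        rw [map_smul, Algebra.smul_def, ResidueField.algebraMap_eq, hlift] }
  have hS : S = ⊤ := by
    by_contra hne
    obtain ⟨f, hf0, hf⟩ := Submodule.exists_dual_map_eq_bot_of_lt_top (lt_top_iff_ne_top.2 hne)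
      inferInstance
    obtain ⟨Λ, rfl⟩ := (Module.evalEquiv k l.resFun).surjective f
    refine hf0 ((map_eq_zero_iff _ (Module.evalEquiv k l.resFun).injective).2
      (Subtype.ext (LinearMap.ext fun φ => ?_)))
    have h1 : Module.evalEquiv k l.resFun Λ (evW φ) ∈ Submodule.map
        (Module.evalEquiv k l.resFun Λ) S := Submodule.mem_map_of_mem ⟨φ, rfl⟩
    rw [hf, Submodule.mem_bot, Module.evalEquiv_apply, Module.Dual.eval_apply] at h1
    exact h1
  let bD := Module.finBasis k (Module.Dual k l.resFun)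
  choose g hg using fun i => show ∃ φ, evW φ = bD i from
    (show bD i ∈ S from hS ▸ Submodule.mem_top)
  refine ⟨_, g, (show Module.finrank k (Module.Dual k l.resFun) ≤ μ by
    rw [← (Module.Free.chooseBasis k l.resFun).toDualEquiv.finrank_eq]; exact hn), ?_⟩
  refine top_le_iff.1 (Submodule.le_of_le_smul_of_le_jacobson_bot (I := maximalIdeal l.A)
    (Module.finite_def.1 inferInstance) (IsLocalRing.jacobson_eq_maximalIdeal ⊥ bot_ne_top).ge ?_)
  set U : Submodule l.A l.DualP := Submodule.span l.A (Set.range g) ⊔ maximalIdeal l.A • ⊤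
  by_contra hU
  let U' : Submodule O l.DualP := U.restrictScalars O
  have hsc : ∀ (a : l.A) (φ : l.DualP), a • φ - lift (l.aug a) • φ ∈ U' := fun a φ => by
    rw [← algebraMap_smul l.A (lift (l.aug a)) φ, ← sub_smul]
    refine Submodule.mem_sup_right (Submodule.smul_mem_smul (l.mem_maximalIdeal_iff.2 ?_)
      Submodule.mem_top)
    rw [map_sub, AlgHom.commutes, ResidueField.algebraMap_eq, hlift, sub_self]
  have htors : Module.IsTorsionBySet O (l.DualP ⧸ U') (maximalIdeal O : Set O) := fun v c => by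
    obtain ⟨φ, rfl⟩ := Submodule.Quotient.mk_surjective U' v
    rw [← Submodule.Quotient.mk_smul, Submodule.Quotient.mk_eq_zero, ← algebraMap_smul l.A c.1 φ]
    refine Submodule.mem_sup_right (Submodule.smul_mem_smul (l.mem_maximalIdeal_iff.2 ?_)
      Submodule.mem_top)
    rw [AlgHom.commutes, ResidueField.algebraMap_eq, residue_eq_zero_iff]
    exact c.2
  let : Module k (l.DualP ⧸ U') := htors.module
  have : IsScalarTower O k (l.DualP ⧸ U') := htors.isScalarTower
  obtain ⟨v, hv⟩ : ∃ v : l.DualP ⧸ U', v ≠ 0 := by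
    obtain ⟨φ, -, hφ⟩ := Set.not_subset.1 hU
    exact ⟨Submodule.Quotient.mk φ, fun h => hφ ((Submodule.Quotient.mk_eq_zero U').1 h)⟩
  obtain ⟨f, hf⟩ : ∃ f : (l.DualP ⧸ U') →ₗ[k] k, f v ≠ 0 := by
    by_contra hall
    push Not at hall
    exact hv ((Module.forall_dual_apply_eq_zero_iff k v).1 hall)
  let Λ : l.DualP →ₗ[O] k := (f.restrictScalars O).comp U'.mkQ
  have hmem : Λ ∈ l.resFun := fun a φ => by
    have h1 : Λ (a • φ) = Λ (lift (l.aug a) • φ) := congrArg f ((Submodule.Quotient.eq U').2 (hsc a φ))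
    rw [h1, map_smul, Algebra.smul_def, ResidueField.algebraMap_eq, hlift]
  have hΛ : (⟨Λ, hmem⟩ : l.resFun) = 0 := by
    refine (Module.forall_dual_apply_eq_zero_iff k _).1 fun D => ?_
    rw [← bD.sum_repr D, LinearMap.sum_apply]
    refine Finset.sum_eq_zero fun i _ => ?_
    rw [LinearMap.smul_apply, ← hg i]
    show _ • f (Submodule.Quotient.mk (g i)) = 0
    rw [(Submodule.Quotient.mk_eq_zero U').2
      (Submodule.mem_sup_left (Submodule.subset_span ⟨i, rfl⟩)), map_zero, smul_zero]
  obtain ⟨φ, rfl⟩ := Submodule.Quotient.mk_surjective U' v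
  exact hf (LinearMap.congr_fun (congrArg Subtype.val hΛ) φ)

end TwoSetup

end Fermat.Agent.RT.Two

end
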