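import Fermat.Agent.RT.Two.Hecke.SocleRaise
import Fermat.Agent.GaloisReps.Unconditional

/-!
# Eigen classes modulo two at auxiliary levels

A module in characteristic two with the quadratic relations of a representation with image the
whole of `GL(2, 𝔽₂)` factors through it. So inertia at an auxiliary prime `q` fixes the eigen
classes of level `q M`, and the reductions at two conjugate places bound their number.
-/

set_option autoImplicit false
set_option linter.unusedSectionVars false

noncomputable section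

namespace Fermat.Agent.RT.Two.Socle

open ModularCurve AlgebraicCurve Fermat.Agent.Arith Fermat.Agent.Semistable
open Fermat.Agent.RT.AtP
open Fermat.Agent.RT.MazurQ (wSA)
open scoped Pointwise

set_option synthInstance.maxSize 2000

/-- Elements of trace zero and one off the identity generate. -/
theorem fin2_trace_mul : ∀ S B : Matrix (Fin 2) (Fin 2) (ZMod 2),
    S.det = 1 → B.det = 1 → S.trace = 0 → S ≠ 1 → B.trace = 1 → (S * B).trace = 0 := by
  decide

theorem fin2_comm : ∀ S B : Matrix (Fin 2) (Fin 2) (ZMod 2),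
    S.det = 1 → B.det = 1 → (S.trace = 0 → S = 1) → (B.trace = 0 → B = 1) → S * B = B * S := by
  decide

theorem fin2_trace_of_conj : ∀ B U : Matrix (Fin 2) (Fin 2) (ZMod 2),
    B.det = 1 → U.det = 1 → B ≠ 1 → U ≠ 1 → B * U ≠ 1 → (B * U).trace = B.trace → U.trace = 1 := by
  decide

theorem fin2_center : ∀ B : Matrix (Fin 2) (Fin 2) (ZMod 2),
    (∀ X, X * B = B * X) → ∃ c : ZMod 2, B = c • 1 := by
  decide

section Rep

variable {Γ : Type*} [Group Γ] (r : Γ →* Matrix (Fin 2) (Fin 2) (ZMod 2))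

theorem det_eq_one (g : Γ) : (r g).det = 1 := by
  have h1 : (r g).det * (r g⁻¹).det = 1 := by
    rw [← Matrix.det_mul, ← map_mul, mul_inv_cancel, map_one, Matrix.det_one]
  revert h1
  generalize (r g).det = u
  generalize (r g⁻¹).det = w
  revert u w
  decide

variable (hspan : Submodule.span (ZMod 2) (Set.range r) = ⊤)
include hspan

theorem commute_all {B : Matrix (Fin 2) (Fin 2) (ZMod 2)} (h : ∀ g, r g * B = B * r g)
    (X : Matrix (Fin 2) (Fin 2) (ZMod 2)) : X * B = B * X := by
  have hX : X ∈ Submodule.span (ZMod 2) (Set.range r) := by rw [hspan]; exact Submodule.mem_top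
  induction hX using Submodule.span_induction with
  | mem x hx => obtain ⟨g, rfl⟩ := hx; exact h g
  | zero => simp
  | add x y _ _ hx hy => rw [add_mul, mul_add, hx, hy]
  | smul c x _ hx => rw [smul_mul_assoc, mul_smul_comm, hx]

theorem exists_trace_one : ∃ g, (r g).trace = 1 := by
  by_contra h
  simp only [not_exists] at h
  have h0 : ∀ X : Matrix (Fin 2) (Fin 2) (ZMod 2), X.trace = 0 := fun X => by
    have hX : X ∈ Submodule.span (ZMod 2) (Set.range r) := by rw [hspan]; exact Submodule.mem_top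
    induction hX using Submodule.span_induction with
    | mem x hx =>
      obtain ⟨g, rfl⟩ := hx
      have := h g
      revert this
      generalize (r g).trace = t
      revert t
      decide
    | zero => simp
    | add x y _ _ hx hy => rw [Matrix.trace_add, hx, hy, add_zero]
    | smul c x _ hx => rw [Matrix.trace_smul, hx, smul_zero]
  exact absurd (h0 !![1, 0; 0, 0]) (by decide)

theorem exists_trace_zero : ∃ g, (r g).trace = 0 ∧ r g ≠ 1 := by
  by_contra h
  simp only [not_exists, not_and, not_not] at h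
  have h1 : ∀ g X, X * r g = r g * X := fun g => commute_all r hspan fun g' =>
    fin2_comm _ _ (det_eq_one r g') (det_eq_one r g) (h g') (h g)
  have h2 : ∀ X Y : Matrix (Fin 2) (Fin 2) (ZMod 2), X * Y = Y * X := fun X Y =>
    commute_all r hspan (fun g => (h1 g Y).symm) X
  exact absurd (h2 !![1, 1; 0, 1] !![1, 0; 1, 1]) (by decide)

variable {V : Type*} [AddCommGroup V] [Module (ZMod 2) V] (ψ : Γ →* Module.End (ZMod 2) V)
  (hq : ∀ g v, ψ g (ψ g v) - (r g).trace • ψ g v + (r g).det • v = 0)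
include hq

omit hspan in
theorem apply_apply_of_trace {g : Γ} (h : (r g).trace = 0) (v : V) : ψ g (ψ g v) = v := by
  have h1 := hq g v
  rw [h, zero_smul, sub_zero, det_eq_one r g, one_smul] at h1
  rw [eq_neg_of_add_eq_zero_left h1, ZModModule.neg_eq_self]

omit hspan in
theorem add_eq_zero_of_trace {g : Γ} (h : (r g).trace = 1) (v : V) :
    ψ g (ψ g v) + ψ g v + v = 0 := by
  have h1 := hq g v
  rwa [h, one_smul, det_eq_one r g, one_smul, ZModModule.sub_eq_add] at h1

/-- The module factors through `r`. -/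
theorem apply_eq_self_of_eq_one {x : Γ} (hx : r x = 1) (v : V) : ψ x v = v := by
  obtain ⟨s, hs, hs1⟩ := exists_trace_zero r hspan
  obtain ⟨σ, hσ⟩ := exists_trace_one r hspan
  have hx0 : (r x).trace = 0 := by rw [hx, Matrix.trace_one, Fintype.card_fin]; rfl
  have comm : ∀ g, (r g).trace = 0 → ∀ w, ψ x (ψ g w) = ψ g (ψ x w) := by
    intro g hg w
    have h1 := apply_apply_of_trace r ψ hq (g := g * x) (by rw [map_mul, hx, mul_one, hg]) w
    rw [map_mul, Module.End.mul_apply, Module.End.mul_apply] at h1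
    have h2 := congrArg (ψ g) h1
    rw [apply_apply_of_trace r ψ hq hg] at h2
    have h3 := congrArg (ψ x) h2
    rw [apply_apply_of_trace r ψ hq hx0] at h3
    exact h3.symm
  have hsσ : ∀ w, ψ x (ψ σ w) = ψ σ (ψ x w) := by
    intro w
    have h1 := comm (s * σ) (by
      rw [map_mul]
      exact fin2_trace_mul _ _ (det_eq_one r s) (det_eq_one r σ) hs hs1 hσ) w
    simp only [map_mul, Module.End.mul_apply] at h1
    rw [comm s hs] at h1
    have h2 := congrArg (ψ s) h1
    rwa [apply_apply_of_trace r ψ hq hs, apply_apply_of_trace r ψ hq hs] at h2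
  have h1 := add_eq_zero_of_trace r ψ hq (g := σ * x) (by rw [map_mul, hx, mul_one, hσ]) v
  simp only [map_mul, Module.End.mul_apply] at h1
  rw [hsσ (ψ x v), apply_apply_of_trace r ψ hq hx0] at h1
  have h2 := h1.trans (add_eq_zero_of_trace r ψ hq hσ v).symm
  have h3 : ψ σ (ψ x v) = ψ σ v := add_left_cancel (add_right_cancel h2)
  have hinj : ψ σ⁻¹ (ψ σ (ψ x v)) = ψ σ⁻¹ (ψ σ v) := congrArg _ h3
  rwa [← Module.End.mul_apply, ← map_mul, inv_mul_cancel, map_one, Module.End.one_apply,
    ← Module.End.mul_apply, ← map_mul, inv_mul_cancel, map_one, Module.End.one_apply] at hinj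

end Rep

variable {q M : ℕ} [hq : Fact q.Prime] [NeZero M]

/-- **The step from level `q M` to level `M`.** -/
theorem card_eigTors_le (hqM : ¬ q ∣ M) (hq2 : q ≠ 2) (h9 : 9 ∣ M) {G : ℕ → Prop} {a : ℕ → ℕ}
    (hG : ∀ l, l.Prime → G l → ¬ l ∣ q * M * 2) (T : Finset ℕ) (hT : ∀ l, l.Prime → l ∉ T → G l)
    (r : GQ →* Matrix (Fin 2) (Fin 2) (ZMod 2))
    (hfin : ∃ L : IntermediateField ℚ QBar, FiniteDimensional ℚ L ∧
      ∀ σ : GQ, (∀ z ∈ L, σ z = z) → r σ = 1)
    (hspan : Submodule.span (ZMod 2) (Set.range r) = ⊤)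
    (hfrob : ∀ l, l.Prime → G l → ∀ A' : ValuationSubring QBar, A'.LiesOverPrime l →
      ∀ σ : GQ, A'.IsFrobeniusAt σ l → (r σ).trace = a l ∧ (r σ).det = l)
    (hunr : ∀ A : ValuationSubring QBar, A.LiesOverPrime q →
      ∀ τ ∈ A.inertiaSubgroupIn ℚ, r τ = 1)
    {A : ValuationSubring QBar} (hA : A.LiesOverPrime q) {F : GQ} (hF : A.IsFrobeniusAt F q)
    (hns : ∀ c : ZMod 2, r F ≠ c • 1) :
    Nat.card (eigTors (q * M) 2 G a) ≤ Nat.card (eigTors M 2 G a) ^ 4 := by
  classical
  have hGN : ∀ l, l.Prime → G l → ¬ l ∣ q * M := fun l hl hl' h =>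
    hG l hl hl' (h.trans (dvd_mul_right _ _))
  set ψ := eigRep (q * M) 2 G a with hψ
  have hquad := eigRep_quadratic (GaloisReps.congruenceProperty (q * M) 2) hG T hT r hfin hfrob
  have htriv : ∀ x, r x = 1 → ∀ v, ψ x v = v := fun x hx v =>
    apply_eq_self_of_eq_one r hspan ψ hquad hx v
  obtain ⟨g, hg⟩ : ∃ g, r g * r F ≠ r F * r g := by
    by_contra h
    simp only [not_exists, not_not] at h
    obtain ⟨c, hc⟩ := fin2_center (r F) (commute_all r hspan h)
    exact hns c hc
  set A' := g • A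
  have hA' : A'.LiesOverPrime q := liesOverPrime_smul_iff.mpr hA
  set F' := g * F * g⁻¹ with hF'def
  have hF' : A'.IsFrobeniusAt F' q := isFrobeniusAt_conj hF
  have hex : ∃ l, l.Prime ∧ G l ∧ ((l + 1 : ℕ) : ZMod 2) ≠ (a l : ZMod 2) := by
    obtain ⟨σ, hσ⟩ := exists_trace_one r hspan
    obtain ⟨L, hL, hrL⟩ := hfin
    obtain ⟨l, hl, hlT, B, hB, τ, hτ, he⟩ := Arith.Chebotarev.exists_frobenius_eq r L hrL σ T
    refine ⟨l, hl, hT l hl hlT, ?_⟩
    obtain ⟨h1, h2⟩ := hfrob l hl (hT l hl hlT) B hB τ hτ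
    rw [← h1, he, hσ, Nat.cast_succ, ← h2, det_eq_one]
    decide
  have hfix : ∀ B : ValuationSubring QBar, B.LiesOverPrime q → ∀ v : eigTors (q * M) 2 G a,
      ∀ τ ∈ B.inertiaSubgroupIn ℚ, τ • (v : JZero (q * M)) = v := fun B hB v τ hτ =>
    congrArg Subtype.val (htriv τ (hunr B hB τ hτ) v)
  obtain ⟨Φ, hΦ⟩ := exists_reduction_map (G := G) (a := a) hA hqM hq2.symm (Or.inr rfl) h9 hGN hex hF
  obtain ⟨Φ', hΦ'⟩ :=
    exists_reduction_map (G := G) (a := a) hA' hqM hq2.symm (Or.inr rfl) h9 hGN hex hF'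
  let Ψ : eigTors (q * M) 2 G a →
      (eigTors M 2 G a × eigTors M 2 G a) × (eigTors M 2 G a × eigTors M 2 G a) :=
    fun v => (Φ ⟨v.1, v.2, hfix A hA v⟩, Φ' ⟨v.1, v.2, hfix A' hA' v⟩)
  have hinj : Function.Injective Ψ := by
    intro v v' h
    set d := v - v' with hd
    have e1 := hΦ _ _ (congrArg Prod.fst h)
    have e2 := hΦ' _ _ (congrArg Prod.snd h)
    have e3 : F • (d : JZero (q * M)) = F' • (d : JZero (q * M)) := by
      rw [hd, AddSubgroupClass.coe_sub]
      exact e1.trans e2.symm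
    have e4 : ψ (F⁻¹ * F') d = d := by
      refine Subtype.ext ?_
      rw [coe_eigRep, mul_smul, ← e3, inv_smul_smul]
    have hu : (r (F⁻¹ * F')).trace = 1 := by
      refine fin2_trace_of_conj (r F) _ (det_eq_one r F) (det_eq_one r _)
        (fun h1 => hns 1 (by rw [h1, one_smul])) (fun h1 => hg ?_) (fun h1 => hns 1 ?_) ?_
      · have e5 : r g * r F = r F * r (F⁻¹ * F') * r g := by
          rw [← map_mul, ← map_mul, ← map_mul, hF'def]
          exact congrArg r (by group)
        rwa [h1, mul_one] at e5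
      · rw [← map_mul, mul_inv_cancel_left] at h1
        rw [one_smul, show F = g⁻¹ * F' * g by rw [hF'def]; group, map_mul, map_mul, h1, mul_one,
          ← map_mul, inv_mul_cancel, map_one]
      · rw [← map_mul, mul_inv_cancel_left, hF'def, map_mul, Matrix.trace_mul_comm, ← map_mul,
          inv_mul_cancel_left]
    have h0 := add_eq_zero_of_trace r ψ hquad hu d
    rw [e4, e4, ZModModule.add_self, zero_add] at h0
    exact sub_eq_zero.mp h0
  calc Nat.card (eigTors (q * M) 2 G a)
      ≤ Nat.card ((eigTors M 2 G a × eigTors M 2 G a) × (eigTors M 2 G a × eigTors M 2 G a)) :=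
        Nat.card_le_card_of_injective Ψ hinj
    _ = Nat.card (eigTors M 2 G a) ^ 4 := by rw [Nat.card_prod, Nat.card_prod]; ring

end Fermat.Agent.RT.Two.Socle

end
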