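import Fermat.Agent.RT.Two.Hecke.Socle
import Fermat.Agent.RT.Two.Hecke.SocleGalois
import Fermat.Agent.RT.Two.Seed.EigenHom
import Fermat.Agent.LevelRaising.Commute
import Mathlib.RingTheory.AdicCompletion.Basic

/-!
# The socle is bounded

Eigen homomorphisms modulo two of the auxiliary level restrict injectively to the level times
nine, where they are eigen classes; these are bounded step by step from the level `9 N`.
-/

set_option autoImplicit false
set_option linter.unusedSectionVars false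

noncomputable section

namespace Fermat.Agent.RT.Two.Socle

open CongruenceSubgroup ModularCurve IsLocalRing
open Fermat.Agent.Arith Fermat.Agent.RT.AtP
open Fermat.Agent.GaloisReps (torsionIso conjProperty heckeTors homOp)
open Fermat.Agent.LevelRaising (RaiseData gamma0_dvd sl_det)
open Fermat.Agent.Periods (homT)
open scoped MatrixGroups

/-! ### Eigen classes -/

theorem card_eigTors_prod_le {M₀ : ℕ} [NeZero M₀] (h9 : 9 ∣ M₀)
    {G : ℕ → Prop} {a : ℕ → ℕ} (T : Finset ℕ) (hT : ∀ l, l.Prime → l ∉ T → G l)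
    (r : GQ →* Matrix (Fin 2) (Fin 2) (ZMod 2))
    (hfin : ∃ L : IntermediateField ℚ QBar, FiniteDimensional ℚ L ∧
      ∀ σ : GQ, (∀ z ∈ L, σ z = z) → r σ = 1)
    (hspan : Submodule.span (ZMod 2) (Set.range r) = ⊤)
    (hfrob : ∀ l, l.Prime → G l → ∀ A' : ValuationSubring QBar, A'.LiesOverPrime l →
      ∀ σ : GQ, A'.IsFrobeniusAt σ l → (r σ).trace = a l ∧ (r σ).det = l)
    (s : Finset ℕ)
    (hs : ∀ q ∈ s, q.Prime ∧ q ≠ 2 ∧ ¬ q ∣ M₀ ∧
      (∀ A : ValuationSubring QBar, A.LiesOverPrime q → ∀ τ ∈ A.inertiaSubgroupIn ℚ, r τ = 1) ∧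
      ∃ (A : ValuationSubring QBar) (F : GQ), A.LiesOverPrime q ∧ A.IsFrobeniusAt F q ∧
        ∀ c : ZMod 2, r F ≠ c • 1)
    (hG : ∀ l, l.Prime → G l → ¬ l ∣ (M₀ * ∏ q ∈ s, q) * 2) :
    ∀ (L : ℕ) [NeZero L], L = M₀ * ∏ q ∈ s, q →
      Nat.card (eigTors L 2 G a) ≤ Nat.card {x : JZero M₀ // 2 • x = 0} ^ 4 ^ s.card := by
  classical
  induction s using Finset.induction_on with
  | empty =>
    intro L _ hL
    rw [Finset.prod_empty, mul_one] at hL
    subst hL
    have := finite_pTors L 2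
    rw [Finset.card_empty, pow_zero, pow_one]
    exact Nat.card_le_card_of_injective (fun x => (⟨x.1, x.2.1⟩ : {x : JZero L // 2 • x = 0}))
      fun x y h => Subtype.ext (congrArg (fun z : {x : JZero L // 2 • x = 0} => z.1) h)
  | @insert q s hqs ih =>
    intro L _ hL
    obtain ⟨hq, hq2, hqM₀, hunr, A, F, hA, hF, hns⟩ := hs q (Finset.mem_insert_self q s)
    have := Fact.mk hq
    set M := M₀ * ∏ q ∈ s, q with hM
    have hMq : q * M = M₀ * ∏ q ∈ insert q s, q := by rw [Finset.prod_insert hqs, hM]; ring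
    have hqM : ¬ q ∣ M := fun h => by
      rcases hq.dvd_mul.mp h with h | h
      · exact hqM₀ h
      · obtain ⟨x, hx, hqx⟩ := hq.prime.exists_mem_finset_dvd h
        exact hqs ((Nat.prime_dvd_prime_iff_eq hq
          (hs x (Finset.mem_insert_of_mem hx)).1).mp hqx ▸ hx)
    have hsM : NeZero M := ⟨fun h0 => hqM (h0 ▸ dvd_zero q)⟩
    obtain rfl : L = q * M := hL.trans hMq.symm
    have hG' : ∀ l, l.Prime → G l → ¬ l ∣ q * M * 2 := fun l hl hGl => hMq ▸ hG l hl hGl
    have h1 := card_eigTors_le (M := M) hqM hq2 (h9.trans (dvd_mul_right _ _)) hG' T hT r hfin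
      hspan hfrob hunr hA hF hns
    have h2 := ih (fun x hx => hs x (Finset.mem_insert_of_mem hx))
      (fun l hl hGl h => hG' l hl hGl (h.trans ⟨q, by ring⟩)) M rfl
    refine h1.trans ((Nat.pow_le_pow_left h2 4).trans_eq ?_)
    rw [← pow_mul, Finset.card_insert_of_notMem hqs, pow_succ]

/-! ### Restriction to nine times the level -/

section Res

variable {L : ℕ} [NeZero L] {F : Type} [AddCommGroup F]

variable (L) in
/-- The lower unipotent elements. -/
def low (k : ℤ) : Gamma0 L :=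
  ⟨⟨!![1, 0; k * L, 1], by simp [Matrix.det_fin_two_of]⟩, by
    rw [Gamma0_mem]
    simp⟩

theorem low_add (i j : ℤ) : low L (i + j) = low L i * low L j :=
  Subtype.ext (Matrix.SpecialLinearGroup.ext _ _ fun a b => by
    fin_cases a <;> fin_cases b <;> simp [low, Matrix.mul_apply, Fin.sum_univ_two, add_mul])

/-- A homomorphism modulo two killing `Γ₀(9 L)` is zero. -/
theorem eq_zero_of_res (hF : ∀ x : F, x + x = 0) {φ : Additive (Gamma0 L) →+ F}
    (h : ∀ γ : Gamma0 L, ((L * 9 : ℕ) : ℤ) ∣ (γ : SL(2, ℤ)) 1 0 → φ (Additive.ofMul γ) = 0) :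
    φ = 0 := by
  have hlow : ∀ k, φ (Additive.ofMul (low L k)) = 0 := by
    intro k
    let f : ℤ →+ F := AddMonoidHom.mk' (fun i => φ (Additive.ofMul (low L i))) fun i j => by
      rw [low_add, ofMul_mul, map_add]
    have h0 : f (9 * k) = 0 := h _ ⟨k, by simp [low]; ring⟩
    have h9 : f (9 * k) = (9 : ℕ) • f k := by rw [← map_nsmul]; exact congrArg f (by simp)
    rw [h0, Seed.odd_nsmul_eq hF (by decide)] at h9
    exact h9.symm
  have key : ∀ γ : Gamma0 L, IsCoprime ((γ : SL(2, ℤ)) 1 1) (3 : ℤ) →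
      φ (Additive.ofMul γ) = 0 := by
    intro γ hco
    obtain ⟨c, hc⟩ := gamma0_dvd γ
    obtain ⟨u, v, huv⟩ := hco.pow_right (n := 2)
    have h0 := h (γ * low L (-(c * u))) ⟨v * c, by
      simp [low, Matrix.mul_apply, Fin.sum_univ_two, hc]
      linear_combination -(c * (L : ℤ)) * huv⟩
    rwa [ofMul_mul, map_add, hlow, add_zero] at h0
  let t : Gamma0 L := ⟨ModularGroup.T, by simp [Gamma0_mem, ModularGroup.T]⟩
  have ht : φ (Additive.ofMul t) = 0 := h t ⟨0, by simp [t, ModularGroup.T]⟩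
  refine AddMonoidHom.ext fun z => ?_
  obtain ⟨γ, rfl⟩ := Additive.ofMul.surjective z
  rw [AddMonoidHom.zero_apply]
  have h3 : Prime (3 : ℤ) := Int.prime_three
  by_cases hco : (3 : ℤ) ∣ (γ : SL(2, ℤ)) 1 1
  · have h0 := key (γ * t) (by
      refine (h3.coprime_iff_not_dvd.mpr fun h' => ?_).symm
      have e : ((γ * t : Gamma0 L) : SL(2, ℤ)) 1 1 =
          (γ : SL(2, ℤ)) 1 0 + (γ : SL(2, ℤ)) 1 1 := by
        simp [t, ModularGroup.T, Matrix.mul_apply, Fin.sum_univ_two]
      rw [e] at h'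
      have h10 : (3 : ℤ) ∣ (γ : SL(2, ℤ)) 1 0 := (dvd_add_left hco).mp h'
      have h1 : (3 : ℤ) ∣ 1 := by
        rw [← sl_det (γ : SL(2, ℤ))]
        exact dvd_sub (hco.mul_left _) (h10.mul_left _)
      exact h3.not_dvd_one h1)
    rwa [ofMul_mul, map_add, ht, add_zero] at h0
  · exact key γ (h3.coprime_iff_not_dvd.mpr hco).symm

end Res

/-! ### The bound -/

variable (O : Type) [CommRing O] [IsDomain O] [IsDiscreteValuationRing O]
  [IsAdicComplete (maximalIdeal O) O] [Finite (ResidueField O)] [CharZero O]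
  [Algebra (ZMod 2) (ResidueField O)]

theorem _root_.Fermat.Agent.RT.Two.socleInput : SocleInput O := by
  classical
  intro N r
  set K := ResidueField O
  set d := Module.finrank (ZMod 2) K with hd
  set C := Nat.card {x : JZero (9 * N) // 2 • x = 0} with hC
  refine ⟨(C ^ 4 ^ r) ^ d, fun T => ?_⟩
  have : NeZero N := ⟨T.odd.pos.ne'⟩
  have : NeZero (9 * N) := ⟨mul_ne_zero (by norm_num) (NeZero.ne N)⟩
  set L := T.level with hLdef
  have : NeZero (L * 9) := ⟨mul_ne_zero (NeZero.ne L) (by norm_num)⟩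
  -- arithmetic of the level
  have hqmod : ∀ i, T.q i % 8 = 1 := fun i => by
    have h8 : 8 ∣ T.q i - 1 := (pow_dvd_pow 2 (by omega : 3 ≤ T.n + 3)).trans (T.q_congr i)
    have := (T.q_prime i).one_lt
    omega
  have hprod : ∏ i, T.q i = ∏ q ∈ Finset.univ.image T.q, q := by
    rw [Finset.prod_image T.q_injective.injOn]
  have hLodd : Odd L := T.odd.mul (Finset.prod_induction _ Odd (fun _ _ => Odd.mul) odd_one
    fun i _ => Nat.odd_iff.mpr (by have := hqmod i; omega))
  have hcop : Nat.Coprime N (∏ i, T.q i) := Nat.Coprime.prod_right fun i _ =>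
    ((T.q_prime i).coprime_iff_not_dvd.mpr (T.q_not_dvd i)).symm
  have hsq : Squarefree L := by
    refine (Nat.squarefree_mul hcop).mpr ⟨T.squarefree, ?_⟩
    rw [hprod]
    refine Finset.squarefree_prod_of_pairwise_isCoprime ?_ ?_
    · intro x hx y hy hxy
      simp only [Finset.coe_image, Set.mem_image] at hx hy
      obtain ⟨i, -, rfl⟩ := hx
      obtain ⟨j, -, rfl⟩ := hy
      exact Nat.coprime_iff_isRelPrime.mp ((Nat.coprime_primes (T.q_prime i) (T.q_prime j)).mpr hxy)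
    · simp only [Finset.mem_image, Finset.mem_univ, true_and, forall_exists_index,
        forall_apply_eq_imp_iff]
      exact fun i => (T.q_prime i).squarefree
  have h3 : ∃ p : ℕ, p.Prime ∧ p ∣ L ∧ p % 4 = 3 :=
    T.exists_three_mod_four.imp fun p hp => ⟨hp.1, hp.2.1.mul_right _, hp.2.2⟩
  -- the residual data
  set G : ℕ → Prop := fun l => l ∉ T.S with hG
  set a : ℕ → ℕ := fun l => ((T.aE l : ZMod 2)).val with ha
  have hacast : ∀ l, (a l : ZMod 2) = (T.aE l : ZMod 2) := fun l => ZMod.natCast_zmod_val _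
  have hGdvd : ∀ l, l.Prime → G l → ¬ l ∣ 6 * L := fun l hl hGl h => hGl (T.mem_S l hl h)
  have hGL : ∀ l, l.Prime → G l → ¬ l ∣ L := fun l hl hGl h => hGdvd l hl hGl (h.mul_left 6)
  have hG9 : ∀ l, l.Prime → G l → ¬ l ∣ L * 9 := fun l hl hGl h => by
    rcases hl.dvd_mul.mp h with h | h
    · exact hGL l hl hGl h
    · exact hGdvd l hl hGl (((hl.dvd_of_dvd_pow (show l ∣ 3 ^ 2 by norm_num; exact h)).trans
        (by norm_num : (3 : ℕ) ∣ 6)).mul_right _)
  have hne2 : ∀ l, l.Prime → G l → l ≠ 2 := fun l hl hGl h =>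
    hGdvd l hl hGl (h ▸ (by norm_num : (2 : ℕ) ∣ 6).mul_right _)
  have hfrob : ∀ l, l.Prime → G l → ∀ A : ValuationSubring QBar, A.LiesOverPrime l →
      ∀ σ : GQ, A.IsFrobeniusAt σ l → (T.r₂ σ).trace = a l ∧ (T.r₂ σ).det = l := by
    intro l hl hGl A hA σ hσ
    obtain ⟨h1, h2⟩ := T.r₂_frobenius l hl hGl A hA σ hσ
    exact ⟨by rw [h1, hacast], by
      rw [h2, ZMod.natCast_eq_one_iff_odd.mpr (hl.odd_of_ne_two (hne2 l hl hGl))]⟩
  -- classes
  set V := eigTors (L * 9) 2 G a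
  have hV : Nat.card V ≤ C ^ 4 ^ r := by
    refine (card_eigTors_prod_le (M₀ := 9 * N) (dvd_mul_right 9 N) T.S (fun l _ h => h) T.r₂
      T.r₂_finite T.r₂_span hfrob (Finset.univ.image T.q) ?_ ?_ (L * 9) ?_).trans_eq ?_
    · intro q hq
      obtain ⟨i, -, rfl⟩ := Finset.mem_image.mp hq
      have h8 := hqmod i
      refine ⟨T.q_prime i, by omega, fun h => ?_, fun A hA τ hτ =>
        T.r₂_unramified _ (T.q_prime i) (fun h => ?_) A hA τ hτ,
        T.A i, T.F i, T.liesOver i, T.isFrobenius i, T.F_nonscalar i⟩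
      · rcases (T.q_prime i).dvd_mul.mp h with h | h
        · have h3' := (Nat.prime_dvd_prime_iff_eq (T.q_prime i) Nat.prime_three).mp
            ((T.q_prime i).dvd_of_dvd_pow (show T.q i ∣ 3 ^ 2 by norm_num; exact h))
          omega
        · exact T.q_not_dvd i h
      · rcases (T.q_prime i).dvd_mul.mp h with h | h
        · have h2' := (Nat.prime_dvd_prime_iff_eq (T.q_prime i) Nat.prime_two).mp h
          omega
        · exact T.q_not_dvd i h
    · intro l hl hGl h
      rw [show (9 * N * ∏ q ∈ Finset.univ.image T.q, q) * 2 = (L * 9) * 2 by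
        rw [← hprod, hLdef, TwoSetup.level]; ring] at h
      rcases hl.dvd_mul.mp h with h | h
      · exact hG9 l hl hGl h
      · exact hne2 l hl hGl ((Nat.prime_dvd_prime_iff_eq hl Nat.prime_two).mp h)
    · rw [← hprod, hLdef, TwoSetup.level]; ring
    · rw [Finset.card_image_of_injective _ T.q_injective, Finset.card_univ, Fintype.card_fin]
  -- a prime with odd eigenvalue
  obtain ⟨l₀, hl₀, hG₀, ha₀⟩ : ∃ l₀ : ℕ, l₀.Prime ∧ G l₀ ∧ Odd (a l₀) := by
    obtain ⟨σ, hσ⟩ := exists_trace_one T.r₂ T.r₂_span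
    obtain ⟨F, hF, hrF⟩ := T.r₂_finite
    obtain ⟨l, hl, hlS, A, hA, τ, hτ, he⟩ :=
      Arith.Chebotarev.exists_frobenius_eq T.r₂ F hrF σ T.S
    refine ⟨l, hl, hlS, ZMod.natCast_eq_one_iff_odd.mp ?_⟩
    rw [← (hfrob l hl hlS A hA τ hτ).1, he, hσ]
  have hK : ∀ x : K, x + x = 0 := fun x => ZModModule.add_self x
  have : Module.Finite (ZMod 2) K := Module.Finite.of_finite
  let bK := Module.finBasis (ZMod 2) K
  let f : Fin d → (K →+ ZMod (2 ^ 1)) := fun i =>
    ((ZMod.ringEquivCongr (pow_one 2).symm).toRingHom.toAddMonoidHom).comp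
      (bK.coord i).toAddMonoidHom
  -- the homomorphisms on `Γ₀(L)`
  let ψ : T.socle → (Additive (Gamma0 L) →+ K) := fun φ => (Lift.toTop K L).symm φ.1
  have hψe : ∀ φ l (hl : l.Prime) (hGl : G l),
      homT hl (hGL l hl hGl) ℤ (ψ φ) = a l • ψ φ := by
    intro φ l hl hGl
    have : Fact l.Prime := ⟨hl⟩
    have h := LinearMap.mem_ker.mp ((Submodule.mem_iInf _).mp φ.2 ⟨l, hl, hGl⟩)
    rw [LinearMap.sub_apply, LinearMap.smul_apply, Module.End.one_apply, sub_eq_zero,
      ← (Lift.toTop K L).apply_symm_apply φ.1, Lift.hecke_toTop K hl (hGL l hl hGl),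
      ← map_smul, (Lift.toTop K L).injective.eq_iff] at h
    refine (show _ = homT hl (hGL l hl hGl) K (ψ φ) from rfl).trans (h.trans ?_)
    rw [← Nat.cast_smul_eq_nsmul K, ← map_natCast (algebraMap (ZMod 2) K), hacast, map_intCast]
  have hhom : ∀ χ : Additive (Gamma0 L) →+ K, χ + χ = 0 := fun χ =>
    AddMonoidHom.ext fun z => hK _
  have hψmem : ∀ φ, ψ φ ∈ Gamma0.ellParHoms (Gamma0 L) K := fun φ =>
    Seed.mem_ellParHoms_of_eigen hK hsq h3 hl₀ (hne2 l₀ hl₀ hG₀) (hGL l₀ hl₀ hG₀)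
      (by rw [hψe φ l₀ hl₀ hG₀, Seed.odd_nsmul_eq hhom ha₀])
      fun h2 => absurd h2 hLodd.not_two_dvd_nat
  let χ : T.socle → Fin d → (Additive (Gamma0 (L * 9)) →+ ZMod (2 ^ 1)) := fun φ i =>
    (RaiseData.resSys 9 L).apply ((f i).comp (ψ φ))
  have hχapply : ∀ φ i (γ : Gamma0 (L * 9)) (c : Gamma0 L), (c : SL(2, ℤ)) = (γ : SL(2, ℤ)) →
      χ φ i (Additive.ofMul γ) = f i (ψ φ (Additive.ofMul c)) := fun φ i γ c hc =>
    LevelRaising.res_apply _ γ hc
  have hχmem : ∀ φ i, χ φ i ∈ Gamma0.ellParHoms (Gamma0 (L * 9)) (ZMod (2 ^ 1)) := by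
    intro φ i γ hγ
    obtain ⟨c, hc⟩ := LevelRaising.exists_res_lift γ
    rw [hχapply φ i γ c hc, hψmem φ c (hc ▸ hγ), map_zero]
  have hχe : ∀ φ i l (hl : l.Prime), G l →
      homOp (L * 9) (ZMod (2 ^ 1)) l hl (χ φ i) = a l • χ φ i := by
    intro φ i l hl hGl
    rw [homOp, dif_neg (hG9 l hl hGl)]
    refine (LevelRaising.homT_res (q := 9) ℤ hl (hGL l hl hGl) (hG9 l hl hGl) _).trans ?_
    rw [Periods.homT_comp hl (hGL l hl hGl) ℤ ℤ, hψe φ l hl hGl,
      show (f i).comp (a l • ψ φ) = a l • (f i).comp (ψ φ) from AddMonoidHom.ext fun z => map_nsmul (f i) _ _]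
    exact map_nsmul ((RaiseData.resSys 9 L).op ℤ) _ _
  let E := torsionIso (L * 9) 2 (conjProperty (L * 9))
  let Ψ : T.socle → Fin d → V := fun φ i =>
    ⟨((E.e 1).symm ⟨χ φ i, hχmem φ i⟩ : JZero (L * 9)), Seed.symm_eigenclass (hχmem φ i) (hχe φ i)⟩
  have hinj : Function.Injective Ψ := by
    intro φ φ' h
    have h1 : ∀ i, χ φ i = χ φ' i := fun i =>
      congrArg Subtype.val ((E.e 1).symm.injective (Subtype.ext
        (congrArg (fun v : V => (v : JZero (L * 9))) (congrFun h i))))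
    have h2 : ψ φ - ψ φ' = 0 := by
      refine eq_zero_of_res hK fun γ hγ => ?_
      have hγ' : (γ : SL(2, ℤ)) ∈ Gamma0 (L * 9) :=
        Gamma0_mem.2 ((ZMod.intCast_zmod_eq_zero_iff_dvd _ _).2 hγ)
      rw [AddMonoidHom.sub_apply, sub_eq_zero]
      refine bK.repr.injective (Finsupp.ext fun i => ?_)
      have h3 := DFunLike.congr_fun (h1 i) (Additive.ofMul ⟨_, hγ'⟩)
      rw [hχapply φ i _ γ rfl, hχapply φ' i _ γ rfl] at h3
      exact (ZMod.ringEquivCongr (pow_one 2).symm).injective h3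
    exact Subtype.ext ((Lift.toTop K L).symm.injective (sub_eq_zero.mp h2))
  have : Finite T.socle := Finite.of_injective Ψ hinj
  have hcard : Nat.card T.socle ≤ (C ^ 4 ^ r) ^ d := by
    refine (Nat.card_le_card_of_injective Ψ hinj).trans ?_
    rw [Nat.card_fun, Nat.card_eq_fintype_card (α := Fin d), Fintype.card_fin]
    exact Nat.pow_le_pow_left hV d
  have hfinite : Module.Finite K T.socle := Module.Finite.of_finite
  refine ⟨hfinite, le_trans ?_ hcard⟩
  rw [Module.natCard_eq_pow_finrank (K := K) (V := T.socle)]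
  exact (Nat.lt_pow_self (Finite.one_lt_card)).le

end Fermat.Agent.RT.Two.Socle

end
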