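import Fermat.Agent.RT.Two.Hecke.Occurs

/-!
# Points over `O` and their representations

The traces and determinants at a point over `O` are those of any representation with the same
Frobenius data, and inertia at an auxiliary prime maps to one at a point of level `N`.
-/

set_option autoImplicit false
set_option linter.unusedSectionVars false

noncomputable section

namespace Fermat.Agent.RT.Two

open IsLocalRing Fermat.Agent.Arith Fermat.Agent.Deform
open Fermat.Agent.RT.GammaH

variable {O : Type} [CommRing O] [IsDomain O] [IsDiscreteValuationRing O]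
  [IsAdicComplete (maximalIdeal O) O] [Finite (ResidueField O)] [CharZero O]
  [Algebra (ZMod 2) (ResidueField O)] {N r : ℕ}

namespace TwoSetup

variable {T : TwoSetup O N r}

theorem psi_eq_one_of_forall {u : (ZMod T.level)ˣ}
    (h : ∀ i, ZMod.unitsMap (T.q_dvd_level i) u = 1) : T.psi u = 1 := by
  refine Multiplicative.toAdd.injective (funext fun i => ?_)
  rw [T.psi_apply, T.psiRoot_apply, h, map_one, toAdd_one, map_zero]
  rfl

theorem psi_inertia_eq_one {v : ℕ} (hv : v.Prime) (hvN : v ∣ N) {A : ValuationSubring QBar}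
    (hA : A.LiesOverPrime v) {σ : GQ} (hσ : σ ∈ A.inertiaSubgroupIn ℚ) :
    T.psi (cyclotomicHom T.level σ) = 1 := by
  refine psi_eq_one_of_forall fun i => ?_
  have : NeZero (T.q i) := ⟨(T.q_prime i).ne_zero⟩
  rw [unitsMap_cyclotomicHom]
  refine cyclotomicHom_inertia hA hv hσ fun h => T.q_not_dvd i ?_
  rwa [← (Nat.prime_dvd_prime_iff_eq hv (T.q_prime i)).1 h]

theorem psi_eq_one_of_roots {σ : GQ}
    (h : ∀ μ : QBar, μ ^ ∏ i, T.q i = 1 → σ μ = μ) : T.psi (cyclotomicHom T.level σ) = 1 := by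
  refine psi_eq_one_of_forall fun i => Units.ext ?_
  have : NeZero (T.q i) := ⟨(T.q_prime i).ne_zero⟩
  rw [unitsMap_cyclotomicHom, cyclotomicHom_eq_of_forall (c := 1) fun μ hμ => ?_, Nat.cast_one,
    Units.val_one]
  rw [pow_one]
  refine h μ ?_
  obtain ⟨k, hk⟩ := Finset.dvd_prod_of_mem T.q (Finset.mem_univ i)
  rw [hk, pow_mul, hμ, one_pow]

namespace Glob

variable {l : T.Loc} (G : Glob l)

/-- **Traces and determinants at a point over `O` from the Frobenius data.** -/
theorem eq_of_frobenius (θ : l.A →ₐ[O] O) (hres : ∀ a, residue O (θ a) = l.aug a)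
    (hdia : ∀ q, θ (l.dia q) = 1) (ρ₀ : GaloisRepAdic O)
    (hρ : ∀ ℓ : ℕ, ℓ.Prime → ℓ ∉ T.S → ∀ A : ValuationSubring QBar, A.LiesOverPrime ℓ →
      ∀ σ : GQ, A.IsFrobeniusAt σ ℓ →
        ρ₀.trace σ = θ (l.hk ℓ) ∧ LinearMap.det (ρ₀.ρ σ) = (ℓ : O)) (σ : GQ) :
    θ (G.R σ).trace = ρ₀.trace σ ∧ θ (G.R σ).det = LinearMap.det (ρ₀.ρ σ) := by
  let b := Module.finBasisOfFinrankEq O ρ₀.V ρ₀.finrank_eq
  have key : ∀ n : ℕ, θ (G.R σ).trace - ρ₀.trace σ ∈ maximalIdeal O ^ n ∧
      θ (G.R σ).det - LinearMap.det (ρ₀.ρ σ) ∈ maximalIdeal O ^ n := fun n => by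
    set I : Ideal O := maximalIdeal O ^ n
    have hθI : (maximalIdeal l.A ^ n).map θ.toRingHom ≤ I := by
      rw [Ideal.map_pow]
      refine Ideal.pow_right_mono (Ideal.map_le_iff_le_comap.2 fun a ha => ?_) n
      rw [Ideal.mem_comap, ← residue_eq_zero_iff]
      show residue O (θ a) = 0
      rw [hres]
      exact l.mem_maximalIdeal_iff.1 ha
    obtain ⟨L₁, hL₁, h1⟩ := G.cont n
    obtain ⟨L₂, hL₂, h2⟩ := isCont_matOf ρ₀ b n
    let mk := Ideal.Quotient.mk I
    let f : GQ →* M2 (O ⧸ I) × M2 (O ⧸ I) :=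
      ((mk.comp θ.toRingHom).mapMatrix.toMonoidHom.comp G.R).prod
        (mk.mapMatrix.toMonoidHom.comp (matOf ρ₀ b))
    obtain ⟨ℓ, hℓ, hℓS, A, hA, s, hs, he⟩ := Arith.Chebotarev.exists_frobenius_eq f (L₁ ⊔ L₂)
      (fun g hg => by
        have e1 : ∀ i j, mk (θ (G.R g i j)) = mk (θ ((1 : M2 l.A) i j)) := fun i j => by
          rw [Ideal.Quotient.eq, ← map_sub]
          exact hθI (Ideal.mem_map_of_mem θ.toRingHom
            (h1 g (fun z hz => hg z (le_sup_left (b := L₂) hz)) i j))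
        have e2 : ∀ i j, mk (matOf ρ₀ b g i j) = mk ((1 : M2 O) i j) := fun i j => by
          rw [Ideal.Quotient.eq]
          exact h2 g (fun z hz => hg z (le_sup_right (a := L₁) hz)) i j
        refine Prod.ext (Matrix.ext fun i j => ?_) (Matrix.ext fun i j => ?_)
        · refine (e1 i j).trans ?_
          show mk (θ ((1 : M2 l.A) i j)) = (1 : M2 (O ⧸ I)) i j
          rw [Matrix.one_apply, Matrix.one_apply]
          split_ifs <;> simp
        · refine (e2 i j).trans ?_
          show mk ((1 : M2 O) i j) = (1 : M2 (O ⧸ I)) i j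
          rw [Matrix.one_apply, Matrix.one_apply]
          split_ifs <;> simp) σ T.S
    have h1' := congrArg Prod.fst he
    have h2' := congrArg Prod.snd he
    change (mk.comp θ.toRingHom).mapMatrix (G.R s) = (mk.comp θ.toRingHom).mapMatrix (G.R σ) at h1'
    change mk.mapMatrix (matOf ρ₀ b s) = mk.mapMatrix (matOf ρ₀ b σ) at h2'
    have htr : ∀ g, ρ₀.trace g = (matOf ρ₀ b g).trace := fun g =>
      LinearMap.trace_eq_matrix_trace O b _
    have hdet : ∀ g, LinearMap.det (ρ₀.ρ g) = (matOf ρ₀ b g).det := fun g =>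
      (LinearMap.det_toMatrix b _).symm
    obtain ⟨t1, d1⟩ := G.trace_frobenius hℓ hℓS hA hs
    obtain ⟨t2, d2⟩ := hρ ℓ hℓ hℓS A hA s hs
    have hd : θ (l.dFrob ℓ) = (ℓ : O) := by
      rw [l.dFrob_eq hℓ hℓS hA hs, map_mul, map_natCast, hdia, mul_one]
    constructor <;> rw [← Ideal.Quotient.eq_zero_iff_mem, map_sub, sub_eq_zero]
    · calc mk (θ (G.R σ).trace) = mk (θ (G.R s).trace) := by
            have := congrArg Matrix.trace h1'
            rw [RingHom.mapMatrix_apply, RingHom.mapMatrix_apply, ← AddMonoidHom.map_trace,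
              ← AddMonoidHom.map_trace] at this
            exact this.symm
        _ = mk (ρ₀.trace s) := by rw [t1, t2]
        _ = mk (ρ₀.trace σ) := by
            have := congrArg Matrix.trace h2'
            rw [RingHom.mapMatrix_apply, RingHom.mapMatrix_apply, ← AddMonoidHom.map_trace,
              ← AddMonoidHom.map_trace] at this
            rw [htr, htr]
            exact this
    · calc mk (θ (G.R σ).det) = mk (θ (G.R s).det) := by
            have := congrArg Matrix.det h1'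
            rw [← RingHom.map_det, ← RingHom.map_det] at this
            exact this.symm
        _ = mk (LinearMap.det (ρ₀.ρ s)) := by rw [d1, d2, hd]
        _ = mk (LinearMap.det (ρ₀.ρ σ)) := by
            have := congrArg Matrix.det h2'
            rw [← RingHom.map_det, ← RingHom.map_det] at this
            rw [hdet, hdet]
            exact this
  have hbot : ∀ x : O, (∀ n, x ∈ maximalIdeal O ^ n) → x = 0 := fun x h => by
    rw [← Ideal.mem_bot, ← Ideal.iInf_pow_eq_bot_of_isLocalRing (maximalIdeal O)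
      (IsLocalRing.maximalIdeal.isMaximal O).ne_top]
    exact Ideal.mem_iInf.2 h
  exact ⟨sub_eq_zero.1 (hbot _ fun n => (key n).1), sub_eq_zero.1 (hbot _ fun n => (key n).2)⟩

/-- An element invisible to the traces at a point maps to one. -/
theorem map_eq_one_of_trace (θ : l.A →ₐ[O] O) (τ : GQ)
    (h : ∀ g, θ (G.R (τ * g)).trace = θ (G.R g).trace) : (G.R τ).map θ = 1 := by
  refine sub_eq_zero.1 (Matrix.ext fun i j => (Submodule.mem_bot O).1 ?_)
  refine Deform.mem_of_trace_mul (Deform.span_map_eq_top θ.toRingHom G.span_eq_top) ⊥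
    ((G.R τ).map θ - 1) (fun g => ?_) i j
  rw [Submodule.mem_bot, sub_mul, one_mul, Matrix.trace_sub, sub_eq_zero]
  have hm : ∀ M : M2 l.A, (M.map θ).trace = θ M.trace := fun M =>
    (AddMonoidHom.map_trace θ.toRingHom M).symm
  show ((G.R τ).map θ.toRingHom * (G.R g).map θ.toRingHom).trace = ((G.R g).map θ).trace
  rw [← Matrix.map_mul, ← map_mul G.R]
  exact (hm _).trans ((h g).trans (hm _).symm)

end Glob

/-- The same data without auxiliary primes. -/
def base (T : TwoSetup O N r) : TwoSetup O N 0 where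
  n := T.n
  squarefree := T.squarefree
  odd := T.odd
  exists_three_mod_four := T.exists_three_mod_four
  two_mem := T.two_mem
  exists_omega := T.exists_omega
  q := Fin.elim0
  q_injective := fun i => i.elim0
  q_prime := fun i => i.elim0
  q_not_dvd := fun i => i.elim0
  q_congr := fun i => i.elim0
  S := T.S
  mem_S v hv hd := T.mem_S v hv (hd.trans (Nat.mul_dvd_mul_left 6 (Nat.mul_dvd_mul_left N
    (by simp))))
  r₂ := T.r₂
  r₂_span := T.r₂_span
  r₂_finite := T.r₂_finite
  r₂_unramified := T.r₂_unramified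
  aE := T.aE
  r₂_frobenius := T.r₂_frobenius
  ρE := T.ρE
  ρE_frobenius := T.ρE_frobenius
  ρE_unramified := T.ρE_unramified
  ρE_unipotent := T.ρE_unipotent
  ρE_flat := T.ρE_flat
  A := Fin.elim0
  liesOver := fun i => i.elim0
  F := Fin.elim0
  isFrobenius := fun i => i.elim0
  F_nonscalar := fun i => i.elim0
  rE := Fin.elim0
  rE_root := fun i => i.elim0

/-- **A representation of a system of level `N` does not see inertia at an auxiliary prime.** -/
theorem trace_inertia_level (hG : GlueInput O) {a₀ : ℕ → O} (hN : IsLevelSystem N T.S a₀)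
    (hres : ∀ ℓ : ℕ, ℓ.Prime → ℓ ∉ T.S → residue O (a₀ ℓ) = (T.aE ℓ : ResidueField O))
    (ρ₀ : GaloisRepAdic O) (hρ : ∀ ℓ : ℕ, ℓ.Prime → ℓ ∉ T.S → ∀ A : ValuationSubring QBar,
      A.LiesOverPrime ℓ → ∀ σ : GQ, A.IsFrobeniusAt σ ℓ →
        ρ₀.trace σ = a₀ ℓ ∧ LinearMap.det (ρ₀.ρ σ) = (ℓ : O))
    {v : ℕ} (hv : v.Prime) (hvN : ¬ v ∣ 2 * N) {A : ValuationSubring QBar} (hA : A.LiesOverPrime v)
    {τ : GQ} (hτ : τ ∈ A.inertiaSubgroupIn ℚ) (g : GQ) : ρ₀.trace (τ * g) = ρ₀.trace g := by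
  obtain ⟨l⟩ := T.base.nonempty_loc
  obtain ⟨G⟩ := nonempty_glob l hG
  obtain ⟨θ, -, hdia, hθres, hhk⟩ := l.exists_point_of_level hN hres
  have heq := G.eq_of_frobenius θ hθres hdia ρ₀ fun ℓ hℓ hℓS A' hA' σ hσ => by
    rw [hhk ℓ hℓ hℓS]; exact hρ ℓ hℓ hℓS A' hA' σ hσ
  have h1 : G.R τ = 1 := G.unramified hv (by
    show ¬ v ∣ 2 * (N * ∏ i : Fin 0, _)
    rwa [Finset.prod_of_isEmpty, mul_one]) hA hτ
  rw [← (heq (τ * g)).1, ← (heq g).1, map_mul, h1, one_mul]

end TwoSetup

end Fermat.Agent.RT.Two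

end
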