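import Fermat.Agent.RT.Two.Glue.Main
import Fermat.Agent.RT.Two.Hecke.Bound
import Fermat.Agent.RT.Two.Hecke.SocleBound
import Fermat.Agent.RT.Two.Hecke.TraceEq

/-!
# The facts about one auxiliary level which the Hecke side uses

The algebra of the level, the dual module, the representation, the relation ideals, the elliptic
point and the points of the forms of level `N`, collected over an abstract algebra.
-/

set_option autoImplicit false
set_option linter.unusedSectionVars false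

noncomputable section

namespace Fermat.Agent.RT.Two

open IsLocalRing Fermat.Agent.Arith Fermat.Agent.Deform
open Fermat.Agent.RT.GammaH

variable {O : Type} [CommRing O] [IsDomain O] [IsDiscreteValuationRing O]
  [IsAdicComplete (maximalIdeal O) O] [Finite (ResidueField O)] [CharZero O]
  [Algebra (ZMod 2) (ResidueField O)] {N r : ℕ}

namespace Hecke

/-- The data of a level over an abstract algebra. -/
structure LevelFacts (T : TwoSetup O N r) (μ : ℕ) : Type 1 where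
  A : Type
  [commRing : CommRing A]
  [isLocalRing : IsLocalRing A]
  [algebra : Algebra O A]
  [finiteA : Module.Finite O A]
  [freeA : Module.Free O A]
  [isLocalHom : IsLocalHom (algebraMap O A)]
  [complete : IsAdicComplete (maximalIdeal A) A]
  D : Type
  [addCommGroup : AddCommGroup D]
  [moduleA : Module A D]
  [moduleO : Module O D]
  [tower : IsScalarTower O A D]
  [finiteD : Module.Finite A D]
  n : ℕ
  n_le : n ≤ μ
  g : Fin n → D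
  span_g : Submodule.span A (Set.range g) = ⊤
  aug : A →ₐ[O] ResidueField O
  mem_maximal : ∀ a, a ∈ maximalIdeal A ↔ aug a = 0
  R : GQ →* M2 A
  cont : IsCont R
  R_aug : ∀ σ, (R σ).map aug = T.rbar σ
  flat : (toRep R cont).IsFlatAt 2
  hk : ℕ → A
  frobenius : ∀ ℓ : ℕ, ℓ.Prime → ℓ ∉ T.S → ∀ V : ValuationSubring QBar, V.LiesOverPrime ℓ →
    ∀ σ : GQ, V.IsFrobeniusAt σ ℓ → (R σ).trace = hk ℓ
  adjoin : Algebra.adjoin O (Set.range fun σ => (R σ).trace) = ⊤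
  xA : Fin r → A
  trace_tau : ∀ i, (R (T.tau i)).trace = 2 + xA i
  det_tau : ∀ i, (R (T.tau i)).det = 1 + xA i
  unramified : ∀ v : ℕ, v.Prime → ¬ v ∣ 2 * (N * ∏ i, T.q i) →
    ∀ V : ValuationSubring QBar, V.LiesOverPrime v → ∀ σ ∈ V.inertiaSubgroupIn ℚ, R σ = 1
  unipotent : ∀ v : ℕ, v.Prime → v ∣ N → ∀ V : ValuationSubring QBar, V.LiesOverPrime v →
    ∀ σ ∈ V.inertiaSubgroupIn ℚ, (R σ).trace = 2 ∧ (R σ).det = 1
  det_congr : ∀ σ : GQ, (∀ μ' : QBar, μ' ^ ∏ i, T.q i = 1 → σ μ' = μ') → ∀ k a : ℕ,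
    (∀ μ' : QBar, μ' ^ 2 ^ k = 1 → σ μ' = μ' ^ a) → (R σ).det - a ∈ Ideal.span {(2 : A) ^ k}
  annAll : Ideal A
  annInv : Ideal A
  annInv_radical : ∀ (a : A) (k : ℕ), a ^ k ∈ annInv → a ∈ annInv
  annInv_saturated : ∀ (c : O) (a : A), c ≠ 0 → c • a ∈ annInv → a ∈ annInv
  annAll_smul : ∀ a ∈ annAll, ∀ φ : D, a • φ = 0
  annInv_smul : ∀ a ∈ annInv, ∀ φ : D, a • φ ∈ Ideal.span (Set.range xA) • (⊤ : Submodule A D)
  commutator : ∀ i a b, ((T.q i : A) * (R (T.F i)).trace ^ 2 -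
      ((T.q i : A) + 1) ^ 2 * (R (T.F i)).det) *
    (R (T.tau i) * R (T.F i) - R (T.F i) * R (T.tau i)) a b ∈ annAll
  level_point : ∀ θ : A →ₐ[O] CBar O, (∀ a ∈ annInv, θ a = 0) →
    (∀ i, θ ((T.q i : A) * (R (T.F i)).trace ^ 2 -
      ((T.q i : A) + 1) ^ 2 * (R (T.F i)).det) ≠ 0) →
    (∀ i, θ (xA i) = 0 ∧ (R (T.tau i)).map θ = 1) ∧ IsLevelSystem N T.S fun ℓ => θ (hk ℓ)
  thetaE : A →ₐ[O] O
  residue_thetaE : ∀ a, residue O (thetaE a) = aug a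
  thetaE_hk : ∀ ℓ : ℕ, ℓ.Prime → ℓ ∉ T.S → thetaE (hk ℓ) = (T.aE ℓ : O)
  thetaE_R : ∀ σ, thetaE (R σ).trace = T.ρE.trace σ ∧
    thetaE (R σ).det = LinearMap.det (T.ρE.ρ σ)
  thetaE_tau : ∀ i, thetaE (xA i) = 0 ∧ (R (T.tau i)).map thetaE = 1
  occurs : ∀ a₀ : ℕ → O, IsLevelSystem N T.S a₀ →
    (∀ ℓ : ℕ, ℓ.Prime → ℓ ∉ T.S → residue O (a₀ ℓ) = (T.aE ℓ : ResidueField O)) →
    ∀ (ρ₀ : GaloisRepAdic O), (∀ ℓ : ℕ, ℓ.Prime → ℓ ∉ T.S → ∀ V : ValuationSubring QBar,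
      V.LiesOverPrime ℓ → ∀ σ : GQ, V.IsFrobeniusAt σ ℓ →
        ρ₀.trace σ = a₀ ℓ ∧ LinearMap.det (ρ₀.ρ σ) = (ℓ : O)) →
    ∃ θ : A →ₐ[O] O, (∀ a, residue O (θ a) = aug a) ∧
      (∀ ℓ : ℕ, ℓ.Prime → ℓ ∉ T.S → θ (hk ℓ) = a₀ ℓ) ∧
      (∀ σ, θ (R σ).trace = ρ₀.trace σ ∧ θ (R σ).det = LinearMap.det (ρ₀.ρ σ)) ∧
      (∀ i, θ (xA i) = 0 ∧ (R (T.tau i)).map θ = 1) ∧
      ∃ w : D, (∀ a, θ a = 0 → a • w ∈ Ideal.span (Set.range xA) • (⊤ : Submodule A D)) ∧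
        ∀ (π : O) (K d : ℕ), (∀ j, 1 ≤ j → j ≤ d → π ^ K ∣ ((2 ^ T.n).choose j : O)) →
          ∃ Φ : (Fin r → ℕ) → D →ₗ[O] O ⧸ Ideal.span {π ^ K},
            (∀ (a : Fin r → ℕ) (j : Fin r) (φ : D), ∑ i, a i ≤ d →
              Φ a (xA j • φ) = if a j = 0 then 0 else Φ (a - Pi.single j 1) φ) ∧
            IsUnit (Φ 0 w)

attribute [instance] LevelFacts.commRing LevelFacts.isLocalRing LevelFacts.algebra
  LevelFacts.finiteA LevelFacts.freeA LevelFacts.isLocalHom LevelFacts.complete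
  LevelFacts.addCommGroup LevelFacts.moduleA LevelFacts.moduleO LevelFacts.tower LevelFacts.finiteD

end Hecke

namespace TwoSetup

variable {T : TwoSetup O N r}

theorem gen_dia_eq (l : T.Loc) (G : Glob l) (i : Fin r) :
    (G.R (T.tau i)).trace = 2 + l.xA i ∧ (G.R (T.tau i)).det = 1 + l.xA i := by
  obtain ⟨h1, h2⟩ := G.inertia (T.q_prime i) (T.q_dvd_level i) (T.liesOver i) (T.tau_mem i)
  rw [T.psi_tau i] at h1 h2
  refine ⟨?_, ?_⟩
  · rw [h1, Loc.xA]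
    ring
  · rw [h2, Loc.xA, add_sub_cancel]

theorem q_not_dvd_two_mul (T : TwoSetup O N r) (i : Fin r) : ¬ T.q i ∣ 2 * N := fun h =>
  ((T.q_prime i).dvd_mul.1 h).elim (fun h => Pt.q_ne_two i
    ((Nat.prime_dvd_prime_iff_eq (T.q_prime i) Nat.prime_two).1 h)) (T.q_not_dvd i)

theorem Loc.exists_momentFun (l : T.Loc) (π : O) (K D : ℕ)
    (hdvd : ∀ j, 1 ≤ j → j ≤ D → π ^ K ∣ ((2 ^ T.n).choose j : O)) (ψ : l.P) (w₀ : l.DualP)
    (hψ : (l.ev w₀) (∑ q, l.actA (l.dia q) ψ) = 1) :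
    ∃ Φ : (Fin r → ℕ) → l.DualP →ₗ[O] O ⧸ Ideal.span {π ^ K},
      (∀ (a : Fin r → ℕ) (j : Fin r) (φ : l.DualP), ∑ i, a i ≤ D →
        Φ a (l.xA j • φ) = if a j = 0 then 0 else Φ (a - Pi.single j 1) φ) ∧
      IsUnit (Φ 0 w₀) := by
  refine ⟨fun a => (Ideal.Quotient.mkₐ O (Ideal.span {π ^ K})).toLinearMap ∘ₗ
    ((LinearMap.applyₗ (l.moment ψ a)).comp l.ev.toLinearMap), fun a j φ ha => ?_, ?_⟩
  · show Ideal.Quotient.mk _ (l.ev (l.xA j • φ) (l.moment ψ a)) = _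
    rw [l.smul_dual_apply]
    split_ifs with h0
    · rw [(l.xA_moment ψ a j).1 h0, map_zero, map_zero]
    · obtain ⟨y, hy⟩ := (l.xA_moment ψ a j).2 h0
      rw [hy, map_add, map_smul, smul_eq_mul]
      show _ = Ideal.Quotient.mk _ (l.ev φ (l.moment ψ (a - Pi.single j 1)))
      rw [Ideal.Quotient.eq, add_sub_cancel_left, Ideal.mem_span_singleton]
      refine dvd_mul_of_dvd_left (hdvd _ (Nat.one_le_iff_ne_zero.2 h0) ?_) _
      exact (Finset.single_le_sum (fun i _ => Nat.zero_le (a i)) (Finset.mem_univ j)).trans ha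
  · show IsUnit (Ideal.Quotient.mk _ (l.ev w₀ (l.moment ψ 0)))
    rw [l.moment_zero, hψ, map_one]
    exact isUnit_one

variable {l : T.Loc}

theorem Glob.thetaE_eq (G : Glob l) (σ : GQ) :
    l.thetaE (G.R σ).trace = T.ρE.trace σ ∧
      l.thetaE (G.R σ).det = LinearMap.det (T.ρE.ρ σ) :=
  G.eq_of_frobenius l.thetaE l.residue_thetaE l.thetaE_dia T.ρE
    (fun ℓ hℓ hℓS A hA σ hσ => by rw [l.thetaE_hk hℓ hℓS]; exact T.ρE_frobenius ℓ hℓ hℓS A hA σ hσ) σ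

theorem Glob.thetaE_tau (G : Glob l) (i : Fin r) : (G.R (T.tau i)).map l.thetaE = 1 :=
  G.map_eq_one_of_trace l.thetaE _ fun g => by
    rw [(G.thetaE_eq _).1, (G.thetaE_eq _).1, GaloisRepAdic.trace, map_mul,
      T.ρE_unramified _ (T.q_prime i) (T.q_not_dvd_two_mul i) _ (T.liesOver i) _ (T.tau_mem i),
      one_mul, GaloisRepAdic.trace]

theorem Loc.exists_hk_eq_trace (G : Glob l) (ℓ : ℕ) :
    l.hk ℓ = 0 ∨ ∃ σ, (G.R σ).trace = l.hk ℓ := by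
  by_cases h : ℓ.Prime ∧ ℓ ∉ T.S
  · obtain ⟨A, hA⟩ := Arith.exists_liesOverPrime h.1
    obtain ⟨σ, hσ⟩ := Arith.exists_isFrobeniusAt hA h.1
    exact Or.inr ⟨σ, (G.trace_frobenius h.1 h.2 hA hσ).1⟩
  · exact Or.inl (dif_neg h)

theorem Glob.adjoin_trace (G : Glob l) :
    Algebra.adjoin O (Set.range fun σ => (G.R σ).trace) = ⊤ := by
  refine eq_top_iff.2 (l.adjoin_eq_top.ge.trans (Algebra.adjoin_le ?_))
  rintro x (⟨q, rfl⟩ | ⟨ℓ, rfl⟩)
  · rw [SetLike.mem_coe, eq_prod_single q, map_prod]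
    refine Subalgebra.prod_mem _ fun i _ => ?_
    rw [map_pow]
    refine pow_mem ?_ _
    show l.dia (T.gen i) ∈ _
    have h1 := (T.gen_dia_eq l G i).1
    rw [Loc.xA] at h1
    rw [show l.dia (T.gen i) = (G.R (T.tau i)).trace - 1 by rw [h1]; ring]
    exact sub_mem (Algebra.subset_adjoin ⟨T.tau i, rfl⟩) (one_mem _)
  · rcases Loc.exists_hk_eq_trace G ℓ with h | ⟨σ, h⟩
    · rw [SetLike.mem_coe, h]; exact zero_mem _
    · exact Algebra.subset_adjoin ⟨σ, h⟩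

theorem Glob.level_point_x (G : Glob l) (θ : l.A →ₐ[O] CBar O) (hθ : ∀ a ∈ l.annInv, θ a = 0)
    (hv : ∀ i, θ (G.vA i) ≠ 0) :
    (∀ i, θ (l.xA i) = 0 ∧ (G.R (T.tau i)).map θ = 1) ∧
      IsLevelSystem N T.S fun ℓ => θ (l.hk ℓ) :=
  ⟨fun i => ⟨hθ _ (l.dia_sub_one_mem _), (G.level_point hθ hv).1 i⟩, (G.level_point hθ hv).2⟩

theorem Glob.occurs (G : Glob l) (hG : GlueInput O) (a₀ : ℕ → O) (hN : IsLevelSystem N T.S a₀)
    (hres : ∀ ℓ : ℕ, ℓ.Prime → ℓ ∉ T.S → residue O (a₀ ℓ) = (T.aE ℓ : ResidueField O))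
    (ρ₀ : GaloisRepAdic O) (hρ : ∀ ℓ : ℕ, ℓ.Prime → ℓ ∉ T.S → ∀ A : ValuationSubring QBar,
      A.LiesOverPrime ℓ → ∀ σ : GQ, A.IsFrobeniusAt σ ℓ →
        ρ₀.trace σ = a₀ ℓ ∧ LinearMap.det (ρ₀.ρ σ) = (ℓ : O)) :
    ∃ θ : l.A →ₐ[O] O, (∀ a, residue O (θ a) = l.aug a) ∧
      (∀ ℓ : ℕ, ℓ.Prime → ℓ ∉ T.S → θ (l.hk ℓ) = a₀ ℓ) ∧
      (∀ σ, θ (G.R σ).trace = ρ₀.trace σ ∧ θ (G.R σ).det = LinearMap.det (ρ₀.ρ σ)) ∧
      (∀ i, θ (l.xA i) = 0 ∧ (G.R (T.tau i)).map θ = 1) ∧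
      ∃ w : l.DualP, (∀ a, θ a = 0 → a • w ∈ l.augI • (⊤ : Submodule l.A l.DualP)) ∧
        ∀ (π : O) (K d : ℕ), (∀ j, 1 ≤ j → j ≤ d → π ^ K ∣ ((2 ^ T.n).choose j : O)) →
          ∃ Φ : (Fin r → ℕ) → l.DualP →ₗ[O] O ⧸ Ideal.span {π ^ K},
            (∀ (a : Fin r → ℕ) (j : Fin r) (φ : l.DualP), ∑ i, a i ≤ d →
              Φ a (l.xA j • φ) = if a j = 0 then 0 else Φ (a - Pi.single j 1) φ) ∧
            IsUnit (Φ 0 w) := by
  obtain ⟨θ, hann, hdia, hθres, hhk⟩ := l.exists_point_of_level hN hres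
  have heq := G.eq_of_frobenius θ hθres hdia ρ₀ fun ℓ hℓ hℓS A hA σ hσ => by
    rw [hhk ℓ hℓ hℓS]; exact hρ ℓ hℓ hℓS A hA σ hσ
  obtain ⟨w, ψ, hψ, hw⟩ := l.exists_eigFun θ hann
  refine ⟨θ, hθres, hhk, heq, fun i => ⟨hann _ (l.dia_sub_one_mem _),
    G.map_eq_one_of_trace θ _ fun g => ?_⟩, w, fun a ha => ?_,
    fun π K d hdvd => l.exists_momentFun π K d hdvd ψ w hψ⟩
  · rw [(heq _).1, (heq _).1]
    exact trace_inertia_level hG hN hres ρ₀ hρ (T.q_prime i) (T.q_not_dvd_two_mul i) (T.liesOver i)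
      (T.tau_mem i) g
  · have h := hw a
    rwa [ha, map_zero, sub_zero] at h

theorem nonempty_levelFacts (T : TwoSetup O N r) (hG : GlueInput O) {μ : ℕ}
    (hfin : Module.Finite (ResidueField O) T.socle)
    (hμ : Module.finrank (ResidueField O) T.socle ≤ μ) : Nonempty (Hecke.LevelFacts T μ) := by
  obtain ⟨l⟩ := T.nonempty_loc
  obtain ⟨G⟩ := nonempty_glob l hG
  obtain ⟨n, g, hn, hg⟩ := l.exists_generators hfin hμ
  exact ⟨{
    A := l.A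
    D := l.DualP
    n := n
    n_le := hn
    g := g
    span_g := hg
    aug := l.aug
    mem_maximal := fun a => l.mem_maximalIdeal_iff
    R := G.R
    cont := G.cont
    R_aug := G.R_aug
    flat := G.flat
    hk := l.hk
    frobenius := fun ℓ hℓ hℓS A hA σ hσ => (G.trace_frobenius hℓ hℓS hA hσ).1
    adjoin := G.adjoin_trace
    xA := l.xA
    trace_tau := fun i => (T.gen_dia_eq l G i).1
    det_tau := fun i => (T.gen_dia_eq l G i).2
    unramified := fun v hv h A hA σ hσ => G.unramified hv h hA hσ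
    unipotent := fun v hv hvN A hA σ hσ => by
      obtain ⟨h1, h2⟩ := G.inertia hv (hvN.mul_right _) hA hσ
      rw [psi_inertia_eq_one hv hvN hA hσ, map_one] at h1 h2
      exact ⟨by rw [h1, one_add_one_eq_two], h2⟩
    det_congr := fun σ hσ k a ha => G.det_congr (psi_eq_one_of_roots hσ) k a ha
    annAll := l.annAll
    annInv := l.annInv
    annInv_radical := l.annInv_radical
    annInv_saturated := l.annInv_saturated
    annAll_smul := fun a ha φ => l.annAll_smul ha φ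
    annInv_smul := fun a ha φ => l.annInv_smul ha φ
    commutator := fun i a b => G.commutator_mem i a b
    level_point := fun θ hθ hv => G.level_point_x θ hθ hv
    thetaE := l.thetaE
    residue_thetaE := l.residue_thetaE
    thetaE_hk := fun ℓ hℓ hℓS => l.thetaE_hk hℓ hℓS
    thetaE_R := G.thetaE_eq
    thetaE_tau := fun i => ⟨by rw [Loc.xA, map_sub, l.thetaE_dia, map_one, sub_self], G.thetaE_tau i⟩
    occurs := G.occurs hG }⟩

end TwoSetup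

end Fermat.Agent.RT.Two

end
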