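import Mathlib.Algebra.QuadraticAlgebra.Basic
import Mathlib.RingTheory.Henselian
import Mathlib.RingTheory.DiscreteValuationRing.Basic
import Mathlib.RingTheory.TensorProduct.Finite
import Fermat.Prelude.Thm_IsLocalRing_isAdicComplete_of_module_finite

/-!
# Adjoining roots of quadratic polynomials with chosen residues to a local algebra

Residual characteristic two: a quadratic with distinct residual roots has a root by Hensel's lemma,
one with a double residual root gives a local quadratic algebra.
-/

set_option autoImplicit false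
set_option linter.unusedSectionVars false

noncomputable section

namespace Fermat.Agent.RT.Two.Hecke

open IsLocalRing

variable {O : Type} [CommRing O] [IsDomain O] [IsDiscreteValuationRing O]
  [IsAdicComplete (maximalIdeal O) O] {A : Type} [CommRing A] [Algebra O A]

/-- A local algebra generated by chosen roots of quadratic polynomials over `A`. -/
structure RootExt (aug : A →ₐ[O] ResidueField O) {r : ℕ} (t d : Fin r → A)
    (ρ : Fin r → ResidueField O) : Type 1 where
  B : Type
  [commRing : CommRing B]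
  [isLocalRing : IsLocalRing B]
  [algebra : Algebra O B]
  [algebraA : Algebra A B]
  [tower : IsScalarTower O A B]
  [finiteA : Module.Finite A B]
  [freeA : Module.Free A B]
  [finiteO : Module.Finite O B]
  [freeO : Module.Free O B]
  [isLocalHom : IsLocalHom (algebraMap O B)]
  [complete : IsAdicComplete (maximalIdeal B) B]
  augB : B →ₐ[O] ResidueField O
  augB_algebraMap : ∀ a, augB (algebraMap A B a) = aug a
  X : Fin r → B
  root : ∀ i, X i ^ 2 - algebraMap A B (t i) * X i + algebraMap A B (d i) = 0
  augB_X : ∀ i, augB (X i) = ρ i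
  adjoin_eq_top : Algebra.adjoin A (Set.range X) = ⊤
  point : ∀ (θ : A →ₐ[O] O) (r₀ : Fin r → O), (∀ a, residue O (θ a) = aug a) →
    (∀ i, r₀ i ^ 2 - θ (t i) * r₀ i + θ (d i) = 0) → (∀ i, residue O (r₀ i) = ρ i) →
    ∃ θB : B →ₐ[O] O, (∀ a, θB (algebraMap A B a) = θ a) ∧ (∀ i, θB (X i) = r₀ i) ∧
      (∀ b, residue O (θB b) = augB b) ∧
      ∃ (ε : B →ₗ[A] A) (u : B), ε u = 1 ∧
        ∀ b, (b - algebraMap O B (θB b)) * u ∈ (RingHom.ker θ).map (algebraMap A B)
  disc : ∀ J : Ideal A, (∀ (a : A) (k : ℕ), a ^ k ∈ J → a ∈ J) → (∀ a : A, 2 * a ∈ J → a ∈ J) →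
    ∀ (n : B) (k : ℕ), n ^ k ∈ J.map (algebraMap A B) →
      algebraMap A B (∏ i, (t i ^ 2 - 4 * d i)) * n ∈ J.map (algebraMap A B)

attribute [instance] RootExt.commRing RootExt.isLocalRing RootExt.algebra RootExt.algebraA
  RootExt.tower RootExt.finiteA RootExt.freeA RootExt.finiteO RootExt.freeO RootExt.isLocalHom
  RootExt.complete

theorem mem_map_iff_repr {R S ι : Type} [CommRing R] [CommRing S] [Algebra R S] [Finite ι]
    (b : Module.Basis ι R S) (J : Ideal R) (x : S) :
    x ∈ J.map (algebraMap R S) ↔ ∀ i, b.repr x i ∈ J := by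
  constructor
  · intro hx
    have h : x ∈ J • (⊤ : Submodule R S) := by
      rw [Ideal.smul_top_eq_map]; exact hx
    induction h using Submodule.smul_induction_on' with
    | smul a ha y _ =>
      intro i
      rw [map_smul, Finsupp.smul_apply, smul_eq_mul]
      exact Ideal.mul_mem_right _ _ ha
    | add y _ z _ hy hz =>
      intro i
      rw [map_add, Finsupp.add_apply]
      exact add_mem (hy (by
        have h := ‹y ∈ J • (⊤ : Submodule R S)›
        rw [Ideal.smul_top_eq_map] at h
        exact h) i) (hz (by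
        have h := ‹z ∈ J • (⊤ : Submodule R S)›
        rw [Ideal.smul_top_eq_map] at h
        exact h) i)
  · intro h
    have := Fintype.ofFinite ι
    rw [← b.sum_repr x]
    refine Submodule.sum_mem _ fun i _ => ?_
    rw [Algebra.smul_def]
    exact Ideal.mul_mem_right _ _ (Ideal.mem_map_of_mem _ (h i))

theorem two_cancel_map {R S : Type} [CommRing R] [CommRing S] [Algebra R S] [Module.Free R S]
    [Module.Finite R S] (J : Ideal R) (h2 : ∀ a : R, 2 * a ∈ J → a ∈ J) {x : S}
    (hx : 2 * x ∈ J.map (algebraMap R S)) : x ∈ J.map (algebraMap R S) := by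
  let b := Module.Free.chooseBasis R S
  rw [mem_map_iff_repr b] at hx ⊢
  intro i
  refine h2 _ ?_
  have := hx i
  rwa [show (2 : S) * x = (2 : R) • x by rw [Algebra.smul_def, map_ofNat], map_smul,
    Finsupp.smul_apply, smul_eq_mul] at this

variable {aug : A →ₐ[O] ResidueField O} {r : ℕ}

/-- No roots. -/
def RootExt.nil [IsLocalRing A] [Module.Finite O A] [Module.Free O A]
    [IsLocalHom (algebraMap O A)] [IsAdicComplete (maximalIdeal A) A] (t d : Fin 0 → A)
    (ρ : Fin 0 → ResidueField O) : RootExt aug t d ρ where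
  B := A
  augB := aug
  augB_algebraMap _ := rfl
  X := Fin.elim0
  root i := i.elim0
  augB_X i := i.elim0
  adjoin_eq_top := eq_top_iff.2 fun x _ =>
    Subalgebra.algebraMap_mem (Algebra.adjoin A (Set.range (Fin.elim0 : Fin 0 → A))) x
  point θ _ hθ _ _ := ⟨θ, fun _ => rfl, fun i => i.elim0, hθ, LinearMap.id, 1, rfl, fun b => by
    rw [Algebra.algebraMap_self, Ideal.map_id, mul_one, RingHom.mem_ker, map_sub, AlgHom.commutes,
      Algebra.algebraMap_self, RingHom.id_apply, sub_self]⟩
  disc J hrad _ n k hk := by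
    rw [Algebra.algebraMap_self, Ideal.map_id] at hk ⊢
    exact Ideal.mul_mem_left _ _ (hrad n k hk)

section Step

variable {t d : Fin (r + 1) → A} {ρ : Fin (r + 1) → ResidueField O}
  (E : RootExt aug (t ∘ Fin.castSucc) (d ∘ Fin.castSucc) (ρ ∘ Fin.castSucc))

/-- The last trace in the smaller extension. -/
abbrev tE : E.B := algebraMap A E.B (t (Fin.last r))

/-- The last constant in the smaller extension. -/
abbrev dE : E.B := algebraMap A E.B (d (Fin.last r))

theorem prod_disc_last :
    ∏ i, (t i ^ 2 - 4 * d i) = (∏ i : Fin r, ((t ∘ Fin.castSucc) i ^ 2 - 4 * (d ∘ Fin.castSucc) i)) *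
      (t (Fin.last r) ^ 2 - 4 * d (Fin.last r)) :=
  Fin.prod_univ_castSucc _

include E in
theorem simple_of_distinct [CharP (ResidueField O) 2]
    (hρ : ρ (Fin.last r) ^ 2 - aug (t (Fin.last r)) * ρ (Fin.last r) + aug (d (Fin.last r)) = 0)
    (ht : aug (t (Fin.last r)) ≠ 0) : ∃ x : E.B, x ^ 2 - tE E * x + dE E = 0 ∧
      E.augB x = ρ (Fin.last r) := by
  obtain ⟨a, ha⟩ := residue_surjective (R := O) (ρ (Fin.last r))
  set x₀ := algebraMap O E.B a
  have haug : E.augB x₀ = ρ (Fin.last r) := by
    rw [AlgHom.commutes, ← ha]; rfl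
  have hmem : ∀ b : E.B, b ∈ maximalIdeal E.B ↔ E.augB b = 0 := by
    have hker : RingHom.ker E.augB = maximalIdeal E.B :=
      eq_maximalIdeal (RingHom.ker_isMaximal_of_surjective _ fun z => by
        obtain ⟨a, rfl⟩ := residue_surjective (R := O) z
        exact ⟨algebraMap O E.B a, E.augB.commutes a⟩)
    intro b
    rw [← hker, RingHom.mem_ker]
  let f : Polynomial E.B := Polynomial.X ^ 2 - Polynomial.C (tE E) * Polynomial.X +
    Polynomial.C (dE E)
  have hf : f.Monic := by
    simp only [f]
    monicity!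
  obtain ⟨x, hx, hx0⟩ := HenselianRing.is_henselian (I := maximalIdeal E.B) f hf x₀ (by
      rw [hmem]
      simp only [f, Polynomial.eval_add, Polynomial.eval_sub, Polynomial.eval_pow,
        Polynomial.eval_mul, Polynomial.eval_X, Polynomial.eval_C, map_add, map_sub, map_mul,
        map_pow, haug, tE, dE, E.augB_algebraMap]
      exact hρ) (by
      refine IsUnit.map _ (not_not.1 fun hu => ht ?_)
      have h0 := (hmem _).1 ((mem_maximalIdeal _).2 hu)
      simp only [f, Polynomial.derivative_add,
        Polynomial.derivative_X_pow, Polynomial.derivative_C_mul, Polynomial.derivative_X,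
        Polynomial.derivative_C, add_zero, Polynomial.eval_sub, Polynomial.eval_mul,
        Polynomial.eval_C, Polynomial.eval_pow, Polynomial.eval_X, mul_one,
        map_sub, map_mul, map_natCast, tE, E.augB_algebraMap] at h0
      simpa [map_ofNat, CharTwo.two_eq_zero] using h0)
  refine ⟨x, ?_, ?_⟩
  · simpa [f, Polynomial.IsRoot] using hx
  · rw [← haug, ← sub_eq_zero, ← map_sub]
    exact (hmem _).1 hx0

/-- A simple residual root. -/
def RootExt.simple [CharP (ResidueField O) 2] (ht : aug (t (Fin.last r)) ≠ 0) (x : E.B)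
    (hx : x ^ 2 - tE E * x + dE E = 0) (hxρ : E.augB x = ρ (Fin.last r)) : RootExt aug t d ρ where
  B := E.B
  augB := E.augB
  augB_algebraMap := E.augB_algebraMap
  X := Fin.snoc E.X x
  root := Fin.lastCases (by rw [Fin.snoc_last]; exact hx)
    fun i => by rw [Fin.snoc_castSucc]; exact E.root i
  augB_X := Fin.lastCases (by rw [Fin.snoc_last]; exact hxρ)
    fun i => by rw [Fin.snoc_castSucc]; exact E.augB_X i
  adjoin_eq_top := by
    refine eq_top_iff.2 (E.adjoin_eq_top.symm.le.trans (Algebra.adjoin_mono ?_))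
    rintro _ ⟨i, rfl⟩
    exact ⟨i.castSucc, Fin.snoc_castSucc _ _ _⟩
  point θ r₀ hθ hr hres := by
    obtain ⟨θB, h1, h2, h3, ε, u, hu, hmem⟩ :=
      E.point θ (r₀ ∘ Fin.castSucc) hθ (fun i => hr _) fun i => hres _
    refine ⟨θB, h1, Fin.lastCases ?_ fun i => by rw [Fin.snoc_castSucc]; exact h2 i, h3, ε, u, hu,
      hmem⟩
    rw [Fin.snoc_last]
    have hfac : (θB x - r₀ (Fin.last r)) *
        (θB x + r₀ (Fin.last r) - θ (t (Fin.last r))) = 0 := by
      have e := congrArg θB hx
      rw [map_add, map_sub, map_mul, map_pow, map_zero, tE, dE, h1, h1] at e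
      linear_combination e - hr (Fin.last r)
    refine sub_eq_zero.1 ((mul_eq_zero.1 hfac).resolve_right fun h0 => ht ?_)
    have e := congrArg (residue O) h0
    rw [map_sub, map_add, map_zero, h3, hxρ, hres, hθ, CharTwo.add_self_eq_zero, zero_sub,
      neg_eq_zero] at e
    exact e
  disc J hrad h2 n k hk := by
    rw [prod_disc_last, map_mul, mul_right_comm]
    exact Ideal.mul_mem_right _ _ (E.disc J hrad h2 n k hk)

include E in
theorem exists_double [CharP (ResidueField O) 2]
    (hρ : ρ (Fin.last r) ^ 2 - aug (t (Fin.last r)) * ρ (Fin.last r) + aug (d (Fin.last r)) = 0)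
    (ht : aug (t (Fin.last r)) = 0) : Nonempty (RootExt aug t d ρ) := by
  set ρ₁ := ρ (Fin.last r) with hρ₁
  have hd : aug (d (Fin.last r)) = ρ₁ ^ 2 := by
    rw [ht, zero_mul, sub_zero] at hρ
    rw [← CharTwo.neg_eq (ρ₁ ^ 2)]
    linear_combination hρ
  have htB : E.augB (tE E) = 0 := by rw [tE, E.augB_algebraMap, ht]
  have hdB : E.augB (dE E) = ρ₁ ^ 2 := by rw [dE, E.augB_algebraMap, hd]
  let augB : (QuadraticAlgebra E.B (-dE E) (tE E)) →ₐ[O] ResidueField O :=
    { toFun := fun z => E.augB z.re + E.augB z.im * ρ₁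
      map_one' := by simp [QuadraticAlgebra.re_one, QuadraticAlgebra.im_one]
      map_mul' := fun z w => by
        simp only [QuadraticAlgebra.re_mul, QuadraticAlgebra.im_mul, map_add, map_mul, map_neg, htB,
          hdB]
        linear_combination -(E.augB z.im * E.augB w.im * ρ₁ ^ 2) *
          (CharTwo.two_eq_zero (R := ResidueField O))
      map_zero' := by simp
      map_add' := fun z w => by simp; ring
      commutes' := fun a => by
        show E.augB (algebraMap O E.B a) + E.augB 0 * ρ₁ = _
        rw [map_zero, zero_mul, add_zero, AlgHom.commutes] }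
  have hunit : ∀ z : (QuadraticAlgebra E.B (-dE E) (tE E)), IsUnit z ↔ augB z ≠ 0 := by
    intro z
    refine ⟨fun h => (h.map augB).ne_zero, fun h => ?_⟩
    rw [QuadraticAlgebra.isUnit_iff_norm_isUnit]
    by_contra hu
    refine h ?_
    have hker : RingHom.ker E.augB = maximalIdeal E.B :=
      eq_maximalIdeal (RingHom.ker_isMaximal_of_surjective _ fun y => by
        obtain ⟨a, rfl⟩ := residue_surjective (R := O) y
        exact ⟨algebraMap O E.B a, E.augB.commutes a⟩)
    have h0 : E.augB (QuadraticAlgebra.norm z) = 0 := by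
      rw [← RingHom.mem_ker, hker]; exact (mem_maximalIdeal _).2 hu
    rw [QuadraticAlgebra.norm_def] at h0
    simp only [map_add, map_sub, map_mul, map_neg, htB, hdB] at h0
    refine pow_eq_zero_iff two_ne_zero |>.1 ?_
    show (E.augB z.re + E.augB z.im * ρ₁) ^ 2 = 0
    linear_combination h0 + E.augB z.re * E.augB z.im * ρ₁ *
      (CharTwo.two_eq_zero (R := ResidueField O))
  have : Nontrivial (QuadraticAlgebra E.B (-dE E) (tE E)) := inferInstance
  have : IsLocalRing (QuadraticAlgebra E.B (-dE E) (tE E)) := IsLocalRing.of_nonunits_add fun z w hz hw hzw => by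
    rw [mem_nonunits_iff, hunit, not_not] at hz hw
    exact (hunit _).1 hzw (by rw [map_add, hz, hw, add_zero])
  have : Module.Finite O (QuadraticAlgebra E.B (-dE E) (tE E)) := Module.Finite.trans E.B (QuadraticAlgebra E.B (-dE E) (tE E))
  have : Module.Free O (QuadraticAlgebra E.B (-dE E) (tE E)) := Module.Free.trans (R := O) (S := E.B) (M := (QuadraticAlgebra E.B (-dE E) (tE E)))
  have : Module.Finite A (QuadraticAlgebra E.B (-dE E) (tE E)) := Module.Finite.trans E.B (QuadraticAlgebra E.B (-dE E) (tE E))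
  have : Module.Free A (QuadraticAlgebra E.B (-dE E) (tE E)) := Module.Free.trans (R := A) (S := E.B) (M := (QuadraticAlgebra E.B (-dE E) (tE E)))
  have : IsScalarTower O A (QuadraticAlgebra E.B (-dE E) (tE E)) := IsScalarTower.of_algebraMap_eq fun a => by
    show QuadraticAlgebra.mk (algebraMap O E.B a) 0 =
      QuadraticAlgebra.mk (algebraMap A E.B (algebraMap O A a)) 0
    rw [← IsScalarTower.algebraMap_apply]
  have : IsLocalHom (algebraMap O (QuadraticAlgebra E.B (-dE E) (tE E))) := ⟨fun a ha => not_not.1 fun h => (hunit _).1 ha (by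
    rw [AlgHom.commutes, ResidueField.algebraMap_eq, residue_eq_zero_iff]
    exact h)⟩
  have : IsAdicComplete (maximalIdeal (QuadraticAlgebra E.B (-dE E) (tE E))) (QuadraticAlgebra E.B (-dE E) (tE E)) :=
    IsLocalRing.isAdicComplete_of_module_finite (𝒪 := O)
  let ω : (QuadraticAlgebra E.B (-dE E) (tE E)) := ⟨0, 1⟩
  have hre : ∀ a : A, algebraMap A (QuadraticAlgebra E.B (-dE E) (tE E)) a = ⟨algebraMap A E.B a, 0⟩ := fun a => rfl
  have hC : ∀ y : E.B, algebraMap E.B (QuadraticAlgebra E.B (-dE E) (tE E)) y = ⟨y, 0⟩ := fun y => rfl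
  have hmap : ∀ (J : Ideal A) (z : (QuadraticAlgebra E.B (-dE E) (tE E))), z ∈ J.map (algebraMap A (QuadraticAlgebra E.B (-dE E) (tE E))) ↔
      z.re ∈ J.map (algebraMap A E.B) ∧ z.im ∈ J.map (algebraMap A E.B) := fun J z => by
    rw [show algebraMap A (QuadraticAlgebra E.B (-dE E) (tE E)) = (algebraMap E.B (QuadraticAlgebra E.B (-dE E) (tE E))).comp (algebraMap A E.B) from
      RingHom.ext fun a => rfl, ← Ideal.map_map,
      mem_map_iff_repr (QuadraticAlgebra.basis (-dE E) (tE E)), Fin.forall_fin_two]
    simp [QuadraticAlgebra.basis_repr_apply]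
  refine ⟨{
    B := (QuadraticAlgebra E.B (-dE E) (tE E))
    augB := augB
    augB_algebraMap := fun a => by
      show E.augB (algebraMap A E.B a) + E.augB 0 * ρ₁ = _
      rw [map_zero, zero_mul, add_zero, E.augB_algebraMap]
    X := Fin.snoc (fun i => algebraMap E.B (QuadraticAlgebra E.B (-dE E) (tE E)) (E.X i)) ω
    root := Fin.lastCases (by
        rw [Fin.snoc_last]
        ext <;> simp [ω, pow_two, hre, tE, dE])
      fun i => by
        rw [Fin.snoc_castSucc, show algebraMap A (QuadraticAlgebra E.B (-dE E) (tE E)) = (algebraMap E.B (QuadraticAlgebra E.B (-dE E) (tE E))).comp (algebraMap A E.B)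
          from RingHom.ext fun a => rfl, RingHom.comp_apply, RingHom.comp_apply, ← map_pow,
          ← map_mul, ← map_sub, ← map_add]
        exact (congrArg (algebraMap E.B (QuadraticAlgebra E.B (-dE E) (tE E))) (E.root i)).trans (map_zero _)
    augB_X := Fin.lastCases (by
        rw [Fin.snoc_last]
        show E.augB 0 + E.augB 1 * ρ₁ = _
        rw [map_zero, map_one, zero_add, one_mul])
      fun i => by
        rw [Fin.snoc_castSucc]
        show E.augB (E.X i) + E.augB 0 * ρ₁ = _
        rw [map_zero, zero_mul, add_zero]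
        exact E.augB_X i
    adjoin_eq_top := ?_
    point := fun θ r₀ hθ hr hres => ?_
    disc := fun J hrad h2 n k hk => ?_ }⟩
  · refine eq_top_iff.2 fun z _ => ?_
    set S := Algebra.adjoin A (Set.range (Fin.snoc (fun i => algebraMap E.B (QuadraticAlgebra E.B (-dE E) (tE E)) (E.X i)) ω :
      Fin (r + 1) → (QuadraticAlgebra E.B (-dE E) (tE E))))
    have hB : ∀ y : E.B, algebraMap E.B (QuadraticAlgebra E.B (-dE E) (tE E)) y ∈ S := fun y => by
      have hy : y ∈ Algebra.adjoin A (Set.range E.X) := E.adjoin_eq_top ▸ Algebra.mem_top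
      induction hy using Algebra.adjoin_induction with
      | mem x hx =>
        obtain ⟨i, rfl⟩ := hx
        exact Algebra.subset_adjoin ⟨i.castSucc, Fin.snoc_castSucc _ _ _⟩
      | algebraMap a => exact Subalgebra.algebraMap_mem S a
      | add x y _ _ hx hy => rw [map_add]; exact add_mem hx hy
      | mul x y _ _ hx hy => rw [map_mul]; exact mul_mem hx hy
    have hz : z = algebraMap E.B (QuadraticAlgebra E.B (-dE E) (tE E)) z.re + algebraMap E.B (QuadraticAlgebra E.B (-dE E) (tE E)) z.im * ω := by
      ext <;> simp [ω, hC]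
    rw [hz]
    exact add_mem (hB _) (mul_mem (hB _) (Algebra.subset_adjoin ⟨Fin.last r, Fin.snoc_last _ _⟩))
  · obtain ⟨θB, h1, h2, h3, ε, u, hu, hmem⟩ :=
      E.point θ (r₀ ∘ Fin.castSucc) hθ (fun i => hr _) fun i => hres _
    set x := r₀ (Fin.last r) with hx
    let θB' : (QuadraticAlgebra E.B (-dE E) (tE E)) →ₐ[O] O :=
      { toFun := fun z => θB z.re + θB z.im * x
        map_one' := by simp [QuadraticAlgebra.re_one, QuadraticAlgebra.im_one]
        map_mul' := fun z w => by
          simp only [QuadraticAlgebra.re_mul, QuadraticAlgebra.im_mul, map_add, map_mul, map_neg,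
            tE, dE, h1]
          linear_combination -(θB z.im * θB w.im) * (hr (Fin.last r))
        map_zero' := by simp
        map_add' := fun z w => by simp; ring
        commutes' := fun a => by
          show θB (algebraMap O E.B a) + θB 0 * x = _
          rw [map_zero, zero_mul, add_zero, AlgHom.commutes] }
    let u' : (QuadraticAlgebra E.B (-dE E) (tE E)) := ⟨u * (algebraMap O E.B x - tE E), u⟩
    let ε' : (QuadraticAlgebra E.B (-dE E) (tE E)) →ₗ[A] A := ε.comp
      ((QuadraticAlgebra.imₗ (R := E.B) (a := -dE E) (b := tE E)).restrictScalars A)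
    refine ⟨θB', fun a => ?_, ?_, fun z => ?_, ε', u', hu, fun z => ?_⟩
    · show θB (algebraMap A E.B a) + θB 0 * x = _
      rw [map_zero, zero_mul, add_zero, h1]
    · intro i
      induction i using Fin.lastCases with
      | last =>
        rw [Fin.snoc_last]
        show θB 0 + θB 1 * x = _
        rw [map_zero, map_one, zero_add, one_mul]
      | cast i =>
        rw [Fin.snoc_castSucc]
        show θB (E.X i) + θB 0 * x = _
        rw [map_zero, zero_mul, add_zero]
        exact h2 i
    · show residue O (θB z.re + θB z.im * x) = E.augB z.re + E.augB z.im * ρ₁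
      rw [map_add, map_mul, h3, h3, hres]
    rw [hmap]
    have hOA : ∀ a : O, algebraMap O (QuadraticAlgebra E.B (-dE E) (tE E)) a = ⟨algebraMap O E.B a, 0⟩ := fun a => rfl
    set K := (RingHom.ker θ).map (algebraMap A E.B)
    have hK : ∀ a : A, algebraMap A E.B a - algebraMap O E.B (θ a) ∈ K := fun a => by
      rw [IsScalarTower.algebraMap_apply O A E.B, ← map_sub]
      refine Ideal.mem_map_of_mem _ ?_
      rw [RingHom.mem_ker, map_sub, AlgHom.commutes, Algebra.algebraMap_self, RingHom.id_apply,
        sub_self]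
    have hre' := hmem z.re
    have him' := hmem z.im
    have ht' := hK (t (Fin.last r))
    have hd' := hK (d (Fin.last r))
    have hrel : algebraMap O E.B x ^ 2 - algebraMap O E.B (θ (t (Fin.last r))) * algebraMap O E.B x +
        algebraMap O E.B (θ (d (Fin.last r))) = 0 := by
      rw [← map_pow, ← map_mul, ← map_sub, ← map_add]
      exact (congrArg (algebraMap O E.B) (hr (Fin.last r))).trans (map_zero _)
    refine ⟨?_, ?_⟩
    · rw [hOA]
      show ((z - ⟨algebraMap O E.B (θB z.re + θB z.im * x), 0⟩ : (QuadraticAlgebra E.B (-dE E) (tE E))) * u').re ∈ K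
      simp only [QuadraticAlgebra.re_mul, QuadraticAlgebra.re_sub, QuadraticAlgebra.im_sub, u',
        map_add, map_mul, sub_zero]
      have e : (z.re - (algebraMap O E.B (θB z.re) + algebraMap O E.B (θB z.im) * algebraMap O E.B x)) *
          (u * (algebraMap O E.B x - tE E)) + -dE E * z.im * u =
          (z.re - algebraMap O E.B (θB z.re)) * u * (algebraMap O E.B x - tE E) -
            (z.im - algebraMap O E.B (θB z.im)) * u * dE E -
            algebraMap O E.B (θB z.im) * u *
              ((dE E - algebraMap O E.B (θ (d (Fin.last r)))) -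
                (tE E - algebraMap O E.B (θ (t (Fin.last r)))) * algebraMap O E.B x) := by
        linear_combination -(algebraMap O E.B (θB z.im) * u) * hrel
      rw [e]
      refine sub_mem (sub_mem (Ideal.mul_mem_right _ _ hre') (Ideal.mul_mem_right _ _ him')) ?_
      exact Ideal.mul_mem_left _ _ (sub_mem hd' (Ideal.mul_mem_right _ _ ht'))
    · rw [hOA]
      show ((z - ⟨algebraMap O E.B (θB z.re + θB z.im * x), 0⟩ : (QuadraticAlgebra E.B (-dE E) (tE E))) * u').im ∈ K
      simp only [QuadraticAlgebra.im_mul, QuadraticAlgebra.re_sub, QuadraticAlgebra.im_sub, u',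
        map_add, map_mul, sub_zero]
      have e : (z.re - (algebraMap O E.B (θB z.re) + algebraMap O E.B (θB z.im) * algebraMap O E.B x)) *
          u + z.im * (u * (algebraMap O E.B x - tE E)) + tE E * z.im * u =
          (z.re - algebraMap O E.B (θB z.re)) * u +
            (z.im - algebraMap O E.B (θB z.im)) * u * algebraMap O E.B x := by ring
      rw [e]
      exact add_mem hre' (Ideal.mul_mem_right _ _ him')
  · set J' := J.map (algebraMap A E.B) with hJ'
    rw [hmap] at ⊢
    set D₀ := algebraMap A E.B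
      (∏ i : Fin r, ((t ∘ Fin.castSucc) i ^ 2 - 4 * (d ∘ Fin.castSucc) i))
    set D := tE E ^ 2 - 4 * dE E with hD
    have hDval : algebraMap A E.B (∏ i, (t i ^ 2 - 4 * d i)) = D₀ * D := by
      rw [prod_disc_last, map_mul, hD, map_sub, map_mul, map_pow, map_ofNat]
    have hstar : star n ^ k ∈ J.map (algebraMap A (QuadraticAlgebra E.B (-dE E) (tE E))) := by
      rw [← star_pow]
      have h := hk
      rw [hmap] at h ⊢
      refine ⟨?_, ?_⟩
      · rw [QuadraticAlgebra.re_star]; exact add_mem h.1 (Ideal.mul_mem_left _ _ h.2)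
      · rw [QuadraticAlgebra.im_star]; exact neg_mem h.2
    have htr : algebraMap E.B (QuadraticAlgebra E.B (-dE E) (tE E)) (2 * n.re + tE E * n.im) = n + star n := by
      ext <;> simp [hC]; ring
    have hsub : algebraMap E.B (QuadraticAlgebra E.B (-dE E) (tE E)) (n.im ^ 2 * D) = (n - star n) ^ 2 := by
      ext <;> simp [hC, hD, pow_two] <;> ring
    have hsum : (2 * n.re + tE E * n.im) ^ (k + k) ∈ J' := by
      have h : algebraMap E.B (QuadraticAlgebra E.B (-dE E) (tE E)) ((2 * n.re + tE E * n.im) ^ (k + k)) ∈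
          J.map (algebraMap A (QuadraticAlgebra E.B (-dE E) (tE E))) := by
        rw [map_pow, htr]
        exact Ideal.add_pow_mem_of_pow_mem_of_le _ hk hstar (Nat.le_succ _)
      rw [hmap] at h
      simpa [hC] using h.1
    have hdiff : (n.im ^ 2 * D) ^ (k + k) ∈ J' := by
      have h : algebraMap E.B (QuadraticAlgebra E.B (-dE E) (tE E)) ((n.im ^ 2 * D) ^ (k + k)) ∈ J.map (algebraMap A (QuadraticAlgebra E.B (-dE E) (tE E))) := by
        rw [map_pow, hsub, ← pow_mul]
        refine Ideal.pow_mem_of_pow_mem _ ?_ (show k + k ≤ 2 * (k + k) by omega)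
        rw [sub_eq_add_neg]
        refine Ideal.add_pow_mem_of_pow_mem_of_le _ hk ?_ (Nat.le_succ _)
        rw [neg_pow]
        exact Ideal.mul_mem_left _ _ hstar
      rw [hmap] at h
      simpa [hC] using h.1
    have hbD : D₀ * (n.im * D) ∈ J' := by
      refine E.disc J hrad h2 (n.im * D) ((k + k) + (k + k)) ?_
      rw [show (n.im * D) ^ ((k + k) + (k + k)) = (n.im ^ 2 * D) ^ (k + k) * D ^ (k + k) by
        rw [mul_pow, mul_pow, ← pow_mul, pow_add D, show (k + k) + (k + k) = 2 * (k + k) by omega]
        ring]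
      exact Ideal.mul_mem_right _ _ hdiff
    have haD : D₀ * (n.re * D) ∈ J' := by
      refine two_cancel_map J h2 ?_
      have h := E.disc J hrad h2 ((2 * n.re + tE E * n.im) * D) (k + k) (by
        rw [mul_pow]; exact Ideal.mul_mem_right _ _ hsum)
      have e : 2 * (D₀ * (n.re * D)) =
          D₀ * ((2 * n.re + tE E * n.im) * D) - tE E * (D₀ * (n.im * D)) := by ring
      rw [e]
      exact sub_mem h (Ideal.mul_mem_left _ _ hbD)
    rw [hre, hDval]
    constructor
    · simp only [QuadraticAlgebra.re_mul, mul_zero, zero_mul, add_zero]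
      rw [mul_assoc, mul_comm D]
      exact haD
    · simp only [QuadraticAlgebra.im_mul, mul_zero, zero_mul, add_zero]
      rw [mul_assoc, mul_comm D]
      exact hbD

end Step

/-- **Roots can be adjoined.** -/
theorem nonempty_rootExt [CharP (ResidueField O) 2] [IsLocalRing A] [Module.Finite O A]
    [Module.Free O A] [IsLocalHom (algebraMap O A)] [IsAdicComplete (maximalIdeal A) A]
    (aug : A →ₐ[O] ResidueField O) : ∀ {r : ℕ} (t d : Fin r → A) (ρ : Fin r → ResidueField O),
      (∀ i, ρ i ^ 2 - aug (t i) * ρ i + aug (d i) = 0) → Nonempty (RootExt aug t d ρ)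
  | 0, t, d, ρ, _ => ⟨RootExt.nil t d ρ⟩
  | r + 1, t, d, ρ, h => by
    obtain ⟨E⟩ := nonempty_rootExt aug (t ∘ Fin.castSucc) (d ∘ Fin.castSucc) (ρ ∘ Fin.castSucc)
      fun i => h _
    by_cases ht : aug (t (Fin.last r)) = 0
    · exact exists_double E (h _) ht
    · obtain ⟨x, hx, hxρ⟩ := simple_of_distinct E (h _) ht
      exact ⟨RootExt.simple E ht x hx hxρ⟩

end Fermat.Agent.RT.Two.Hecke

end
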