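import Fermat.Agent.RT.Two.Hecke.Ext
import Fermat.Agent.RT.Two.Hecke.Facts
import Fermat.Agent.RT.Two.Hecke.Frame
import Fermat.Agent.RT.Two.Hecke.RootExt

/-!
# The Hecke side of minimal lifting at two

An auxiliary level provides the algebra of the level with the chosen roots adjoined, the extended
dual module, triangular frames at the auxiliary primes and the properties of the representation.
-/

set_option autoImplicit false
set_option linter.unusedSectionVars false

noncomputable section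

namespace Fermat.Agent.RT.Two

open IsLocalRing Fermat.Agent.Arith Fermat.Agent.Deform
open scoped TensorProduct

variable {O : Type} [CommRing O] [IsDomain O] [IsDiscreteValuationRing O]
  [IsAdicComplete (maximalIdeal O) O] [Finite (ResidueField O)] [CharZero O]
  [Algebra (ZMod 2) (ResidueField O)] {N r μ : ℕ} {T : TwoSetup O N r}

namespace Hecke.LevelFacts

variable (C : Hecke.LevelFacts T μ)

theorem rbar_F_ne (T : TwoSetup O N r) (i : Fin r) (c : ResidueField O) :
    T.rbar (T.F i) ≠ c • (1 : M2 (ResidueField O)) := by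
  intro h
  set φ := algebraMap (ZMod 2) (ResidueField O)
  have he : ∀ a b, φ (T.r₂ (T.F i) a b) = if a = b then c else 0 := fun a b => by
    have h1 := congrFun (congrFun h a) b
    rw [Matrix.smul_apply, Matrix.one_apply, smul_eq_mul, mul_ite, mul_one, mul_zero] at h1
    exact h1
  refine T.F_nonscalar i (T.r₂ (T.F i) 0 0) (Matrix.ext fun a b => φ.injective ?_)
  rw [he, Matrix.smul_apply, Matrix.one_apply, smul_eq_mul, mul_ite, mul_one, mul_zero]
  split_ifs
  · exact ((he 0 0).trans (if_pos rfl)).symm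
  · exact (map_zero φ).symm

/-- The traces at the auxiliary Frobenius elements. -/
def tF : Fin r → C.A := fun i => (C.R (T.F i)).trace

/-- The determinants at the auxiliary Frobenius elements. -/
def dF : Fin r → C.A := fun i => (C.R (T.F i)).det

theorem root_residual (i : Fin r) :
    residue O (T.rE i) ^ 2 - C.aug (C.tF i) * residue O (T.rE i) + C.aug (C.dF i) = 0 := by
  rw [← C.residue_thetaE, ← C.residue_thetaE, tF, dF, (C.thetaE_R _).1, (C.thetaE_R _).2,
    ← map_pow, ← map_mul, ← map_sub, ← map_add, T.rE_root i, map_zero]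

variable (E : Hecke.RootExt C.aug C.tF C.dF fun i => residue O (T.rE i))

/-- The representation over the extension. -/
def RB : GQ →* M2 E.B := mapM (algebraMap C.A E.B) C.R

theorem trace_RB (σ : GQ) : (C.RB E σ).trace = algebraMap C.A E.B (C.R σ).trace :=
  (AddMonoidHom.map_trace (algebraMap C.A E.B) _).symm

theorem det_RB (σ : GQ) : (C.RB E σ).det = algebraMap C.A E.B (C.R σ).det :=
  (RingHom.map_det (algebraMap C.A E.B) _).symm

theorem map_RB {K : Type} [CommRing K] [Algebra O K] (θ : E.B →ₐ[O] K) (θA : C.A →ₐ[O] K)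
    (h : ∀ a, θ (algebraMap C.A E.B a) = θA a) (σ : GQ) :
    (C.RB E σ).map θ = (C.R σ).map θA :=
  Matrix.ext fun _ _ => h _

theorem map_RB_aug (σ : GQ) : (C.RB E σ).map E.augB = T.rbar σ :=
  (C.map_RB E E.augB C.aug E.augB_algebraMap σ).trans (C.R_aug σ)

theorem isUnit_of_augB {b : E.B} (hb : E.augB b ≠ 0) : IsUnit b := by
  have hker : RingHom.ker E.augB = maximalIdeal E.B :=
    eq_maximalIdeal (RingHom.ker_isMaximal_of_surjective _ fun z => by
      obtain ⟨a, rfl⟩ := residue_surjective (R := O) z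
      exact ⟨algebraMap O E.B a, E.augB.commutes a⟩)
  by_contra hu
  exact hb (RingHom.mem_ker.1 (hker.ge ((mem_maximalIdeal b).2 hu)))

theorem isLocalHom_ext : IsLocalHom (algebraMap C.A E.B) :=
  ⟨fun a ha => not_not.1 fun h => (ha.map E.augB).ne_zero (by
    rw [E.augB_algebraMap]; exact (C.mem_maximal a).1 ((mem_maximalIdeal a).2 h))⟩

theorem finite_residue : Finite (ResidueField E.B) := by
  choose lift hlift using residue_surjective (R := O)
  refine Finite.of_surjective (fun c : ResidueField O => residue E.B (algebraMap O E.B (lift c)))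
    fun z => ?_
  obtain ⟨b, rfl⟩ := residue_surjective z
  refine ⟨E.augB b, (Ideal.Quotient.eq).2 ?_⟩
  by_contra hu
  refine ((not_not.1 (fun h => hu ((mem_maximalIdeal _).2 h)) :
    IsUnit (algebraMap O E.B (lift (E.augB b)) - b)).map E.augB).ne_zero ?_
  rw [map_sub, AlgHom.commutes, ResidueField.algebraMap_eq, hlift, sub_self]

theorem cont_RB : IsCont (C.RB E) :=
  C.cont.map (algebraMap C.A E.B) (C.isLocalHom_ext E)

theorem flat_RB : (toRep (C.RB E) (C.cont_RB E)).IsFlatAt 2 :=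
  Hecke.isFlatAt_map (algebraMap C.A E.B)
    (C.finite_residue E) C.R C.cont _ C.flat

theorem exists_frames (i : Fin r) : ∃ P : (M2 E.B)ˣ,
    ((↑P⁻¹ : M2 E.B) * C.RB E (T.F i) * P) 1 0 = 0 ∧
      ((↑P⁻¹ : M2 E.B) * C.RB E (T.F i) * P) 0 0 = E.X i :=
  Hecke.exists_frame E.augB.toRingHom (fun _ => C.isUnit_of_augB E) _ _
    (by rw [trace_RB, det_RB]; exact E.root i)
    fun c => by
      rw [show (C.RB E (T.F i)).map E.augB.toRingHom = T.rbar (T.F i) from C.map_RB_aug E _]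
      exact rbar_F_ne T i c

/-- The frame at an auxiliary prime. -/
def frameB (i : Fin r) : (M2 E.B)ˣ := (C.exists_frames E i).choose

theorem frameB_spec (i : Fin r) :
    ((↑(C.frameB E i)⁻¹ : M2 E.B) * C.RB E (T.F i) * C.frameB E i) 1 0 = 0 ∧
      ((↑(C.frameB E i)⁻¹ : M2 E.B) * C.RB E (T.F i) * C.frameB E i) 0 0 = E.X i :=
  (C.exists_frames E i).choose_spec

/-- The second coordinate at an auxiliary prime. -/
def yB (i : Fin r) : E.B :=
  ((↑(C.frameB E i)⁻¹ : M2 E.B) * C.RB E (T.tau i) * C.frameB E i) 0 0 - 1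

/-- The first coordinate at an auxiliary prime. -/
def xB (i : Fin r) : E.B := algebraMap C.A E.B (C.xA i)

/-- The relation element at an auxiliary prime. -/
def vB (i : Fin r) : E.B :=
  (T.q i : E.B) * (C.RB E (T.F i)).trace ^ 2 -
    ((T.q i : E.B) + 1) ^ 2 * (C.RB E (T.F i)).det

theorem vB_eq (i : Fin r) : C.vB E i = algebraMap C.A E.B
    ((T.q i : C.A) * (C.R (T.F i)).trace ^ 2 -
      ((T.q i : C.A) + 1) ^ 2 * (C.R (T.F i)).det) := by
  simp only [vB, trace_RB, det_RB, map_sub, map_mul, map_pow, map_add, map_natCast, map_one]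

theorem map_y_eq_zero {K : Type} [CommRing K] [Algebra O K] (θ : E.B →ₐ[O] K)
    (θA : C.A →ₐ[O] K) (h : ∀ a, θ (algebraMap C.A E.B a) = θA a) (i : Fin r)
    (h1 : (C.R (T.tau i)).map θA = 1) : θ (C.yB E i) = 0 := by
  have hm : θ.toRingHom.mapMatrix
      ((↑(C.frameB E i)⁻¹ : M2 E.B) * C.RB E (T.tau i) * (C.frameB E i : M2 E.B)) = 1 := by
    rw [map_mul, map_mul,
      show θ.toRingHom.mapMatrix (C.RB E (T.tau i)) = 1 from (C.map_RB E θ θA h _).trans h1,
      mul_one, ← map_mul, Units.inv_mul, map_one]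
  rw [yB, map_sub, map_one, sub_eq_zero]
  exact (congrFun (congrFun hm 0) 0).trans (Matrix.one_apply_eq 0)

theorem relation_MB (i : Fin r) (m : E.B ⊗[C.A] C.D) :
    (C.vB E i * (C.yB E i * (C.yB E i - C.xB E i))) • m = 0 := by
  refine Hecke.map_smul_eq_zero C.annAll C.annAll_smul ?_ m
  obtain ⟨h10, h00⟩ := C.frameB_spec E i
  refine Hecke.relation_mem E.augB.toRingHom (fun _ => C.isUnit_of_augB E) (C.RB E (T.F i))
    (C.RB E (T.tau i)) (C.frameB E i) _ h10 h00
    (by rw [trace_RB, C.trace_tau, map_add, map_ofNat]; rfl)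
    (by rw [det_RB, C.det_tau, map_add, map_one]; rfl) (fun a b => ?_) fun c => ?_
  · have hC : C.RB E (T.tau i) * C.RB E (T.F i) - C.RB E (T.F i) * C.RB E (T.tau i) =
        (algebraMap C.A E.B).mapMatrix
          (C.R (T.tau i) * C.R (T.F i) - C.R (T.F i) * C.R (T.tau i)) := by
      rw [map_sub, map_mul, map_mul]; rfl
    rw [hC, C.vB_eq E i, RingHom.mapMatrix_apply, Matrix.map_apply, ← map_mul]
    exact Ideal.mem_map_of_mem _ (C.commutator i a b)
  · rw [show (C.RB E (T.F i)).map E.augB.toRingHom = T.rbar (T.F i) from C.map_RB_aug E _]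
    exact rbar_F_ne T i c

theorem kills_MB (b : E.B) (hb : ∀ θ : E.B →ₐ[O] AlgebraicClosure (FractionRing O),
      (∀ i, θ (C.xB E i) = 0 ∧ θ (C.yB E i) = 0) →
      IsLevelSystem N T.S (fun ℓ => θ (algebraMap C.A E.B (C.hk ℓ))) → θ b = 0)
    (m : E.B ⊗[C.A] C.D) :
    ((∏ i, C.vB E i * ((C.RB E (T.F i)).trace ^ 2 - 4 * (C.RB E (T.F i)).det)) * b) • m ∈
      Ideal.span (Set.range (C.xB E)) • (⊤ : Submodule E.B (E.B ⊗[C.A] C.D)) := by
  refine Hecke.map_smul_mem C.annInv C.xA C.annInv_smul ?_ m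
  set J' := C.annInv.map (algebraMap C.A E.B)
  let bB := Module.Free.chooseBasis C.A E.B
  have hsat : ∀ (c : O) (a : E.B), c ≠ 0 → c • a ∈ J' → a ∈ J' := fun c a hc h => by
    rw [Hecke.mem_map_iff_repr bB] at h ⊢
    intro i
    refine C.annInv_saturated c _ hc ?_
    have h2 := h i
    rwa [← algebraMap_smul C.A c a, map_smul, Finsupp.smul_apply, algebraMap_smul] at h2
  obtain ⟨k, hk⟩ : (∏ i, C.vB E i) * b ∈ J'.radical := by
    refine Hecke.mem_of_forall_points (O := O) (A := E.B) J'.radical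
      (fun a k h => J'.radical_idem.le ⟨k, h⟩) (fun c a hc h => ?_) fun θ hθ => ?_
    · obtain ⟨k, hk⟩ := h
      rw [smul_pow] at hk
      exact ⟨k, hsat _ _ (pow_ne_zero _ hc) hk⟩
    set θA : C.A →ₐ[O] CBar O := θ.comp (IsScalarTower.toAlgHom O C.A E.B)
    have hθA : ∀ a ∈ C.annInv, θA a = 0 := fun a ha =>
      hθ _ (Ideal.le_radical (Ideal.mem_map_of_mem _ ha))
    rw [map_mul, map_prod]
    by_cases hv : ∀ i, θA ((T.q i : C.A) * (C.R (T.F i)).trace ^ 2 -
        ((T.q i : C.A) + 1) ^ 2 * (C.R (T.F i)).det) ≠ 0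
    · obtain ⟨hτ, hlev⟩ := C.level_point θA hθA hv
      exact mul_eq_zero_of_right _ (hb θ
        (fun i => ⟨(hτ i).1, C.map_y_eq_zero E θ θA (fun _ => rfl) i (hτ i).2⟩) hlev)
    · push Not at hv
      obtain ⟨i, hi⟩ := hv
      refine mul_eq_zero_of_left (Finset.prod_eq_zero (Finset.mem_univ i) ?_) _
      rw [C.vB_eq]
      exact hi
  have h := E.disc C.annInv C.annInv_radical (fun a ha => C.annInv_saturated 2 a two_ne_zero (by
    rwa [show (2 : O) • a = 2 * a by rw [Algebra.smul_def, map_ofNat]])) _ k hk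
  convert h using 1
  rw [map_prod, Finset.prod_mul_distrib]
  simp only [map_sub, map_mul, map_pow, map_ofNat, tF, dF, trace_RB, det_RB]
  ring

theorem adjoin_RB : Algebra.adjoin O ((Set.range fun σ => (C.RB E σ).trace) ∪
    (Set.range fun σ => (C.RB E σ).det) ∪ Set.range E.X) = ⊤ := by
  set S := Algebra.adjoin O ((Set.range fun σ => (C.RB E σ).trace) ∪
    (Set.range fun σ => (C.RB E σ).det) ∪ Set.range E.X)
  have hA : ∀ a : C.A, algebraMap C.A E.B a ∈ S := fun a => by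
    have ha : a ∈ Algebra.adjoin O (Set.range fun σ => (C.R σ).trace) :=
      C.adjoin ▸ Algebra.mem_top
    induction ha using Algebra.adjoin_induction with
    | mem x hx =>
      obtain ⟨σ, rfl⟩ := hx
      exact Algebra.subset_adjoin (Or.inl (Or.inl ⟨σ, C.trace_RB E σ⟩))
    | algebraMap c => rw [← IsScalarTower.algebraMap_apply]; exact S.algebraMap_mem c
    | add x y _ _ hx hy => rw [map_add]; exact add_mem hx hy
    | mul x y _ _ hx hy => rw [map_mul]; exact mul_mem hx hy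
  refine eq_top_iff.2 fun z hz' => ?_
  clear hz'
  have hz : z ∈ Algebra.adjoin C.A (Set.range E.X) := E.adjoin_eq_top ▸ Algebra.mem_top
  induction hz using Algebra.adjoin_induction with
  | mem x hx => exact Algebra.subset_adjoin (Or.inr hx)
  | algebraMap a => exact hA a
  | add x y _ _ hx hy => exact add_mem hx hy
  | mul x y _ _ hx hy => exact mul_mem hx hy

theorem det_RB_congr (σ : GQ) (hσ : ∀ μ' : QBar, μ' ^ ∏ i, T.q i = 1 → σ μ' = μ') (k a : ℕ)
    (ha : ∀ μ' : QBar, μ' ^ 2 ^ k = 1 → σ μ' = μ' ^ a) :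
    (C.RB E σ).det - a ∈ Ideal.span {(2 : E.B) ^ k} := by
  have h := Ideal.mem_map_of_mem (algebraMap C.A E.B) (C.det_congr σ hσ k a ha)
  rw [Ideal.map_span, Set.image_singleton, map_sub, map_natCast, map_pow, map_ofNat] at h
  rw [det_RB]
  exact h

theorem occurs_MB (a₀ : ℕ → O) (hN : IsLevelSystem N T.S a₀)
    (hres : ∀ ℓ : ℕ, ℓ.Prime → ℓ ∉ T.S → residue O (a₀ ℓ) = (T.aE ℓ : ResidueField O))
    (ρ₀ : GaloisRepAdic O) (hρ : ∀ ℓ : ℕ, ℓ.Prime → ℓ ∉ T.S → ∀ A : ValuationSubring QBar,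
      A.LiesOverPrime ℓ → ∀ σ : GQ, A.IsFrobeniusAt σ ℓ →
        ρ₀.trace σ = a₀ ℓ ∧ LinearMap.det (ρ₀.ρ σ) = (ℓ : O))
    (r₀ : Fin r → O)
    (hr : ∀ i, r₀ i ^ 2 - ρ₀.trace (T.F i) * r₀ i + LinearMap.det (ρ₀.ρ (T.F i)) = 0)
    (hr' : ∀ i, residue O (r₀ i) = residue O (T.rE i)) :
    ∃ θ₀ : E.B →ₐ[O] O,
      (∀ ℓ : ℕ, ℓ.Prime → ℓ ∉ T.S → θ₀ (algebraMap C.A E.B (C.hk ℓ)) = a₀ ℓ) ∧
      (∀ i, θ₀ (E.X i) = r₀ i ∧ θ₀ (C.xB E i) = 0 ∧ θ₀ (C.yB E i) = 0 ∧
        θ₀ (C.RB E (T.F i)).trace = ρ₀.trace (T.F i) ∧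
        θ₀ (C.RB E (T.F i)).det = LinearMap.det (ρ₀.ρ (T.F i))) ∧
      ∃ w : E.B ⊗[C.A] C.D, (∀ b : E.B, (b - algebraMap O E.B (θ₀ b)) • w ∈
          Ideal.span (Set.range (C.xB E)) • (⊤ : Submodule E.B (E.B ⊗[C.A] C.D))) ∧
        ∀ (π : O) (K D : ℕ), Irreducible π → D < 2 ^ T.n →
          (∀ j, 1 ≤ j → j ≤ D → π ^ K ∣ ((2 ^ T.n).choose j : O)) →
          ∃ coef : (Fin r → ℕ) → E.B ⊗[C.A] C.D →ₗ[O] O ⧸ Ideal.span {π ^ K},
            (∀ (a : Fin r → ℕ) (j : Fin r) (m : E.B ⊗[C.A] C.D), ∑ i, a i ≤ D →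
              coef a (C.xB E j • m) = if a j = 0 then 0 else coef (a - Pi.single j 1) m) ∧
            (K ≠ 0 → IsUnit (coef 0 w)) := by
  obtain ⟨θ, hθres, hhk, heq, hτ, w₀, hw₀, hΦ⟩ := C.occurs a₀ hN hres ρ₀ hρ
  obtain ⟨θB, h1, h2, -, ε, u, hεu, hu⟩ := E.point θ r₀ hθres (fun i => by
    rw [tF, dF, (heq _).1, (heq _).2]; exact hr i) hr'
  refine ⟨θB, fun ℓ hℓ hℓS => (h1 _).trans (hhk ℓ hℓ hℓS),
    fun i => ⟨h2 i, (h1 _).trans (hτ i).1, C.map_y_eq_zero E θB θ h1 i (hτ i).2, ?_, ?_⟩,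
    u ⊗ₜ[C.A] w₀, fun b => ?_, fun π K D _ _ hdvd => ?_⟩
  · rw [trace_RB, h1, (heq _).1]
  · rw [det_RB, h1, (heq _).2]
  · exact Hecke.smul_tmul_mem (RingHom.ker θ) C.xA w₀
      (fun a ha => hw₀ a (RingHom.mem_ker.1 ha)) u _ (hu b)
  · obtain ⟨Φ, hΦ1, hΦ0⟩ := hΦ π K D hdvd
    obtain ⟨coef, hc, hc0⟩ := Hecke.exists_coef (B := E.B) C.xA D Φ hΦ1 ε u hεu w₀
    exact ⟨coef, hc, fun _ => hc0.symm ▸ hΦ0⟩

include C in
/-- The auxiliary level from its facts. -/
theorem nonempty_twoLevel : Nonempty (TwoLevel T μ) := by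
  have := charP_residue (O := O)
  obtain ⟨E⟩ := Hecke.nonempty_rootExt C.aug C.tF C.dF (fun i => residue O (T.rE i)) C.root_residual
  obtain ⟨θB, h1, h2, -, -⟩ := E.point C.thetaE T.rE C.residue_thetaE
    (fun i => by
      rw [tF, dF, (C.thetaE_R _).1, (C.thetaE_R _).2]
      exact T.rE_root i) fun i => rfl
  exact ⟨{
    B := E.B
    M := E.B ⊗[C.A] C.D
    spanFinrank_le := (Hecke.spanFinrank_ext_le C.g C.span_g).trans C.n_le
    aug := E.augB
    R := C.RB E
    cont := C.cont_RB E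
    R_aug := C.map_RB_aug E
    t := fun ℓ => algebraMap C.A E.B (C.hk ℓ)
    frobenius := fun ℓ hℓ hℓS A hA σ hσ => by
      rw [C.trace_RB, C.frobenius ℓ hℓ hℓS A hA σ hσ]
    X := E.X
    aug_X := E.augB_X
    adjoin_eq_top := C.adjoin_RB E
    unramified := fun v hv h A hA σ hσ => by
      show (algebraMap C.A E.B).mapMatrix (C.R σ) = 1
      rw [C.unramified v hv h A hA σ hσ, map_one]
    unipotent := fun v hv hvN A hA σ hσ => by
      obtain ⟨h1, h2⟩ := C.unipotent v hv hvN A hA σ hσ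
      exact ⟨by rw [C.trace_RB, h1, map_ofNat], by rw [C.det_RB, h2, map_one]⟩
    flat := C.flat_RB E
    det_congr := C.det_RB_congr E
    τ := T.tau
    τ_mem := T.tau_mem
    τ_sqrt := fun i z hz => T.tau_sqrt i hz
    x := C.xB E
    trace_τ := fun i => by rw [C.trace_RB, C.trace_tau, map_add, map_ofNat]; rfl
    det_τ := fun i => by rw [C.det_RB, C.det_tau, map_add, map_one]; rfl
    P := C.frameB E
    frame := C.frameB_spec E
    y := C.yB E
    y_eq := fun _ => rfl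
    v := C.vB E
    v_eq := fun _ => rfl
    relation := C.relation_MB E
    θE := θB
    θE_t := fun ℓ hℓ hℓS => (h1 _).trans (C.thetaE_hk ℓ hℓ hℓS)
    θE_X := h2
    θE_frobenius := fun i => by
      rw [C.trace_RB, C.det_RB, h1, h1]
      exact C.thetaE_R _
    θE_xy := fun i => ⟨(h1 _).trans (C.thetaE_tau i).1,
      C.map_y_eq_zero E θB C.thetaE h1 i (C.thetaE_tau i).2⟩
    kills := C.kills_MB E
    occurs := C.occurs_MB E }⟩

end Hecke.LevelFacts

/-- **The Hecke side of minimal lifting at two.** -/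
theorem heckeSideInput (O : Type) [CommRing O] [IsDomain O] [IsDiscreteValuationRing O]
    [IsAdicComplete (maximalIdeal O) O] [Finite (ResidueField O)] [CharZero O]
    [Algebra (ZMod 2) (ResidueField O)] : HeckeSideInput O := fun N r => by
  obtain ⟨μ, hμ⟩ := socleInput (O := O) N r
  refine ⟨μ, fun T => ?_⟩
  obtain ⟨C⟩ := T.nonempty_levelFacts (glueInput O) (hμ T).1 (hμ T).2
  exact C.nonempty_twoLevel

end Fermat.Agent.RT.Two

end
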