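import Fermat.Agent.Deform.Matrix
import Fermat.Agent.Arith.Places
import Fermat.Agent.FiniteFlat.GalOrder
import Fermat.Prelude.Def_GaloisRep_Flat

/-!
# Families of pointwise representations with traces and determinants in a ring

The statements of the gluing theorem at two: pointwise representations whose Frobenius traces and
determinants come from a complete local ring come from a representation over it, which is flat
when the relations of finite Galois orders detect the small traces.
-/

set_option autoImplicit false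

noncomputable section

namespace Fermat.Agent.RT.Two

open IsLocalRing Fermat.Agent.Deform Fermat.Agent.Arith

variable (O : Type) [CommRing O] [IsDomain O]

/-- The algebraic closure of the fraction field. -/
abbrev CBar : Type := AlgebraicClosure (FractionRing O)

/-- `c` is an integral multiple of `2 ^ N`. -/
def SmallAt (N : ℕ) (c : CBar O) : Prop :=
  ∃ a : CBar O, IsIntegral O a ∧ c = (2 : CBar O) ^ N * a

variable (A : Type) [CommRing A] [Algebra O A] (S : Finset ℕ) (ι : Type)

/-- Points of `A` with representations over the algebraic closure whose Frobenius traces and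
determinants come from `A`. -/
structure PointFamily where
  π : ι → A →ₐ[O] CBar O
  separates : ∀ a : A, (∀ i, π i a = 0) → a = 0
  ρ : ι → GQ →* M2 (CBar O)
  t : ℕ → A
  d : ℕ → A
  frobenius : ∀ i, ∀ ℓ : ℕ, ℓ.Prime → ℓ ∉ S → ∀ V : ValuationSubring QBar, V.LiesOverPrime ℓ →
    ∀ σ : GQ, V.IsFrobeniusAt σ ℓ → (ρ i σ).trace = π i (t ℓ) ∧ (ρ i σ).det = π i (d ℓ)
  cont : ∀ N : ℕ, ∃ F : IntermediateField ℚ QBar, FiniteDimensional ℚ F ∧
    ∀ σ : GQ, (∀ z ∈ F, σ z = z) → ∀ g i, SmallAt O N ((ρ i (g * σ)).trace - (ρ i g).trace) ∧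
      SmallAt O N ((ρ i (g * σ)).det - (ρ i g).det)

variable {O A S ι}

/-- The relations of a finite Galois order at each depth force small traces at all points. -/
def PointFamily.FlatDetected (P : PointFamily O A S ι) : Prop :=
  ∀ N : ℕ, ∃ (X : Type) (_ : AddCommGroup X) (_ : DistribMulAction GQ X) (_ : Finite X),
    Nonempty (FiniteFlat.GalOrder 2 X) ∧ ∃ F : MonoidAlgebra ℤ GQ →+ X,
      (∀ (σ : GQ) y, F (MonoidAlgebra.single σ 1 * y) = σ • F y) ∧
      ∀ y, F y = 0 → ∀ i, SmallAt O N ((MonoidAlgebra.lift ℤ _ GQ (P.ρ i) y).trace)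

/-- **Gluing at two.** -/
def GlueInput (O : Type) [CommRing O] [IsDomain O] [IsDiscreteValuationRing O]
    [IsAdicComplete (maximalIdeal O) O] [Finite (ResidueField O)] [CharZero O] : Prop :=
  (2 : O) ∈ maximalIdeal O →
  ∀ (A : Type) [CommRing A] [IsLocalRing A] [Algebra O A] [Module.Finite O A] [Module.Free O A]
    [IsAdicComplete (maximalIdeal A) A] (S : Finset ℕ) (ι : Type) (P : PointFamily O A S ι)
    (aug : A →ₐ[O] ResidueField O) (rbar : GQ →* M2 (ResidueField O)),
    Submodule.span (ResidueField O) (Set.range rbar) = ⊤ →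
    (∃ σ, ∃ u w : ResidueField O, u ≠ w ∧ (rbar σ).trace = u + w ∧ (rbar σ).det = u * w) →
    (∃ F : IntermediateField ℚ QBar, FiniteDimensional ℚ F ∧
      ∀ σ : GQ, (∀ z ∈ F, σ z = z) → rbar σ = 1) →
    (∀ ℓ : ℕ, ℓ.Prime → ℓ ∉ S → ∀ V : ValuationSubring QBar, V.LiesOverPrime ℓ →
      ∀ σ : GQ, V.IsFrobeniusAt σ ℓ →
        (rbar σ).trace = aug (P.t ℓ) ∧ (rbar σ).det = aug (P.d ℓ)) →
    ∃ (R : GQ →* M2 A) (hR : IsCont R), (∀ σ, (R σ).map aug = rbar σ) ∧
      (∀ i σ, P.π i (R σ).trace = (P.ρ i σ).trace ∧ P.π i (R σ).det = (P.ρ i σ).det) ∧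
      (∀ σ, (∀ i, P.ρ i σ = 1) → R σ = 1) ∧
      (P.FlatDetected → (toRep R hR).IsFlatAt 2)

end Fermat.Agent.RT.Two

end
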