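import Fermat.Agent.RT.Two.Hecke.Interface
import Fermat.Agent.RT.GammaH.Hecke

/-!
# The socle of an auxiliary level: statement

The homomorphisms `Γ₀(N ∏ q i) → k` on which the good Hecke operators act through the residual
system span a space of dimension bounded independently of the primes `q i`.
-/

set_option autoImplicit false

noncomputable section

namespace Fermat.Agent.RT.Two

open IsLocalRing

variable {O : Type} [CommRing O] [IsDomain O] [IsDiscreteValuationRing O]
  [IsAdicComplete (maximalIdeal O) O] [Finite (ResidueField O)] [CharZero O]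
  [Algebra (ZMod 2) (ResidueField O)] {N r : ℕ}

/-- The level. -/
def TwoSetup.level (T : TwoSetup O N r) : ℕ := N * ∏ i, T.q i

instance TwoSetup.neZero_level (T : TwoSetup O N r) : NeZero T.level :=
  ⟨mul_ne_zero (Nat.pos_iff_ne_zero.mp T.odd.pos)
    (Finset.prod_ne_zero_iff.2 fun i _ => (T.q_prime i).ne_zero)⟩

/-- The eigen homomorphisms modulo the maximal ideal. -/
def TwoSetup.socle (T : TwoSetup O N r) : Submodule (ResidueField O)
    (Additive (GammaH.gammaH T.level (⊤ : Subgroup (ZMod T.level)ˣ)) →+ ResidueField O) :=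
  ⨅ (ℓ : {ℓ : ℕ // ℓ.Prime ∧ ℓ ∉ T.S}), haveI : Fact ℓ.1.Prime := ⟨ℓ.2.1⟩
    LinearMap.ker (GammaH.hecke T.level ⊤ ℓ.1 (ResidueField O) -
      (T.aE ℓ.1 : ResidueField O) • (1 : Module.End (ResidueField O) _))

/-- **The socle is bounded.** -/
def SocleInput (O : Type) [CommRing O] [IsDomain O] [IsDiscreteValuationRing O]
    [IsAdicComplete (maximalIdeal O) O] [Finite (ResidueField O)] [CharZero O]
    [Algebra (ZMod 2) (ResidueField O)] : Prop :=
  ∀ N r : ℕ, ∃ μ : ℕ, ∀ T : TwoSetup O N r,
    Module.Finite (ResidueField O) T.socle ∧ Module.finrank (ResidueField O) T.socle ≤ μ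

end Fermat.Agent.RT.Two

end
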