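import Mathlib.RingTheory.IntegralDomain
import Mathlib.Analysis.Complex.Polynomial.Basic
import Fermat.Agent.RT.Assembly.LevelChar
import Fermat.Agent.RT.GammaH.Twist
import Fermat.Agent.RT.GammaH.NebHecke
import Fermat.Agent.RT.Two.Hecke.Socle

/-!
# The diamond group of an auxiliary level and square roots of its characters

`psi` is the projection of `(ℤ/L)ˣ` to the `2 ^ n`-quotients at the auxiliary primes; it lifts to
`psiRoot` with values in the `2 ^ (n + 1)`-quotients, so every character of the diamond group has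
a square root of the same conductor, even at every prime.
-/

set_option autoImplicit false
set_option linter.unusedSectionVars false

noncomputable section

namespace Fermat.Agent.RT.Two

open IsLocalRing GammaH

theorem exists_surjective_logHom {q m : ℕ} [hq : Fact q.Prime] [NeZero m] (hm : m ∣ q - 1) :
    ∃ f : (ZMod q)ˣ →* Multiplicative (ZMod m), Function.Surjective f := by
  obtain ⟨a, ha⟩ := IsCyclic.exists_generator (α := (ZMod q)ˣ)
  have hord : orderOf a = q - 1 := by
    rw [orderOf_eq_card_of_forall_mem_zpowers ha, Nat.card_eq_fintype_card, ZMod.card_units]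
  obtain ⟨f, hf⟩ := Assembly.exists_logHom hm hord (1 : ZMod m)
  refine ⟨f, fun y => ⟨a ^ y.toAdd.val, ?_⟩⟩
  rw [map_pow, hf, ← ofAdd_nsmul, nsmul_one, ZMod.natCast_zmod_val]
  rfl

theorem map_neg_one_of_dvd {q m : ℕ} [hq : Fact q.Prime] [NeZero m] (hm : 2 * m ∣ q - 1)
    (f : (ZMod q)ˣ →* Multiplicative (ZMod m)) : f (-1) = 1 := by
  obtain ⟨a, ha⟩ := IsCyclic.exists_generator (α := (ZMod q)ˣ)
  have hord : orderOf a = q - 1 := by
    rw [orderOf_eq_card_of_forall_mem_zpowers ha, Nat.card_eq_fintype_card, ZMod.card_units]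
  obtain ⟨k, hk⟩ := hm
  have hk0 : 0 < m * k := by
    have := hq.out.two_le
    rcases Nat.eq_zero_or_pos (m * k) with h | h
    · rw [mul_assoc, h, mul_zero] at hk; omega
    · exact h
  have h1 : ((a ^ (m * k) : (ZMod q)ˣ) : ZMod q) = -1 := by
    have hsq : ((a ^ (m * k) : (ZMod q)ˣ) : ZMod q) * (a ^ (m * k) : (ZMod q)ˣ) = 1 := by
      rw [← Units.val_mul, ← pow_add, ← two_mul, ← mul_assoc, ← hk, ← hord, pow_orderOf_eq_one,
        Units.val_one]
    refine (mul_self_eq_one_iff.1 hsq).resolve_left fun h => ?_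
    have := orderOf_dvd_of_pow_eq_one (Units.ext (by rwa [Units.val_one]) : a ^ (m * k) = 1)
    rw [hord, hk, mul_assoc] at this
    have := Nat.le_of_dvd hk0 this
    omega
  rw [show (-1 : (ZMod q)ˣ) = a ^ (m * k) from Units.ext (by rw [h1]; rfl), map_pow, pow_mul,
    show f a ^ m = 1 from by
      rw [← ofAdd_toAdd (f a), ← ofAdd_nsmul, nsmul_eq_mul, ZMod.natCast_self, zero_mul, ofAdd_zero],
    one_pow]

variable {O : Type} [CommRing O] [IsDomain O] [IsDiscreteValuationRing O]
  [IsAdicComplete (maximalIdeal O) O] [Finite (ResidueField O)] [CharZero O]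
  [Algebra (ZMod 2) (ResidueField O)] {N r : ℕ}

namespace TwoSetup

variable (T : TwoSetup O N r)

theorem q_dvd_level (i : Fin r) : T.q i ∣ T.level :=
  (Finset.dvd_prod_of_mem T.q (Finset.mem_univ i)).mul_left N

theorem squarefree_level : Squarefree T.level := by
  have key : ∀ s : Finset (Fin r), Squarefree (N * ∏ i ∈ s, T.q i) := fun s => by
    induction s using Finset.induction_on with
    | empty => simpa using T.squarefree
    | insert a s ha ih =>
      rw [Finset.prod_insert ha, mul_left_comm, Nat.squarefree_mul_iff]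
      refine ⟨(T.q_prime a).coprime_iff_not_dvd.2 fun h => ?_, (T.q_prime a).squarefree, ih⟩
      rcases (T.q_prime a).dvd_mul.1 h with h | h
      · exact T.q_not_dvd a h
      · obtain ⟨b, hb, hab⟩ := (T.q_prime a).prime.exists_mem_finset_dvd h
        exact ha (T.q_injective ((Nat.prime_dvd_prime_iff_eq (T.q_prime a) (T.q_prime b)).1 hab) ▸ hb)
  exact key Finset.univ

theorem mem_S_of_dvd_level {v : ℕ} (hv : v.Prime) (h : v ∣ T.level) : v ∈ T.S :=
  T.mem_S v hv (dvd_mul_of_dvd_right h 6)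

/-- The diamond group. -/
abbrev Delta : Type := Multiplicative (Fin r → ZMod (2 ^ T.n))

/-- The group of square roots. -/
abbrev DeltaRoot : Type := Multiplicative (Fin r → ZMod (2 ^ (T.n + 1)))

theorem isPGroup_delta : IsPGroup 2 T.Delta := IsPGroup.of_card (n := T.n * r) (by
  rw [Nat.card_congr Multiplicative.toAdd, Nat.card_fun, Nat.card_zmod, Nat.card_eq_fintype_card,
    Fintype.card_fin, ← pow_mul])

theorem pow_dvd_sub_one (i : Fin r) {k : ℕ} (hk : k ≤ T.n + 3) : 2 ^ k ∣ T.q i - 1 :=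
  (pow_dvd_pow 2 hk).trans (T.q_congr i)

/-- The logarithm at an auxiliary prime. -/
def log (i : Fin r) : (ZMod (T.q i))ˣ →* Multiplicative (ZMod (2 ^ (T.n + 1))) :=
  haveI : Fact (T.q i).Prime := ⟨T.q_prime i⟩
  (exists_surjective_logHom (T.pow_dvd_sub_one i (k := T.n + 1) (by omega))).choose

theorem log_surjective (i : Fin r) : Function.Surjective (T.log i) :=
  haveI : Fact (T.q i).Prime := ⟨T.q_prime i⟩
  (exists_surjective_logHom (T.pow_dvd_sub_one i (k := T.n + 1) (by omega))).choose_spec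

theorem log_neg_one (i : Fin r) : T.log i (-1) = 1 := by
  have : Fact (T.q i).Prime := ⟨T.q_prime i⟩
  refine map_neg_one_of_dvd ?_ _
  rw [← pow_succ']
  exact T.pow_dvd_sub_one i (by omega)

/-- The projection to the group of square roots. -/
def psiRoot : (ZMod T.level)ˣ →* T.DeltaRoot where
  toFun u := Multiplicative.ofAdd fun i => (T.log i (ZMod.unitsMap (T.q_dvd_level i) u)).toAdd
  map_one' := by simp [map_one]; rfl
  map_mul' u v := by
    simp only [map_mul, toAdd_mul]
    rfl

theorem psiRoot_apply (u : (ZMod T.level)ˣ) (i : Fin r) :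
    (T.psiRoot u).toAdd i = (T.log i (ZMod.unitsMap (T.q_dvd_level i) u)).toAdd := rfl

/-- Reduction of the root group. -/
def red : T.DeltaRoot →* T.Delta :=
  AddMonoidHom.toMultiplicative (AddMonoidHom.compLeft
    (ZMod.castHom (pow_dvd_pow 2 (Nat.le_succ T.n)) (ZMod (2 ^ T.n))).toAddMonoidHom (Fin r))

/-- The projection to the diamond group. -/
def psi : (ZMod T.level)ˣ →* T.Delta := T.red.comp T.psiRoot

theorem red_apply (x : T.DeltaRoot) (i : Fin r) :
    (T.red x).toAdd i =
      ZMod.castHom (pow_dvd_pow 2 (Nat.le_succ T.n)) (ZMod (2 ^ T.n)) (x.toAdd i) := rfl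

theorem psi_apply (u : (ZMod T.level)ˣ) (i : Fin r) :
    (T.psi u).toAdd i = ZMod.castHom (pow_dvd_pow 2 (Nat.le_succ T.n)) (ZMod (2 ^ T.n))
      ((T.psiRoot u).toAdd i) := rfl

theorem unitsMap_q_eq_one {v : ℕ} (hvL : v ∣ T.level) (hv : v.Prime) (i : Fin r) (hne : v ≠ T.q i)
    {u : (ZMod T.level)ˣ} (hu : ((u : ZMod T.level).cast : ZMod (T.level / v)) = 1) :
    ZMod.unitsMap (T.q_dvd_level i) u = 1 := by
  have hd : T.q i ∣ T.level / v := by
    rw [Nat.dvd_div_iff_mul_dvd hvL]
    exact ((Nat.coprime_primes hv (T.q_prime i)).2 hne).mul_dvd_of_dvd_of_dvd hvL (T.q_dvd_level i)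
  have h := congrArg (ZMod.unitsMap hd)
    ((unitsMap_eq_one_iff (Nat.div_dvd_of_dvd hvL) u).2 hu)
  rw [map_one, ← MonoidHom.comp_apply, ZMod.unitsMap_comp] at h
  exact h

theorem psiRoot_eq_one {v : ℕ} (hvL : v ∣ T.level) (hv : v.Prime) (hne : ∀ i, v ≠ T.q i)
    {u : (ZMod T.level)ˣ} (hu : ((u : ZMod T.level).cast : ZMod (T.level / v)) = 1) :
    T.psiRoot u = 1 :=
  Multiplicative.toAdd.injective (funext fun i => by
    rw [psiRoot_apply, T.unitsMap_q_eq_one hvL hv i (hne i) hu, map_one]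
    rfl)

theorem psiRoot_neg {v : ℕ} (hvL : v ∣ T.level) (hv : v.Prime)
    {u : (ZMod T.level)ˣ} (hu : ((u : ZMod T.level).cast : ZMod (T.level / v)) = 1)
    (hu1 : ZMod.unitsMap hvL u = -1) : T.psiRoot u = 1 :=
  Multiplicative.toAdd.injective (funext fun i => by
    rw [psiRoot_apply]
    by_cases h : v = T.q i
    · subst h
      rw [hu1, log_neg_one]
      rfl
    · rw [T.unitsMap_q_eq_one hvL hv i h hu, map_one]
      rfl)

theorem psiRoot_neg_one : T.psiRoot (-1) = 1 :=
  Multiplicative.toAdd.injective (funext fun i => by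
    rw [psiRoot_apply, show ZMod.unitsMap (T.q_dvd_level i) (-1 : (ZMod T.level)ˣ) = -1 from
      Units.ext (by simp [ZMod.unitsMap]), log_neg_one]
    rfl)

theorem psi_neg_one : T.psi (-1) = 1 := by
  rw [psi, MonoidHom.comp_apply, psiRoot_neg_one, map_one]

/-- Units supported at one auxiliary prime give the standard generators. -/
theorem exists_unit_gen (i : Fin r) : ∃ u : (ZMod T.level)ˣ,
    ((u : ZMod T.level).cast : ZMod (T.level / T.q i)) = 1 ∧
      T.psiRoot u = Multiplicative.ofAdd (Pi.single i 1) := by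
  obtain ⟨a, ha⟩ := T.log_surjective i (Multiplicative.ofAdd 1)
  obtain ⟨u, hu, hua⟩ := Assembly.exists_unit_crt (T.q_dvd_level i)
    ((T.q_prime i).coprime_iff_not_dvd.2
      (coprime_div_of_squarefree T.squarefree_level (T.q_prime i) (T.q_dvd_level i))) a
  refine ⟨u, hu, Multiplicative.toAdd.injective (funext fun j => ?_)⟩
  rw [psiRoot_apply, toAdd_ofAdd]
  rcases eq_or_ne j i with rfl | hji
  · rw [hua, ha, Pi.single_eq_same]
    rfl
  · rw [T.unitsMap_q_eq_one (T.q_dvd_level i) (T.q_prime i) j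
      (fun h => hji (T.q_injective h).symm) hu, map_one, Pi.single_eq_of_ne hji]
    rfl

theorem eq_prod_single {m : ℕ} [NeZero m] (x : Multiplicative (Fin r → ZMod m)) :
    x = ∏ i, Multiplicative.ofAdd (Pi.single i (1 : ZMod m) : Fin r → ZMod m) ^ (x.toAdd i).val := by
  refine Multiplicative.toAdd.injective (funext fun j => ?_)
  rw [toAdd_prod, Finset.sum_apply]
  simp only [toAdd_pow, toAdd_ofAdd, Pi.smul_apply, Pi.single_apply, smul_ite, smul_zero, nsmul_one,
    ZMod.natCast_zmod_val, Finset.sum_ite_eq, Finset.mem_univ, if_true]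

theorem psiRoot_surjective : Function.Surjective T.psiRoot := fun x => by
  choose u hu using T.exists_unit_gen
  refine ⟨∏ i, u i ^ (x.toAdd i).val, ?_⟩
  rw [map_prod]
  conv_rhs => rw [eq_prod_single x]
  exact Finset.prod_congr rfl fun i _ => by rw [map_pow, (hu i).2]

theorem red_surjective : Function.Surjective T.red := fun x =>
  ⟨Multiplicative.ofAdd fun i => ((x.toAdd i).val : ZMod (2 ^ (T.n + 1))),
    Multiplicative.toAdd.injective (funext fun i => by
      rw [red_apply, toAdd_ofAdd, map_natCast, ZMod.natCast_zmod_val])⟩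

theorem psi_surjective : Function.Surjective T.psi :=
  T.red_surjective.comp T.psiRoot_surjective

/-- A square root of the inverse of a character of the diamond group. -/
theorem exists_root (θ : T.Delta →* ℂˣ) : ∃ Φ : T.DeltaRoot →* ℂˣ,
    (∀ x, Φ x ^ 2 * θ (T.red x) = 1) ∧
      ∀ i, θ (Multiplicative.ofAdd (Pi.single i 1)) = 1 →
        Φ (Multiplicative.ofAdd (Pi.single i 1)) = 1 := by
  classical
  set ζ : Fin r → ℂˣ := fun i => θ (Multiplicative.ofAdd (Pi.single i 1))
  have hroot : ∀ z : ℂˣ, ∃ s : ℂˣ, s ^ 2 = z⁻¹ ∧ (z = 1 → s = 1) := fun z => by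
    by_cases hz : z = 1
    · exact ⟨1, by simp [hz], fun _ => rfl⟩
    obtain ⟨w, hw⟩ := IsAlgClosed.exists_pow_nat_eq ((z⁻¹ : ℂˣ) : ℂ) two_pos
    refine ⟨Units.mk0 w fun h => ?_, Units.ext hw, fun h => absurd h hz⟩
    rw [h, zero_pow two_ne_zero] at hw
    exact (z⁻¹).ne_zero hw.symm
  choose s hs hs1 using fun i => hroot (ζ i)
  have hord : ∀ i, s i ^ 2 ^ (T.n + 1) = 1 := fun i => by
    rw [pow_succ', pow_mul, hs, inv_pow, inv_eq_one]
    show θ _ ^ 2 ^ T.n = 1
    rw [← map_pow, ← ofAdd_nsmul, ← Nat.cast_smul_eq_nsmul (ZMod (2 ^ T.n)), ZMod.natCast_self,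
      zero_smul, ofAdd_zero, map_one]
  let Φ : T.DeltaRoot →* ℂˣ :=
    { toFun := fun x => ∏ i, s i ^ (x.toAdd i).val
      map_one' := by simp
      map_mul' := fun x y => by
        rw [← Finset.prod_mul_distrib]
        refine Finset.prod_congr rfl fun i _ => ?_
        rw [toAdd_mul, Pi.add_apply, ZMod.val_add, ← pow_eq_pow_mod _ (hord i), pow_add] }
  refine ⟨Φ, fun x => ?_, fun i hi => ?_⟩
  · conv_lhs => rw [show θ (T.red x) = θ (T.red (∏ i, Multiplicative.ofAdd
      (Pi.single i (1 : ZMod (2 ^ (T.n + 1))) : Fin r → ZMod (2 ^ (T.n + 1))) ^ (x.toAdd i).val))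
      from by rw [← eq_prod_single x]]
    show (∏ i, s i ^ (x.toAdd i).val) ^ 2 * _ = 1
    rw [map_prod, map_prod, ← Finset.prod_pow, ← Finset.prod_mul_distrib]
    refine Finset.prod_eq_one fun i _ => ?_
    rw [map_pow, map_pow, show T.red (Multiplicative.ofAdd (Pi.single i 1)) =
        Multiplicative.ofAdd (Pi.single i 1) from Multiplicative.toAdd.injective (funext fun j => by
          rw [red_apply, toAdd_ofAdd, toAdd_ofAdd, Pi.single_apply, Pi.single_apply]
          split_ifs <;> simp [ZMod.cast_one (pow_dvd_pow 2 (Nat.le_succ T.n))]),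
      ← pow_mul, mul_comm _ 2, pow_mul, hs, ← mul_pow, inv_mul_cancel, one_pow]
  · show ∏ j, s j ^ ((Multiplicative.ofAdd
      (Pi.single i 1 : Fin r → ZMod (2 ^ (T.n + 1)))).toAdd j).val = 1
    refine Finset.prod_eq_one fun j _ => ?_
    rw [toAdd_ofAdd]
    rcases eq_or_ne j i with rfl | hji
    · rw [hs1 j hi, one_pow]
    · rw [Pi.single_eq_of_ne hji, ZMod.val_zero, pow_zero]

/-- **Square roots of the nebentype characters.** -/
theorem exists_sqrt_char (θ : T.Delta →* ℂˣ) : ∃ η : DirichletCharacter ℂ T.level,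
    η ^ 2 * toDir (θ.comp T.psi) = 1 ∧ badPrimes η ⊆ badPrimes (toDir (θ.comp T.psi)) ∧
    ∀ v ∈ badPrimes η, etaComp η 1 v (-1) = 1 := by
  obtain ⟨Φ, hΦ, hΦ1⟩ := T.exists_root θ
  refine ⟨toDir (Φ.comp T.psiRoot), ?_, fun v hv => ?_, fun v hv => ?_⟩
  · ext u
    rw [MulChar.mul_apply, MulChar.pow_apply_coe, toDir_coe, toDir_coe, MulChar.one_apply_coe,
      ← Units.val_pow_eq_pow_val, ← Units.val_mul]
    exact congrArg Units.val (hΦ _) |>.trans Units.val_one
  · obtain ⟨hp, hvL, u, hu, hne⟩ := mem_badPrimes.1 hv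
    rw [toDir_coe] at hne
    by_cases hq : ∀ i, v ≠ T.q i
    · exact absurd (by rw [MonoidHom.comp_apply, T.psiRoot_eq_one hvL hp hq hu, map_one,
        Units.val_one]) hne
    push Not at hq
    obtain ⟨i, rfl⟩ := hq
    obtain ⟨w, hw, hwg⟩ := T.exists_unit_gen i
    refine mem_badPrimes.2 ⟨hp, hvL, w, hw, fun h => hne ?_⟩
    rw [toDir_coe] at h
    have h1 : θ (Multiplicative.ofAdd (Pi.single i 1)) = 1 := by
      rw [← Units.val_eq_one]
      refine Eq.trans (congrArg (fun z => ((θ z : ℂˣ) : ℂ)) ?_) h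
      refine Multiplicative.toAdd.injective (funext fun j => ?_)
      rw [psi_apply, hwg, toAdd_ofAdd, toAdd_ofAdd, Pi.single_apply, Pi.single_apply]
      split_ifs <;> simp [ZMod.cast_one (pow_dvd_pow 2 (Nat.le_succ T.n))]
    have hx : T.psiRoot u =
        Multiplicative.ofAdd (Pi.single i 1) ^ ((T.psiRoot u).toAdd i).val := by
      conv_lhs => rw [eq_prod_single (T.psiRoot u)]
      refine Finset.prod_eq_single i (fun j _ hji => ?_) (by simp)
      rw [psiRoot_apply, T.unitsMap_q_eq_one hvL hp j (fun h => hji (T.q_injective h).symm) hu,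
        map_one, toAdd_one, ZMod.val_zero, pow_zero]
    rw [MonoidHom.comp_apply, hx, map_pow, hΦ1 i h1, one_pow, Units.val_one]
  · obtain ⟨hp, hvL, -⟩ := mem_badPrimes.1 hv
    obtain ⟨u, hu, hu1⟩ := Assembly.exists_unit_crt hvL
      (hp.coprime_iff_not_dvd.2 (coprime_div_of_squarefree T.squarefree_level hp hvL)) (-1)
    have h := etaComp_spec (χ := toDir (Φ.comp T.psiRoot)) (e := 1) T.squarefree_level hp hvL u
      ((unitsMap_eq_one_iff _ u).2 hu)
    rw [pow_one, toDir_coe, MonoidHom.comp_apply, T.psiRoot_neg hvL hp hu hu1, map_one,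
      Units.val_one] at h
    rw [← h]
    congr 1
    have := congrArg Units.val hu1
    rw [ZMod.unitsMap_val, Units.val_neg, Units.val_one] at this
    exact this.symm

end TwoSetup

end Fermat.Agent.RT.Two

end
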