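import Fermat.Agent.RT.GammaH.Local
import Fermat.Agent.RT.Two.Hecke.Cores2

/-!
# Freeness over the diamond group when two is not invertible

With a prime `3 mod 4` in the level, the localised homomorphisms are free over the group ring.
-/

set_option autoImplicit false

noncomputable section

namespace Fermat.Agent.RT.Two.Hecke

open IsLocalRing MvPolynomial Fermat.Agent.RT.GammaH

variable {O : Type} [CommRing O] [IsDomain O] [IsDiscreteValuationRing O]
  [Finite (ResidueField O)] [IsAdicComplete (maximalIdeal O) O] [CharZero O] {p : ℕ} [Fact p.Prime]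
  [CharP (ResidueField O) p] {L : ℕ} [NeZero L] {Δ : Type} [CommGroup Δ] [Fintype Δ]
  {ψ : (ZMod L)ˣ →* Δ} (S : Finset ℕ) (abar : ℕ → ResidueField O) {K : Subgroup (ZMod L)ˣ}

/-- **Freeness.** With a prime `3 mod 4` in the level, the localised homomorphisms are free over
the group ring of the diamond group. -/
theorem exists_freeData_two (h3 : IsUnit (3 : O)) (hneg : -1 ∈ K) {v₀ : ℕ} [Fact v₀.Prime]
    (hv₀ : v₀ ∣ L) (h4 : v₀ % 4 = 3) (hΔ : IsPGroup p Δ) (hψ : Function.Surjective ψ)
    (hK : ∀ u, u ∈ K ↔ ψ u = 1)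
    (hS : ∀ v : ℕ, v.Prime → v ∣ L → v ∈ S)
    (hEis : ∃ ℓ : ℕ, ℓ.Prime ∧ ℓ ∉ S ∧ abar ℓ ≠ 1 + (ℓ : ResidueField O)) :
    ∃ e : OpRing O L S, IsLocalizer (resIdeal S abar L) (HomMod O S K O) e ∧
      IsLocalizer (resIdeal S abar L) (HomMod O S (⊤ : Subgroup (ZMod L)ˣ) O) e ∧
      ∃ b : Fin (Module.finrank O (localPart O e (HomMod O S (⊤ : Subgroup (ZMod L)ˣ) O))) →
          localPart O e (HomMod O S K O),
        Function.Bijective fun c :
            Fin (Module.finrank O (localPart O e (HomMod O S (⊤ : Subgroup (ZMod L)ˣ) O))) × Δ →₀ O =>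
          c.sum fun iq x =>
            x • localAct O e (HomMod O S K O) (X (Sum.inl (psiInv hψ iq.2))) (b iq.1) := by
  classical
  have := Fintype.ofFinite ((ZMod L)ˣ ⧸ K)
  have htf : ∀ a : O, a + a = 0 → a = 0 := fun a h => by
    rw [← two_mul] at h
    exact (mul_eq_zero.1 h).resolve_left two_ne_zero
  refine exists_freeData_of_cores S abar hΔ hψ hK hS hEis
    (coresTop_surjective_two O h3 htf hneg hv₀ h4)
    ⟨1, fun h => resIdeal_ne_top S abar ((Ideal.eq_top_iff_one _).2 h), fun x hx => ?_⟩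
  rw [one_smul]
  exact exists_eq_sum_diamond_two O h3 htf hneg hv₀ h4 hx

end Fermat.Agent.RT.Two.Hecke

end
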