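import Fermat.Agent.RT.GammaH.EigenForm

/-!
# Newforms for nebentype characters of even order

A character `et` with `et ^ 2 * χ = 1` and no ramification outside that of `χ` twists an eigenform
of nebentype `χ` and squarefree level to one of trivial character, hence to a newform.
-/

set_option autoImplicit false

noncomputable section

open CongruenceSubgroup UpperHalfPlane ModularFormClass
open ModularCurve.Period
open scoped MatrixGroups ModularForm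

namespace Fermat.Agent.RT.Two.Hecke

open Fermat.Agent.RT.GammaH

variable {L : ℕ} [NeZero L] {K : Subgroup (ZMod L)ˣ} {et : DirichletCharacter ℂ L}
  {χ : (ZMod L)ˣ →* ℂˣ}

theorem etaSeq_eq_two (hL : Squarefree L) {n : ℕ} (hn : n.Coprime L) :
    etaSeq et 1 n = et (n : ZMod L) := by
  rw [etaSeq_eq hL (u := ZMod.unitOfCoprime n hn) rfl, pow_one, ZMod.coe_unitOfCoprime]

/-- **The newform of an eigen homomorphism.** -/
theorem exists_newform_two (hL : Squarefree L) (hneg : -1 ∈ K) {S : Finset ℕ}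
    (hS : ∀ v : ℕ, v.Prime → v ∣ L → v ∈ S) (het : et ^ 2 * toDir χ = 1)
    (hbad : badPrimes et ⊆ badPrimes (toDir χ)) (a : ℕ → ℂ)
    {φ : Additive (gammaH L K) →+ ℂ} (hφ : φ ∈ parabolicHoms ℂ (gammaH L K) ℂ) (hne : φ ≠ 0)
    (hdia : ∀ u, diamond L K ℂ u φ = (χ u : ℂ) • φ)
    (hT : ∀ (ℓ : ℕ) [Fact ℓ.Prime], ℓ ∉ S → hecke L K ℓ ℂ φ = a ℓ • φ) :
    ∃ (f : FormH L K) (M : ℕ) (g : CuspForm (Gamma0 M) 2), g.IsNewform ∧ M ∣ twistLevel et ∧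
      IsChiForm χ f ∧ qCoeff f 1 = 1 ∧
      (∀ ℓ : ℕ, ℓ.Prime → ℓ ∉ S → qCoeff f ℓ = a ℓ ∧ qCoeff g ℓ = et (ℓ : ZMod L) * a ℓ) ∧
      ∀ ℓ : ℕ, ℓ.Prime → ℓ ∉ S → ∀ n,
        seqOp (nebWeight (toDir χ)) ℓ (qCoeff f) n = qCoeff f ℓ * qCoeff f n := by
  obtain ⟨f, lam, hf, hf1, hseq, -, hla⟩ := exists_eigenForm hneg hφ hne hdia hT
  obtain ⟨G, hG, hGf⟩ := exists_twist_eigenForm (e := 1) hL het hbad hf hf1 hseq
  have := neZero_twistLevel (χ := et)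
  obtain ⟨M, g, hMN, hg, heq⟩ := Newforms.exists_newform hG
  have hfp : ∀ p, p.Prime → p ∉ S → qCoeff f p = a p := fun p hp hpS => by
    have h := hseq p hp 1
    rw [if_neg hp.not_dvd_one, hf1, one_mul, add_zero, mul_one, hla p hp hpS] at h
    exact h
  refine ⟨f, M, g, hg, hMN, hf, hf1, fun ℓ hℓ hℓS => ?_, fun ℓ hℓ hℓS n => ?_⟩
  · have hℓL : ¬ ℓ ∣ L := fun h => hℓS (hS ℓ hℓ h)
    refine ⟨hfp ℓ hℓ hℓS, ?_⟩
    rw [heq ℓ hℓ (mt (prime_dvd_twistLevel_iff hℓ).1 hℓL), hGf, hfp ℓ hℓ hℓS,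
      etaSeq_eq_two hL (hℓ.coprime_iff_not_dvd.2 hℓL)]
  · rw [hfp ℓ hℓ hℓS, ← hla ℓ hℓ hℓS, ← hseq ℓ hℓ n]
    rfl

end Fermat.Agent.RT.Two.Hecke

end
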