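import Fermat.Agent.Arith.Chebotarev.Main
import Fermat.Agent.RT.Glue.Separate
import Fermat.Agent.RT.GammaH.Boundary
import Fermat.Agent.RT.GammaH.Complex
import Fermat.Agent.RT.GammaH.Embed
import Fermat.Agent.RT.Two.Hecke.Chars
import Fermat.Agent.RT.Two.Hecke.Twist2
import Fermat.Agent.RT.Two.Hecke.Freeness2

/-!
# The Hecke algebra of an auxiliary level with the elliptic point

`Loc.A` is the algebra generated by the good operators on the localised module of the level,
together with their values at the elliptic point. It is local, finite, free and reduced.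
-/

set_option autoImplicit false
set_option linter.unusedSectionVars false

noncomputable section

namespace Fermat.Agent.RT.Two

open IsLocalRing MvPolynomial Fermat.Agent.Arith
open Fermat.Agent.RT.GammaH

variable {O : Type} [CommRing O] [IsDomain O] [IsDiscreteValuationRing O]
  [IsAdicComplete (maximalIdeal O) O] [Finite (ResidueField O)] [CharZero O]
  [Algebra (ZMod 2) (ResidueField O)] {N r : ℕ}

theorem charP_residue : CharP (ResidueField O) 2 :=
  charP_of_injective_algebraMap (algebraMap (ZMod 2) (ResidueField O)).injective 2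

/-- An element which is `ϖ` times an integral element in a larger ring is nilpotent modulo `ϖ`. -/
theorem pow_natDegree_mem_map {A B : Type} [CommRing A] [Ring B] [Algebra O A] [Algebra O B]
    [Module.Finite O B] (f : A →ₐ[O] B) (hf : Function.Injective f) {ϖ : O} (hϖ : Irreducible ϖ)
    {x : A} {z : B} (h : f x = ϖ • z) :
    x ^ (minpoly O z).natDegree ∈ (maximalIdeal O).map (algebraMap O A) := by
  have hint : IsIntegral O z := IsIntegral.of_finite O z
  set q := minpoly O z with hqdef
  have hqq : Polynomial.aeval z q = 0 := minpoly.aeval O z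
  rw [Polynomial.aeval_eq_sum_range, Finset.sum_range_succ, (minpoly.monic hint).coeff_natDegree,
    one_smul, add_eq_zero_iff_eq_neg'] at hqq
  have key : x ^ q.natDegree =
      -∑ i ∈ Finset.range q.natDegree, (q.coeff i * ϖ ^ (q.natDegree - i)) • x ^ i := by
    refine hf ?_
    rw [map_pow, h, smul_pow, hqq, smul_neg, Finset.smul_sum, map_neg, map_sum]
    refine congrArg Neg.neg (Finset.sum_congr rfl fun i hi => ?_)
    rw [map_smul, map_pow, h, smul_pow, smul_smul, smul_smul]
    congr 1
    rw [mul_assoc, mul_comm (q.coeff i), ← pow_add, Nat.sub_add_cancel (Finset.mem_range.1 hi).le]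
  rw [key]
  exact neg_mem (sum_mem fun i hi => by
    rw [Algebra.smul_def]
    exact Ideal.mul_mem_right _ _ (Ideal.mem_map_of_mem _ (Ideal.mul_mem_left _ _
      (Ideal.pow_mem_of_mem _ hϖ.not_isUnit _ (Nat.sub_pos_of_lt (Finset.mem_range.1 hi))))))

namespace TwoSetup

variable (T : TwoSetup O N r)

/-- The residual system. -/
abbrev abar : ℕ → ResidueField O := fun ℓ => (T.aE ℓ : ResidueField O)

theorem two_mem_S : 2 ∈ T.S := T.mem_S 2 Nat.prime_two (dvd_mul_of_dvd_left (by norm_num) _)

theorem exists_trace_one : ∃ σ : GQ, (T.r₂ σ).trace = 1 := by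
  by_contra h
  push Not at h
  have h0 : ∀ X : Matrix (Fin 2) (Fin 2) (ZMod 2), X.trace = 0 := fun X => by
    have hX : X ∈ Submodule.span (ZMod 2) (Set.range T.r₂) := T.r₂_span ▸ Submodule.mem_top
    induction hX using Submodule.span_induction with
    | mem Y hY =>
      obtain ⟨σ, rfl⟩ := hY
      have h' := h σ
      revert h'
      generalize (T.r₂ σ).trace = z
      revert z
      decide
    | zero => exact Matrix.trace_zero _ _
    | add Y Z _ _ hY hZ => rw [Matrix.trace_add, hY, hZ, add_zero]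
    | smul a Y _ hY => rw [Matrix.trace_smul, hY, smul_zero]
  exact one_ne_zero (α := ZMod 2) (by simpa [Matrix.trace_fin_two] using h0 !![1, 0; 0, 0])

theorem exists_nonEisenstein :
    ∃ ℓ : ℕ, ℓ.Prime ∧ ℓ ∉ T.S ∧ T.abar ℓ ≠ 1 + (ℓ : ResidueField O) := by
  have := charP_residue (O := O)
  obtain ⟨σ, hσ⟩ := T.exists_trace_one
  obtain ⟨L, hL, hfix⟩ := T.r₂_finite
  obtain ⟨ℓ, hℓ, hℓS, A, hA, s, hs, he⟩ :=
    Arith.Chebotarev.exists_frobenius_eq T.r₂ L hfix σ T.S
  refine ⟨ℓ, hℓ, hℓS, ?_⟩
  have h1 : (T.aE ℓ : ZMod 2) = 1 := by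
    rw [← (T.r₂_frobenius ℓ hℓ hℓS A hA s hs).1, he, hσ]
  have h2 : T.abar ℓ = 1 := by
    rw [abar, ← map_intCast (algebraMap (ZMod 2) (ResidueField O)), h1, map_one]
  have h3 : (ℓ : ResidueField O) = 1 := by
    have hodd : ℓ % 2 = 1 := hℓ.eq_two_or_odd.resolve_left fun h => hℓS (h ▸ T.two_mem_S)
    rw [← Nat.mod_add_div ℓ 2, hodd, Nat.cast_add, Nat.cast_mul,
      CharP.cast_eq_zero (ResidueField O) 2, zero_mul,
      Nat.cast_one, add_zero]
  rw [h2, h3, ne_eq, left_eq_add]
  exact one_ne_zero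

theorem hasRoots : GammaH.HasRoots T.psi.ker := fun χ hχ => by
  have hle : T.psi.ker ≤ χ.ker := fun u hu => hχ u hu
  let θ : T.Delta →* ℂˣ := MonoidHom.liftOfSurjective T.psi T.psi_surjective ⟨χ, hle⟩
  obtain ⟨et, h1, h2, -⟩ := T.exists_sqrt_char θ
  have hθ : θ.comp T.psi = χ := MonoidHom.liftOfRightInverse_comp _ _ _ ⟨χ, hle⟩
  exact ⟨et, hθ ▸ h1, hθ ▸ h2⟩

theorem neg_one_mem_ker_psi : (-1 : (ZMod T.level)ˣ) ∈ T.psi.ker := T.psi_neg_one

/-- The polynomial operators of the level. -/
abbrev OpR : Type := OpRing O T.level T.S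

/-- The elliptic values of the operators. -/
def evE : T.OpR →ₐ[O] O := aeval (Sum.elim (fun _ => 1) fun ℓ => (T.aE ℓ.1 : O))

theorem evE_inl (u : (ZMod T.level)ˣ) : T.evE (X (Sum.inl u)) = 1 := by simp [evE]

theorem evE_inr (ℓ : {ℓ : ℕ // ℓ.Prime ∧ ℓ ∉ T.S}) :
    T.evE (X (Sum.inr ℓ)) = (T.aE ℓ.1 : O) := by simp [evE]

theorem residue_evE (a : T.OpR) : residue O (T.evE a) = opRes T.S T.abar T.level a := by
  refine AlgHom.congr_fun (φ₁ := (IsScalarTower.toAlgHom O O (ResidueField O)).comp T.evE) ?_ a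
  refine MvPolynomial.algHom_ext fun i => ?_
  rcases i with u | ℓ
  · show residue O (T.evE _) = _
    rw [opRes_inl, evE_inl, map_one]
  · show residue O (T.evE _) = _
    rw [opRes_inr, evE_inr, map_intCast]

/-- The localised module of the level, free over the diamond group. -/
structure Loc where
  e : T.OpR
  heH : IsLocalizer (resIdeal T.S T.abar T.level) (HomMod O T.S T.psi.ker O) e
  heH₀ : IsLocalizer (resIdeal T.S T.abar T.level)
    (HomMod O T.S (⊤ : Subgroup (ZMod T.level)ˣ) O) e
  b : Fin (Module.finrank O (localPart O e (HomMod O T.S (⊤ : Subgroup (ZMod T.level)ˣ) O))) →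
    localPart O e (HomMod O T.S T.psi.ker O)
  hb : Function.Bijective fun c : Fin (Module.finrank O
      (localPart O e (HomMod O T.S (⊤ : Subgroup (ZMod T.level)ˣ) O))) × T.Delta →₀ O =>
    c.sum fun iq x => x • localAct O e (HomMod O T.S T.psi.ker O)
      (X (Sum.inl (psiInv T.psi_surjective iq.2))) (b iq.1)

theorem nonempty_loc : Nonempty T.Loc := by
  have := charP_residue (O := O)
  obtain ⟨v, hv, hvN, h4⟩ := T.exists_three_mod_four
  have : Fact v.Prime := ⟨hv⟩
  have h3 : IsUnit (3 : O) := by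
    exact_mod_cast isUnit_natCast (O := O) (p := 2) (n := 3) (by norm_num)
  obtain ⟨e, heH, heH₀, b, hb⟩ := Hecke.exists_freeData_two (ψ := T.psi) T.S T.abar (p := 2) h3
    T.neg_one_mem_ker_psi (v₀ := v) (hvN.mul_right _) h4 T.isPGroup_delta T.psi_surjective
    (fun u => MonoidHom.mem_ker) (fun w hw hwL => T.mem_S_of_dvd_level hw hwL) T.exists_nonEisenstein
  exact ⟨⟨e, heH, heH₀, b, hb⟩⟩

namespace Loc

variable {T} (l : T.Loc)

/-- The localised module. -/
abbrev P : Submodule O (HomMod O T.S T.psi.ker O) := localPart O l.e (HomMod O T.S T.psi.ker O)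

/-- The action on the localised module. -/
def act : T.OpR →ₐ[O] Module.End O l.P := localAct O l.e (HomMod O T.S T.psi.ker O)

theorem coe_act (a : T.OpR) (x : l.P) :
    ((l.act a x : l.P) : HomMod O T.S T.psi.ker O) = a • (x : HomMod O T.S T.psi.ker O) := rfl

/-- The action together with the elliptic value. -/
def pair : T.OpR →ₐ[O] Module.End O l.P × O := l.act.prod T.evE

theorem pair_eq_zero {a : T.OpR} : l.pair a = 0 ↔ l.act a = 0 ∧ T.evE a = 0 := Prod.ext_iff

/-- The algebra of the level. -/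
abbrev A : Type := T.OpR ⧸ RingHom.ker l.pair

/-! Shortcut instances: searching them through the quotient of a polynomial ring is slow. -/

instance : CommRing l.A := inferInstance
instance : Semiring l.A := inferInstance
instance : Algebra O l.A := inferInstance
instance : SMul l.A l.A := inferInstance
instance : Module l.A l.A := inferInstance
instance : Algebra l.A l.A := inferInstance
instance : AddCommGroup l.P := inferInstance
instance : Module O l.P := inferInstance
instance : Semiring (Module.End O l.P) := inferInstance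
instance : Algebra O (Module.End O l.P) := inferInstance

/-- The quotient map. -/
def toA : T.OpR →ₐ[O] l.A := Ideal.Quotient.mkₐ O _

theorem toA_surjective : Function.Surjective l.toA := Ideal.Quotient.mkₐ_surjective O _

theorem toA_eq_zero {a : T.OpR} : l.toA a = 0 ↔ l.act a = 0 ∧ T.evE a = 0 := by
  rw [← l.pair_eq_zero, ← RingHom.mem_ker]
  exact Ideal.Quotient.eq_zero_iff_mem

/-- The embedding into the operators and values. -/
def toPair : l.A →ₐ[O] Module.End O l.P × O := Ideal.kerLiftAlg l.pair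

theorem toPair_injective : Function.Injective l.toPair := Ideal.kerLiftAlg_injective _

theorem toPair_toA (a : T.OpR) : l.toPair (l.toA a) = l.pair a := rfl

instance : Module.Free O l.P := Module.free_of_finite_type_torsion_free'

instance : Module.Finite O l.A :=
  Module.Finite.of_injective l.toPair.toLinearMap l.toPair_injective

instance : Module.IsTorsionFree O l.A :=
  Function.Injective.moduleIsTorsionFree (fun x => l.toPair x) l.toPair_injective
    fun c x => map_smul l.toPair c x

instance : Module.Free O l.A := Module.free_of_finite_type_torsion_free'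

theorem ker_pair_le : RingHom.ker l.pair ≤ resIdeal T.S T.abar T.level := fun a ha => by
  rw [mem_resIdeal, ← T.residue_evE, (l.pair_eq_zero.1 (RingHom.mem_ker.1 ha)).2, map_zero]

set_option maxHeartbeats 1600000 in
/-- A power of an element of the residual ideal is divisible by the uniformiser. -/
theorem exists_pow_mem {a : T.OpR} (ha : a ∈ resIdeal T.S T.abar T.level) :
    ∃ k : ℕ, l.toA a ^ k ∈ (maximalIdeal O).map (algebraMap O l.A) := by
  classical
  obtain ⟨ϖ, hϖ⟩ := IsDiscreteValuationRing.exists_irreducible O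
  obtain ⟨n, hn⟩ := l.heH.exists_pow_smul_mem (O := O) ha (resIdeal_ne_top T.S T.abar)
  have hn' : ∀ x ∈ l.P, a ^ (n + 1) • x ∈ maximalIdeal O • l.P := fun x hx => by
    rw [pow_succ, mul_smul]
    exact hn _ (smul_mem_localPart a hx)
  obtain ⟨c, hc⟩ : ϖ ∣ T.evE a := by
    rw [← Ideal.mem_span_singleton, ← hϖ.maximalIdeal_eq, ← residue_eq_zero_iff, T.residue_evE]
    exact ha
  choose! y hy hxy using fun x (hx : x ∈ l.P) => exists_uniformizer_smul hϖ (hn' x hx)
  have hinj : ∀ {z z' : HomMod O T.S T.psi.ker O}, ϖ • z = ϖ • z' → z = z' := fun h =>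
    smul_right_injective _ hϖ.ne_zero h
  let Y : Module.End O l.P :=
    { toFun := fun x => ⟨y x.1, hy _ x.2⟩
      map_add' := fun x x' => Subtype.ext (hinj (by
        show ϖ • y _ = ϖ • (y _ + y _)
        rw [smul_add, hxy _ (x + x').2, hxy _ x.2, hxy _ x'.2, ← smul_add]
        rfl))
      map_smul' := fun c x => Subtype.ext (hinj (by
        show ϖ • y _ = ϖ • (c • y _)
        rw [smul_comm ϖ c, hxy _ (c • x).2, hxy _ x.2]
        exact smul_comm _ _ _)) }
  refine ⟨(n + 1) * ((minpoly O ((Y, c * T.evE a ^ n) : Module.End O l.P × O)).natDegree), ?_⟩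
  rw [pow_mul]
  refine pow_natDegree_mem_map l.toPair l.toPair_injective hϖ ?_
  rw [← map_pow, toPair_toA]
  refine Prod.ext (LinearMap.ext fun x => Subtype.ext (hxy _ x.2).symm) ?_
  show T.evE (a ^ (n + 1)) = ϖ * (c * T.evE a ^ n)
  rw [map_pow, ← mul_assoc, ← hc, pow_succ']

theorem algebraMap_comap {Q : Ideal l.A} [Q.IsMaximal] :
    Q.comap (algebraMap O l.A) = maximalIdeal O :=
  eq_maximalIdeal (Ideal.isMaximal_comap_of_isIntegral_of_isMaximal Q)

theorem maximal_eq {Q : Ideal l.A} [hQ : Q.IsMaximal] :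
    Q.comap l.toA = resIdeal T.S T.abar T.level := by
  refine ((inferInstance : (resIdeal T.S T.abar T.level).IsMaximal).eq_of_le
    (Ideal.IsPrime.comap (hK := hQ.isPrime) _).ne_top fun a ha => ?_).symm
  obtain ⟨k, hk⟩ := l.exists_pow_mem ha
  rw [Ideal.mem_comap]
  exact hQ.isPrime.mem_of_pow_mem k (Ideal.map_le_iff_le_comap.2 l.algebraMap_comap.ge hk)

instance : IsLocalRing l.A := by
  have : Nontrivial l.A := Ideal.Quotient.nontrivial_iff.2 fun h =>
    resIdeal_ne_top T.S T.abar (eq_top_iff.2 (h ▸ l.ker_pair_le))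
  obtain ⟨Q, hQ⟩ := Ideal.exists_maximal l.A
  refine IsLocalRing.of_unique_max_ideal ⟨Q, hQ, fun Q' hQ' => ?_⟩
  refine Ideal.comap_injective_of_surjective _ l.toA_surjective ?_
  rw [l.maximal_eq, l.maximal_eq]

theorem toA_mem_maximalIdeal {a : T.OpR} :
    l.toA a ∈ maximalIdeal l.A ↔ a ∈ resIdeal T.S T.abar T.level := by
  rw [← Ideal.mem_comap, l.maximal_eq]

instance : IsLocalHom (algebraMap O l.A) :=
  ⟨fun a ha => by_contra fun h => by
    have h1 : a ∈ (maximalIdeal l.A).comap (algebraMap O l.A) := l.algebraMap_comap.ge h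
    exact h1 ha⟩

instance : IsAdicComplete (maximalIdeal l.A) l.A :=
  IsLocalRing.isAdicComplete_of_module_finite (𝒪 := O)

/-- The residual map. -/
def aug : l.A →ₐ[O] ResidueField O :=
  Ideal.Quotient.liftₐ _ (opRes T.S T.abar T.level) fun _ ha => l.ker_pair_le ha

theorem aug_toA (a : T.OpR) : l.aug (l.toA a) = opRes T.S T.abar T.level a := rfl

/-- The elliptic point. -/
def thetaE : l.A →ₐ[O] O :=
  Ideal.Quotient.liftₐ _ T.evE fun _ ha => (l.pair_eq_zero.1 (RingHom.mem_ker.1 ha)).2

theorem thetaE_toA (a : T.OpR) : l.thetaE (l.toA a) = T.evE a := rfl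

theorem residue_thetaE (x : l.A) : residue O (l.thetaE x) = l.aug x := by
  obtain ⟨a, rfl⟩ := l.toA_surjective x
  rw [thetaE_toA, aug_toA, T.residue_evE]

instance : IsReduced l.A := by
  refine ⟨fun x ⟨k, hk⟩ => ?_⟩
  obtain ⟨a, rfl⟩ := l.toA_surjective x
  rw [← map_pow, toA_eq_zero] at hk
  rw [toA_eq_zero]
  refine ⟨LinearMap.ext fun y => Subtype.ext ?_, eq_zero_of_pow_eq_zero (n := k)
    (by rw [← map_pow]; exact hk.2)⟩
  obtain ⟨σ, hσ⟩ := RT.GammaH.exists_injective_complex O
  let : Algebra O ℂ := σ.toAlgebra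
  obtain ⟨ℓ, hℓ, hℓS, hEis⟩ := T.exists_nonEisenstein
  obtain ⟨P, hP, hpar⟩ := exists_parabolicOp (K := T.psi.ker) T.S T.abar T.squarefree_level
    T.neg_one_mem_ker_psi hℓ hℓS (fun h => hℓS (T.mem_S_of_dvd_level hℓ h)) hEis
  exact GammaH.smul_eq_zero_of_pow_smul T.neg_one_mem_ker_psi T.squarefree_level T.hasRoots
    (fun v hv h => T.mem_S_of_dvd_level hv h) hσ l.heH hP (fun z => hpar ℂ z) y.2 (n := k)
    (congrArg Subtype.val (LinearMap.congr_fun hk.1 y))

/-- The points separate. -/
theorem eq_zero_of_forall {x : l.A}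
    (h : ∀ θ : l.A →ₐ[O] AlgebraicClosure (FractionRing O), θ x = 0) : x = 0 :=
  by_contra fun hx => (Glue.exists_algHom_apply_ne_zero (O := O) hx).elim fun θ hθ => hθ (h θ)

/-- A point comes from the module or is the elliptic point. -/
theorem point_cases (θ : l.A →ₐ[O] AlgebraicClosure (FractionRing O)) :
    (∀ a, l.act a = 0 → θ (l.toA a) = 0) ∨
      ∀ x, θ x = algebraMap O _ (l.thetaE x) := by
  by_cases h : ∀ a, l.act a = 0 → θ (l.toA a) = 0
  · exact Or.inl h
  push Not at h
  obtain ⟨a, ha, hne⟩ := h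
  refine Or.inr fun x => ?_
  obtain ⟨b, rfl⟩ := l.toA_surjective x
  have h0 : l.toA (a * (b - algebraMap O T.OpR (T.evE b))) = 0 := by
    rw [toA_eq_zero]
    exact ⟨by rw [map_mul, ha, zero_mul], by simp⟩
  have h1 := congrArg θ h0
  rw [map_mul, map_mul, map_zero, map_sub, AlgHom.commutes, map_sub, AlgHom.commutes] at h1
  exact sub_eq_zero.1 ((mul_eq_zero.1 h1).resolve_left hne)

end Loc

end TwoSetup

end Fermat.Agent.RT.Two

end
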