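import Fermat.Agent.RT.Two.Hecke.RepFacts

/-!
# The dual of the localised module and its coinvariants

The dual of the localised module is free over the group ring of the diamonds; its coinvariants
are the dual of the invariants. An eigenfunctional on the invariants has coefficient functionals
given by binomial moments.
-/

set_option autoImplicit false
set_option linter.unusedSectionVars false

noncomputable section

namespace Fermat.Agent.RT.Two

open IsLocalRing Fermat.Agent.Arith
open Fermat.Agent.RT.GammaH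

variable {O : Type} [CommRing O] [IsDomain O] [IsDiscreteValuationRing O]
  [IsAdicComplete (maximalIdeal O) O] [Finite (ResidueField O)] [CharZero O]
  [Algebra (ZMod 2) (ResidueField O)] {N r : ℕ}

namespace TwoSetup

variable {T : TwoSetup O N r} (l : T.Loc)

/-- The index of the basis of the invariants. -/
abbrev Loc.Idx : Type :=
  Fin (Module.finrank O (localPart O l.e (HomMod O T.S (⊤ : Subgroup (ZMod T.level)ˣ) O)))

/-- The diamond translates of the basis as a basis. -/
def Loc.basisP : Module.Basis (l.Idx × T.Delta) O l.P :=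
  Module.Basis.ofRepr (LinearEquiv.ofBijective
    (Finsupp.linearCombination O fun iq : l.Idx × T.Delta => l.actA (l.dia iq.2) (l.b iq.1))
    (by
      convert l.hb using 2 with c
      rw [Finsupp.linearCombination_apply]
      rfl)).symm

theorem Loc.basisP_apply (iq : l.Idx × T.Delta) :
    l.basisP iq = l.actA (l.dia iq.2) (l.b iq.1) := by
  simp [Loc.basisP]

theorem Loc.dia_basisP (h : T.Delta) (iq : l.Idx × T.Delta) :
    l.actA (l.dia h) (l.basisP iq) = l.basisP (iq.1, h * iq.2) := by
  rw [l.basisP_apply, l.basisP_apply, ← Module.End.mul_apply, ← map_mul, ← map_mul]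

/-- The norm of a basis vector. -/
def Loc.normB (i : l.Idx) : l.P := ∑ q : T.Delta, l.basisP (i, q)

theorem Loc.normB_mem (i : l.Idx) : l.normB i ∈ l.invariants := l.mem_invariants.2 fun h => by
  rw [Loc.normB, map_sum]
  exact Fintype.sum_equiv (Equiv.mulLeft h) _ _ fun q => l.dia_basisP h (i, q)

theorem Loc.eq_sum_normB {x : l.P} (hx : x ∈ l.invariants) :
    x = ∑ i, l.basisP.repr x (i, 1) • l.normB i := by
  have key : ∀ (h : T.Delta) (y : l.P) (iq : l.Idx × T.Delta),
      l.basisP.repr (l.actA (l.dia h) y) (iq.1, h * iq.2) = l.basisP.repr y iq := fun h y iq => by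
    conv_lhs => rw [← l.basisP.sum_repr y, map_sum, map_sum, Finsupp.finsetSum_apply]
    rw [Finset.sum_eq_single iq]
    · rw [map_smul, l.dia_basisP, map_smul, Finsupp.smul_apply, Module.Basis.repr_self,
        Finsupp.single_eq_same, smul_eq_mul, mul_one]
    · intro jq _ hne
      rw [map_smul, l.dia_basisP, map_smul, Finsupp.smul_apply, Module.Basis.repr_self,
        Finsupp.single_eq_of_ne, smul_zero]
      intro he
      rw [Prod.mk.injEq, mul_right_inj] at he
      exact hne (Prod.ext he.1.symm he.2.symm)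
    · exact fun h => absurd (Finset.mem_univ _) h
  have hconst : ∀ i q, l.basisP.repr x (i, q) = l.basisP.repr x (i, 1) := fun i q => by
    have h := key q x (i, 1)
    rwa [l.mem_invariants.1 hx q, mul_one] at h
  conv_lhs => rw [← l.basisP.sum_repr x, Fintype.sum_prod_type]
  refine Finset.sum_congr rfl fun i _ => ?_
  rw [Loc.normB, Finset.smul_sum]
  exact Finset.sum_congr rfl fun q _ => by rw [hconst]

/-- The dual of the localised module. -/
def Loc.DualP : Type := Module.Dual O l.P

instance : AddCommGroup l.DualP := inferInstanceAs (AddCommGroup (Module.Dual O l.P))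

instance : Module O l.DualP := inferInstanceAs (Module O (Module.Dual O l.P))

instance : Module.Finite O l.DualP := inferInstanceAs (Module.Finite O (Module.Dual O l.P))

/-- A functional as a linear map. -/
def Loc.ev : l.DualP ≃ₗ[O] Module.Dual O l.P := LinearEquiv.refl O (Module.Dual O l.P)

theorem Loc.dual_ext {φ ψ : l.DualP} (h : ∀ x, l.ev φ x = l.ev ψ x) : φ = ψ :=
  l.ev.injective (LinearMap.ext h)

/-- The transposed action. -/
def Loc.actDual : l.A →+* Module.End O l.DualP where
  toFun a := (l.actA a).dualMap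
  map_one' := by rw [map_one]; rfl
  map_mul' a b := by rw [mul_comm a b, map_mul]; rfl
  map_zero' := by
    rw [map_zero]
    exact LinearMap.ext fun φ => LinearMap.ext fun x => map_zero φ
  map_add' a b := by
    rw [map_add]
    exact LinearMap.ext fun φ => LinearMap.ext fun x => map_add φ _ _

instance : Module l.A l.DualP := Module.compHom _ l.actDual

theorem Loc.smul_dual_apply (a : l.A) (φ : l.DualP) (x : l.P) :
    (l.ev (a • φ)) x = (l.ev φ) (l.actA a x) := rfl

instance : IsScalarTower O l.A l.DualP := ⟨fun c a φ => l.dual_ext fun x => by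
  rw [map_smul l.ev, LinearMap.smul_apply, l.smul_dual_apply, l.smul_dual_apply, map_smul,
    LinearMap.smul_apply, map_smul]⟩

instance : Module.Finite l.A l.DualP := Module.Finite.of_restrictScalars_finite O l.A l.DualP

/-- The augmentation ideal. -/
def Loc.augI : Ideal l.A := Ideal.span (Set.range l.xA)

theorem Loc.dia_sub_one_augI (q : T.Delta) : l.dia q - 1 ∈ l.augI := by
  rw [← Ideal.Quotient.eq_zero_iff_mem, map_sub, map_one, sub_eq_zero, eq_prod_single q, map_prod,
    map_prod]
  refine Finset.prod_eq_one fun i _ => ?_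
  rw [map_pow, map_pow, show (Ideal.Quotient.mk l.augI) (l.dia (Multiplicative.ofAdd
      (Pi.single i (1 : ZMod (2 ^ T.n)) : Fin r → ZMod (2 ^ T.n)))) = 1 from by
    rw [← sub_eq_zero, ← map_one (Ideal.Quotient.mk l.augI), ← map_sub,
      Ideal.Quotient.eq_zero_iff_mem]
    exact Ideal.subset_span ⟨i, rfl⟩]
  exact one_pow (M := l.A ⧸ l.augI) _

/-- **A functional vanishing on the invariants lies in the augmentation.** -/
theorem Loc.mem_of_apply_eq_zero {φ : l.DualP}
    (h : ∀ x ∈ l.invariants, (l.ev φ) x = 0) :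
    φ ∈ l.augI • (⊤ : Submodule l.A l.DualP) := by
  classical
  let e : l.Idx → l.DualP := fun i => l.ev.symm (l.basisP.coord (i, 1))
  have key : φ = ∑ i, ∑ q : T.Delta,
      algebraMap O l.A ((l.ev φ) (l.basisP (i, q))) • (l.dia q⁻¹ - 1) • e i := by
    refine l.ev.injective (l.basisP.ext fun jh => ?_)
    simp only [map_sum l.ev, LinearMap.sum_apply]
    simp only [l.smul_dual_apply, AlgHom.commutes, Module.algebraMap_end_apply, map_sub, map_one,
      LinearMap.sub_apply, Module.End.one_apply, map_smul, l.dia_basisP]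
    rw [Finset.sum_eq_single jh.1]
    · simp only [e, LinearEquiv.apply_symm_apply, Module.Basis.coord_apply, Module.Basis.repr_self, smul_eq_mul,
        Finsupp.single_apply, Prod.mk.injEq, true_and, inv_mul_eq_one]
      rw [show jh = (jh.1, jh.2) from rfl]
      simp only [Prod.mk.injEq, true_and, mul_sub, Finset.sum_sub_distrib, mul_ite, mul_one,
        mul_zero, Finset.sum_ite_eq', Finset.mem_univ, if_true]
      have h0 : ∑ q, (l.ev φ) (l.basisP (jh.1, q)) = 0 := by
        rw [← map_sum]; exact h _ (l.normB_mem _)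
      split_ifs with h1
      · rw [h0, sub_zero]
      · rw [Finset.sum_const_zero, sub_zero]
    · intro i _ hne
      refine Finset.sum_eq_zero fun q _ => ?_
      simp only [e, LinearEquiv.apply_symm_apply, Module.Basis.coord_apply, Module.Basis.repr_self, smul_eq_mul]
      rw [Finsupp.single_eq_of_ne, Finsupp.single_eq_of_ne, sub_zero, mul_zero]
      · exact fun he => hne (congrArg Prod.fst he)
      · exact fun he => hne (congrArg Prod.fst he)
    · exact fun h => absurd (Finset.mem_univ _) h
  rw [key]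
  refine Submodule.sum_mem _ fun i _ => Submodule.sum_mem _ fun q _ => Submodule.smul_mem _ _ ?_
  exact Submodule.smul_mem_smul (l.dia_sub_one_augI _) Submodule.mem_top

theorem Loc.annInv_smul {a : l.A} (ha : a ∈ l.annInv) (φ : l.DualP) :
    a • φ ∈ l.augI • (⊤ : Submodule l.A l.DualP) :=
  l.mem_of_apply_eq_zero fun x hx => by rw [l.smul_dual_apply, ha x hx, map_zero]

theorem Loc.annAll_smul {a : l.A} (ha : a ∈ l.annAll) (φ : l.DualP) : a • φ = 0 :=
  l.dual_ext fun x => by
    rw [l.smul_dual_apply, l.mem_annAll.1 ha x, map_zero, map_zero l.ev, LinearMap.zero_apply]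

/-- An element supported at a point of the coinvariants. -/
theorem Loc.exists_supported (θ₀ : l.A →ₐ[O] O) :
    ∃ c : l.A, θ₀ c ≠ 0 ∧ ∀ a, θ₀ a = 0 → c * a ∈ l.annInv := by
  classical
  have := Fintype.ofFinite (l.A →ₐ[O] CBar O)
  have hinj : Function.Injective (algebraMap O (CBar O)) := by
    rw [IsScalarTower.algebraMap_eq O (FractionRing O)]
    exact (algebraMap (FractionRing O) _).injective.comp (IsFractionRing.injective O _)
  set θc : l.A →ₐ[O] CBar O := (Algebra.ofId O (CBar O)).comp θ₀
  have hsep : ∀ θ : l.A →ₐ[O] CBar O, θ ≠ θc → ∃ a, θ a = 0 ∧ θ₀ a ≠ 0 := fun θ hθ => by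
    obtain ⟨x, hx⟩ : ∃ x, θ x ≠ θc x := by
      by_contra hall
      push Not at hall
      exact hθ (AlgHom.ext hall)
    set a := x - algebraMap O l.A (θ₀ x) with ha
    have ha0 : θ₀ a = 0 := by
      rw [ha, map_sub, AlgHom.commutes, Algebra.algebraMap_self, RingHom.id_apply, sub_self]
    have hθa : θ a ≠ 0 := by
      rw [ha, map_sub, AlgHom.commutes, sub_ne_zero]
      exact hx
    have hint : IsIntegral O (θ a) := Loc.isIntegral_point θ a
    obtain ⟨q, hq0, hq⟩ := hint.isAlgebraic.exists_nonzero_coeff_and_aeval_eq_zero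
      (mem_nonZeroDivisors_of_ne_zero hθa)
    refine ⟨Polynomial.aeval a q, ?_, ?_⟩
    · rw [← Polynomial.aeval_algHom_apply, hq]
    · rw [← Polynomial.aeval_algHom_apply, ha0, ← Polynomial.coeff_zero_eq_aeval_zero]
      exact hq0
  choose a ha1 ha2 using hsep
  refine ⟨∏ θ ∈ (Finset.univ.erase θc).attach, a θ.1 (Finset.ne_of_mem_erase θ.2), ?_,
    fun b hb => ?_⟩
  · rw [map_prod]
    exact Finset.prod_ne_zero_iff.2 fun θ _ => ha2 _ _
  refine Hecke.mem_of_forall_points l.annInv l.annInv_radical l.annInv_saturated fun θ _ => ?_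
  rw [map_mul, map_prod]
  by_cases hθ : θ = θc
  · refine mul_eq_zero_of_right _ ?_
    rw [hθ]
    show algebraMap O (CBar O) (θ₀ b) = 0
    rw [hb, map_zero]
  · exact mul_eq_zero_of_left (Finset.prod_eq_zero (Finset.mem_attach _
      ⟨θ, Finset.mem_erase.2 ⟨hθ, Finset.mem_univ _⟩⟩) (ha1 θ hθ)) _

/-- The system of the point is carried by the coinvariants: an eigenfunctional. -/
theorem Loc.exists_eigFun (θ₀ : l.A →ₐ[O] O) (hθ₀ : ∀ a ∈ l.annInv, θ₀ a = 0) :
    ∃ (w : l.DualP) (ψ : l.P), (l.ev w) (∑ q, l.actA (l.dia q) ψ) = 1 ∧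
      ∀ a, (a - algebraMap O l.A (θ₀ a)) • w ∈ l.augI • (⊤ : Submodule l.A l.DualP) := by
  classical
  obtain ⟨c, hc0, hc⟩ := l.exists_supported θ₀
  obtain ⟨x, hx, hne⟩ : ∃ x ∈ l.invariants, l.actA c x ≠ 0 := by
    by_contra hall
    push Not at hall
    exact hc0 (hθ₀ c hall)
  obtain ⟨jq, hj⟩ : ∃ jq, l.basisP.repr (l.actA c x) jq ≠ 0 := by
    by_contra hall
    push Not at hall
    exact hne (l.basisP.repr.injective (Finsupp.ext fun jq => by rw [hall jq, map_zero]; rfl))
  set w₁ : l.DualP := c • l.ev.symm (l.basisP.coord jq) with hw₁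
  have hw₁eig : ∀ a, ∀ y ∈ l.invariants,
      l.ev ((a - algebraMap O l.A (θ₀ a)) • w₁) y = 0 := fun a y hy => by
    rw [l.smul_dual_apply, hw₁, l.smul_dual_apply, ← Module.End.mul_apply, ← map_mul,
      hc _ (by rw [map_sub, AlgHom.commutes, Algebra.algebraMap_self, RingHom.id_apply, sub_self])
        y hy, map_zero]
  obtain ⟨ϖ, hϖ⟩ := IsDiscreteValuationRing.exists_irreducible O
  set v : l.Idx → O := fun i => (l.ev w₁) (l.normB i)
  have hval : ∀ (φ : l.DualP) (y : l.P), y ∈ l.invariants → (l.ev φ) y =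
      ∑ i, l.basisP.repr y (i, 1) * (l.ev φ) (l.normB i) := fun φ y hy => by
    conv_lhs => rw [l.eq_sum_normB hy]
    rw [map_sum]
    exact Finset.sum_congr rfl fun i _ => by rw [map_smul, smul_eq_mul]
  have hv : ∃ i, v i ≠ 0 := by
    by_contra hall
    push Not at hall
    refine hj ?_
    have h := hval w₁ x hx
    rw [hw₁, l.smul_dual_apply] at h
    exact h.trans (Finset.sum_eq_zero fun i _ => mul_eq_zero_of_right _ (hall i))
  choose! m u hu using fun i (hi : v i ≠ 0) =>
    IsDiscreteValuationRing.eq_unit_mul_pow_irreducible hi hϖ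
  obtain ⟨i₀, hi₀, hmin⟩ := Finset.exists_min_image (Finset.univ.filter fun i => v i ≠ 0) m
    (hv.imp fun i hi => Finset.mem_filter.2 ⟨Finset.mem_univ _, hi⟩)
  rw [Finset.mem_filter] at hi₀
  set z : l.Idx → O := fun i => if v i = 0 then 0 else (u i : O) * ϖ ^ (m i - m i₀)
  have hz : ∀ i, ϖ ^ m i₀ * z i = v i := fun i => by
    simp only [z]
    split_ifs with h
    · rw [mul_zero, h]
    · rw [← mul_assoc, mul_comm _ (u i : O), mul_assoc, ← pow_add,
        Nat.add_sub_cancel' (hmin i (Finset.mem_filter.2 ⟨Finset.mem_univ _, h⟩))]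
      exact (hu i h).symm
  let w : l.DualP := ∑ i, z i • l.ev.symm (l.basisP.coord (i, 1))
  have hwn : ∀ i, (l.ev w) (l.normB i) = z i := fun i => by
    simp only [w, map_sum l.ev, map_smul l.ev, LinearEquiv.apply_symm_apply]
    simp [LinearMap.sum_apply, Loc.normB, map_sum, Finsupp.single_apply, Finset.sum_ite_eq',
      Prod.mk.injEq, ite_and]
  refine ⟨w, ((u i₀)⁻¹ : Oˣ).1 • l.b i₀, ?_, fun a => l.mem_of_apply_eq_zero fun y hy => ?_⟩
  · have : ∑ q, l.actA (l.dia q) (((u i₀)⁻¹ : Oˣ).1 • l.b i₀) = ((u i₀)⁻¹ : Oˣ).1 • l.normB i₀ := by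
      rw [Loc.normB, Finset.smul_sum]
      exact Finset.sum_congr rfl fun q _ => by rw [map_smul, l.basisP_apply]
    rw [this, map_smul, hwn, smul_eq_mul]
    simp only [z, if_neg hi₀.2, Nat.sub_self, pow_zero, mul_one, Units.inv_mul]
  · have hagree : ∀ y ∈ l.invariants,
        ϖ ^ m i₀ * (l.ev w) y = (l.ev w₁) y := fun y hy => by
      rw [hval w y hy, hval w₁ y hy, Finset.mul_sum]
      exact Finset.sum_congr rfl fun i _ => by
        rw [hwn, mul_left_comm, hz]
    have hmem : l.actA (a - algebraMap O l.A (θ₀ a)) y ∈ l.invariants :=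
      l.mem_invariants.2 fun q => by
        rw [← Module.End.mul_apply, ← map_mul, mul_comm, map_mul, Module.End.mul_apply,
          l.mem_invariants.1 hy q]
    have h := hw₁eig a y hy
    rw [l.smul_dual_apply] at h
    rw [← hagree _ hmem] at h
    rw [l.smul_dual_apply]
    exact (mul_eq_zero.1 h).resolve_left (pow_ne_zero _ hϖ.ne_zero)

/-- The binomial moment attached to an exponent. -/
def Loc.moment (ψ : l.P) (a : Fin r → ℕ) : l.P :=
  ∑ q : T.Delta, ((∏ j, ((q.toAdd j).val.choose (a j)) : ℕ) : O) • l.actA (l.dia q⁻¹) ψ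

theorem Loc.moment_zero (ψ : l.P) : l.moment ψ 0 = ∑ q, l.actA (l.dia q) ψ := by
  rw [Loc.moment]
  refine (Finset.sum_congr rfl fun q _ => ?_).trans
    (Equiv.sum_comp (Equiv.inv T.Delta) fun q => l.actA (l.dia q) ψ)
  simp

/-- The difference of consecutive binomial coefficients, cyclically. -/
theorem exists_choose_succ {m : ℕ} [NeZero m] (k : ZMod m) (a : ℕ) :
    ∃ e : ℤ, (((k + 1).val.choose (a + 1) : ℕ) : ℤ) - ((k.val.choose (a + 1) : ℕ) : ℤ) =
      ((k.val.choose a : ℕ) : ℤ) + e * ((m.choose (a + 1) : ℕ) : ℤ) := by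
  by_cases h : k.val + 1 < m
  · refine ⟨0, ?_⟩
    have h1 : (k + 1).val = k.val + 1 := by
      rw [ZMod.val_add, ZMod.val_one_eq_one_mod, Nat.add_mod_mod, Nat.mod_eq_of_lt h]
    rw [h1, Nat.choose_succ_succ]
    push_cast
    ring
  · refine ⟨-1, ?_⟩
    have h2 := k.val_lt
    have hk : k.val + 1 = m := by omega
    have h1 : (k + 1).val = 0 := by
      rw [ZMod.val_add, ZMod.val_one_eq_one_mod, Nat.add_mod_mod, hk, Nat.mod_self]
    have hm : m.choose (a + 1) = k.val.choose a + k.val.choose (a + 1) :=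
      (congrArg (fun z : ℕ => z.choose (a + 1)) hk.symm).trans (Nat.choose_succ_succ _ _)
    rw [h1, Nat.choose_zero_succ, hm]
    push_cast
    ring

/-- **The shift of the moments.** -/
theorem Loc.xA_moment (ψ : l.P) (a : Fin r → ℕ) (j : Fin r) :
    (a j = 0 → l.actA (l.xA j) (l.moment ψ a) = 0) ∧
      (a j ≠ 0 → ∃ y : l.P, l.actA (l.xA j) (l.moment ψ a) = l.moment ψ (a - Pi.single j 1) +
        ((2 ^ T.n).choose (a j) : O) • y) := by
  classical
  set F : (Fin r → ℕ) → T.Delta → ℕ := fun a q => ∏ i, (q.toAdd i).val.choose (a i)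
  have hshift : l.actA (l.xA j) (l.moment ψ a) =
      ∑ q : T.Delta, (((F a (q * T.gen j) : ℕ) : O) - (F a q : O)) • l.actA (l.dia q⁻¹) ψ := by
    rw [Loc.xA, map_sub, map_one, LinearMap.sub_apply, Module.End.one_apply, Loc.moment, map_sum]
    simp only [sub_smul, Finset.sum_sub_distrib, map_smul]
    congr 1
    refine Fintype.sum_equiv (Equiv.divRight (T.gen j)) _ _ fun q => ?_
    rw [Equiv.divRight_apply, div_mul_cancel, inv_div, ← Module.End.mul_apply, ← map_mul, ← map_mul,
      div_eq_mul_inv]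
  have hother : ∀ (q : T.Delta) (i : Fin r), i ≠ j → (q * T.gen j).toAdd i = q.toAdd i :=
    fun q i hi => by
      rw [toAdd_mul, Pi.add_apply, gen, toAdd_ofAdd, Pi.single_eq_of_ne hi, add_zero]
  have hself : ∀ q : T.Delta, (q * T.gen j).toAdd j = q.toAdd j + 1 := fun q => by
    rw [toAdd_mul, Pi.add_apply, gen, toAdd_ofAdd, Pi.single_eq_same]
  constructor
  · intro h0
    rw [hshift]
    refine Finset.sum_eq_zero fun q _ => ?_
    rw [show F a (q * T.gen j) = F a q from Finset.prod_congr rfl fun i _ => by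
      rcases eq_or_ne i j with rfl | hi
      · rw [h0, Nat.choose_zero_right, Nat.choose_zero_right]
      · rw [hother q i hi], sub_self, zero_smul]
  intro hj
  obtain ⟨c, hc⟩ := Nat.exists_eq_succ_of_ne_zero hj
  choose e he using fun q : T.Delta => exists_choose_succ (q.toAdd j) c
  set R : T.Delta → ℕ := fun q => ∏ i ∈ Finset.univ.erase j, (q.toAdd i).val.choose (a i)
  refine ⟨∑ q : T.Delta, ((e q : O) * (R q : O)) • l.actA (l.dia q⁻¹) ψ, ?_⟩
  rw [hshift, Loc.moment, Finset.smul_sum, ← Finset.sum_add_distrib]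
  refine Finset.sum_congr rfl fun q _ => ?_
  rw [smul_smul, ← add_smul]
  congr 1
  have h1 : F a (q * T.gen j) = (q.toAdd j + 1).val.choose (a j) * R q := by
    rw [← hself]
    refine (Finset.mul_prod_erase _ _ (Finset.mem_univ j)).symm.trans ?_
    congr 1
    exact Finset.prod_congr rfl fun i hi => by rw [hother q i (Finset.ne_of_mem_erase hi)]
  have h2 : F a q = (q.toAdd j).val.choose (a j) * R q :=
    (Finset.mul_prod_erase _ _ (Finset.mem_univ j)).symm
  have h3 : ∏ i, (q.toAdd i).val.choose ((a - Pi.single j 1 : Fin r → ℕ) i) =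
      (q.toAdd j).val.choose c * R q := by
    refine (Finset.mul_prod_erase _ _ (Finset.mem_univ j)).symm.trans ?_
    congr 1
    · rw [Pi.sub_apply, Pi.single_eq_same, hc, Nat.succ_sub_one]
    · exact Finset.prod_congr rfl fun i hi => by
        rw [Pi.sub_apply, Pi.single_eq_of_ne (Finset.ne_of_mem_erase hi), tsub_zero]
  rw [h1, h2, h3, hc]
  have := congrArg (fun z : ℤ => (z : O)) (he q)
  push_cast at this ⊢
  linear_combination (R q : O) * this

end TwoSetup

end Fermat.Agent.RT.Two

end
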