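import Fermat.Agent.Arith.RootsOfUnity
import Fermat.Agent.RT.Two.Hecke.Alg

/-!
# Diamond operators in the algebra of a level
-/

set_option autoImplicit false
set_option linter.unusedSectionVars false

noncomputable section

namespace Fermat.Agent.RT.Two

open IsLocalRing MvPolynomial Fermat.Agent.Arith
open Fermat.Agent.RT.GammaH

variable {O : Type} [CommRing O] [IsDomain O] [IsDiscreteValuationRing O]
  [IsAdicComplete (maximalIdeal O) O] [Finite (ResidueField O)] [CharZero O]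
  [Algebra (ZMod 2) (ResidueField O)] {N r : ℕ}

namespace TwoSetup

variable {T : TwoSetup O N r}

namespace Loc

variable (l : T.Loc)

theorem toA_inl_congr {u v : (ZMod T.level)ˣ} (h : T.psi u = T.psi v) :
    l.toA (X (Sum.inl u)) = l.toA (X (Sum.inl v)) := by
  rw [← sub_eq_zero, ← map_sub, toA_eq_zero]
  refine ⟨LinearMap.ext fun x => Subtype.ext ?_, by rw [map_sub, evE_inl, evE_inl, sub_self]⟩
  show ((l.act _ x : l.P) : HomMod O T.S T.psi.ker O) = 0
  rw [coe_act, sub_smul, sub_eq_zero, X_inl_smul, X_inl_smul,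
    diamond_congr_ker (ψ := T.psi) (fun _ => MonoidHom.mem_ker) h]

/-- The diamond operators in the algebra. -/
def dia : T.Delta →* l.A where
  toFun q := l.toA (X (Sum.inl (psiInv T.psi_surjective q)))
  map_one' := by
    rw [l.toA_inl_congr (v := 1) (by rw [map_one]; exact Function.surjInv_eq T.psi_surjective 1),
      ← sub_eq_zero, ← map_one l.toA, ← map_sub, toA_eq_zero]
    refine ⟨LinearMap.ext fun x => Subtype.ext ?_, by rw [map_sub, evE_inl, map_one, sub_self]⟩
    show ((l.act _ x : l.P) : HomMod O T.S T.psi.ker O) = 0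
    rw [coe_act, sub_smul, one_smul, X_inl_smul]
    refine sub_eq_zero.2 ?_
    exact diamond_of_mem O (one_mem _) _
  map_mul' q q' := by
    rw [← map_mul, l.toA_inl_congr (v := psiInv T.psi_surjective q * psiInv T.psi_surjective q')
      (by rw [map_mul]; simp only [psiInv, Function.surjInv_eq T.psi_surjective]),
      ← sub_eq_zero, ← map_sub, toA_eq_zero]
    refine ⟨LinearMap.ext fun x => Subtype.ext ?_, by
      rw [map_sub, map_mul, evE_inl, evE_inl, evE_inl, mul_one, sub_self]⟩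
    show ((l.act _ x : l.P) : HomMod O T.S T.psi.ker O) = 0
    rw [coe_act, sub_smul, mul_smul, X_inl_smul, X_inl_smul, X_inl_smul]
    refine sub_eq_zero.2 ?_
    exact diamond_mul O _ _ _

theorem dia_psi (u : (ZMod T.level)ˣ) : l.dia (T.psi u) = l.toA (X (Sum.inl u)) :=
  l.toA_inl_congr (Function.surjInv_eq T.psi_surjective _)

theorem thetaE_dia (q : T.Delta) : l.thetaE (l.dia q) = 1 := by
  show l.thetaE (l.toA _) = 1
  rw [thetaE_toA, evE_inl]

theorem aug_dia (q : T.Delta) : l.aug (l.dia q) = 1 := by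
  rw [← residue_thetaE, thetaE_dia, map_one]

/-- The Hecke operator in the algebra. -/
def hk (ℓ : ℕ) : l.A :=
  if h : ℓ.Prime ∧ ℓ ∉ T.S then l.toA (X (Sum.inr ⟨ℓ, h⟩)) else 0

theorem hk_eq {ℓ : ℕ} (h : ℓ.Prime ∧ ℓ ∉ T.S) : l.hk ℓ = l.toA (X (Sum.inr ⟨ℓ, h⟩)) := dif_pos h

theorem thetaE_hk {ℓ : ℕ} (hℓ : ℓ.Prime) (hℓS : ℓ ∉ T.S) : l.thetaE (l.hk ℓ) = (T.aE ℓ : O) := by
  rw [l.hk_eq ⟨hℓ, hℓS⟩, thetaE_toA, evE_inr]

theorem aug_hk {ℓ : ℕ} (hℓ : ℓ.Prime) (hℓS : ℓ ∉ T.S) : l.aug (l.hk ℓ) = T.abar ℓ := by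
  rw [l.hk_eq ⟨hℓ, hℓS⟩, aug_toA, opRes_inr]

theorem adjoin_eq_top :
    Algebra.adjoin O (Set.range l.dia ∪ Set.range l.hk) = ⊤ := by
  refine top_le_iff.1 fun x hx => ?_
  clear hx
  obtain ⟨a, rfl⟩ := l.toA_surjective x
  induction a using MvPolynomial.induction_on with
  | C c => rw [← algebraMap_eq, AlgHom.commutes]; exact Subalgebra.algebraMap_mem _ c
  | add a b ha hb => rw [map_add]; exact add_mem ha hb
  | mul_X a i ha =>
    rw [map_mul]
    refine mul_mem ha (Algebra.subset_adjoin ?_)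
    rcases i with u | ℓ
    · exact Or.inl ⟨_, l.dia_psi u⟩
    · exact Or.inr ⟨ℓ.1, l.hk_eq ℓ.2⟩

end Loc

end TwoSetup

end Fermat.Agent.RT.Two

end
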