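import Mathlib.RingTheory.TensorProduct.Finite
import Mathlib.LinearAlgebra.TensorProduct.RightExactness
import Mathlib.Algebra.Module.SpanRank

/-!
# Extension of a module along an algebra: coinvariants and functionals
-/

set_option autoImplicit false

noncomputable section

namespace Fermat.Agent.RT.Two.Hecke

open scoped TensorProduct

variable {O A B D : Type} [CommRing O] [CommRing A] [CommRing B] [Algebra O A] [Algebra O B]
  [Algebra A B] [IsScalarTower O A B] [AddCommGroup D] [Module A D] [Module O D]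
  [IsScalarTower O A D] {r : ℕ}

theorem tmul_mem_span (xs : Fin r → A) (b : B) {ψ : D}
    (hψ : ψ ∈ Ideal.span (Set.range xs) • (⊤ : Submodule A D)) :
    b ⊗ₜ[A] ψ ∈ Ideal.span (Set.range fun i => algebraMap A B (xs i)) •
      (⊤ : Submodule B (B ⊗[A] D)) := by
  induction hψ using Submodule.smul_induction_on' with
  | smul a ha φ _ =>
    rw [TensorProduct.tmul_smul, ← algebraMap_smul B a]
    refine Submodule.smul_mem_smul ?_ Submodule.mem_top
    have h := Ideal.mem_map_of_mem (algebraMap A B) ha
    rw [Ideal.map_span, ← Set.range_comp] at h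
    exact h
  | add φ _ ψ _ h1 h2 => rw [TensorProduct.tmul_add]; exact add_mem h1 h2

theorem map_smul_mem (J : Ideal A) (xs : Fin r → A)
    (hJ : ∀ a ∈ J, ∀ φ : D, a • φ ∈ Ideal.span (Set.range xs) • (⊤ : Submodule A D))
    {e : B} (he : e ∈ J.map (algebraMap A B)) (m : B ⊗[A] D) :
    e • m ∈ Ideal.span (Set.range fun i => algebraMap A B (xs i)) •
      (⊤ : Submodule B (B ⊗[A] D)) := by
  rw [Ideal.map, Ideal.span] at he
  induction he using Submodule.span_induction generalizing m with
  | mem z hz =>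
    obtain ⟨a, ha, rfl⟩ := hz
    induction m using TensorProduct.induction_on with
    | zero => rw [smul_zero]; exact zero_mem _
    | add p q hp hq => rw [smul_add]; exact add_mem hp hq
    | tmul b φ =>
      rw [algebraMap_smul, ← TensorProduct.tmul_smul]
      exact tmul_mem_span xs b (hJ a ha φ)
  | zero => rw [zero_smul]; exact zero_mem _
  | add p q _ _ hp hq => rw [add_smul]; exact add_mem (hp m) (hq m)
  | smul c p _ hp => rw [smul_eq_mul, mul_smul]; exact Submodule.smul_mem _ c (hp m)

theorem map_smul_eq_zero (J : Ideal A) (hJ : ∀ a ∈ J, ∀ φ : D, a • φ = 0)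
    {e : B} (he : e ∈ J.map (algebraMap A B)) (m : B ⊗[A] D) : e • m = 0 := by
  rw [Ideal.map, Ideal.span] at he
  induction he using Submodule.span_induction generalizing m with
  | mem z hz =>
    obtain ⟨a, ha, rfl⟩ := hz
    induction m using TensorProduct.induction_on with
    | zero => rw [smul_zero]
    | add p q hp hq => rw [smul_add, hp, hq, add_zero]
    | tmul b φ => rw [algebraMap_smul, ← TensorProduct.tmul_smul, hJ a ha, TensorProduct.tmul_zero]
  | zero => rw [zero_smul]
  | add p q _ _ hp hq => rw [add_smul, hp, hq, add_zero]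
  | smul c p _ hp => rw [smul_eq_mul, mul_smul, hp, smul_zero]

theorem spanFinrank_ext_le {n : ℕ} (g : Fin n → D) (hg : Submodule.span A (Set.range g) = ⊤) :
    (⊤ : Submodule B (B ⊗[A] D)).spanFinrank ≤ n := by
  have htop : (⊤ : Submodule B (B ⊗[A] D)) =
      Submodule.span B (Set.range fun j => (1 : B) ⊗ₜ[A] g j) := by
    refine (top_le_iff.1 fun m hm => ?_).symm
    clear hm
    induction m using TensorProduct.induction_on with
    | zero => exact zero_mem _
    | add p q hp hq => exact add_mem hp hq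
    | tmul b φ =>
      rw [show b ⊗ₜ[A] φ = b • ((1 : B) ⊗ₜ[A] φ) by
        rw [TensorProduct.smul_tmul', smul_eq_mul, mul_one]]
      refine Submodule.smul_mem _ b ?_
      have hφ : φ ∈ Submodule.span A (Set.range g) := hg ▸ Submodule.mem_top
      induction hφ using Submodule.span_induction with
      | mem x hx => obtain ⟨j, rfl⟩ := hx; exact Submodule.subset_span ⟨j, rfl⟩
      | zero => rw [TensorProduct.tmul_zero]; exact zero_mem _
      | add x y _ _ hx hy => rw [TensorProduct.tmul_add]; exact add_mem hx hy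
      | smul a x _ hx =>
        rw [TensorProduct.tmul_smul, ← algebraMap_smul B a]
        exact Submodule.smul_mem _ _ hx
  rw [htop]
  refine (Submodule.spanFinrank_span_le_ncard_of_finite (Set.finite_range _)).trans ?_
  rw [← Set.image_univ]
  exact (Set.ncard_image_le Set.finite_univ).trans_eq (by rw [Set.ncard_univ, Nat.card_fin])

theorem smul_tmul_mem (J : Ideal A) (xs : Fin r → A) (w : D)
    (hw : ∀ a ∈ J, a • w ∈ Ideal.span (Set.range xs) • (⊤ : Submodule A D)) (u b : B)
    (hb : b * u ∈ J.map (algebraMap A B)) :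
    b • (u ⊗ₜ[A] w) ∈ Ideal.span (Set.range fun i => algebraMap A B (xs i)) •
      (⊤ : Submodule B (B ⊗[A] D)) := by
  rw [TensorProduct.smul_tmul', smul_eq_mul,
    show (b * u) ⊗ₜ[A] w = (b * u) • ((1 : B) ⊗ₜ[A] w) by
      rw [TensorProduct.smul_tmul', smul_eq_mul, mul_one]]
  generalize b * u = z at hb ⊢
  rw [Ideal.map, Ideal.span] at hb
  induction hb using Submodule.span_induction with
  | mem z hz =>
    obtain ⟨a, ha, rfl⟩ := hz
    rw [algebraMap_smul, ← TensorProduct.tmul_smul]
    exact tmul_mem_span xs 1 (hw a ha)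
  | zero => rw [zero_smul]; exact zero_mem _
  | add p q _ _ hp hq => rw [add_smul]; exact add_mem hp hq
  | smul c p _ hp => rw [smul_eq_mul, mul_smul]; exact Submodule.smul_mem _ c hp

/-- A functional on the module from a functional on the coefficients of the algebra. -/
def extFun (ε : B →ₗ[A] A) : B ⊗[A] D →ₗ[O] D :=
  ((TensorProduct.lid A D).toLinearMap ∘ₗ ε.rTensor D).restrictScalars O

theorem extFun_tmul (ε : B →ₗ[A] A) (b : B) (φ : D) :
    extFun (O := O) ε (b ⊗ₜ[A] φ) = ε b • φ := by
  show TensorProduct.lid A D (ε.rTensor D (b ⊗ₜ φ)) = _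
  rw [LinearMap.rTensor_tmul, TensorProduct.lid_tmul]

theorem extFun_smul (ε : B →ₗ[A] A) (a : A) (m : B ⊗[A] D) :
    extFun (O := O) ε (algebraMap A B a • m) = a • extFun (O := O) ε m := by
  rw [algebraMap_smul]
  exact map_smul ((TensorProduct.lid A D).toLinearMap ∘ₗ ε.rTensor D) a m

/-- Coefficient functionals on the extension from those on the module. -/
theorem exists_coef {C : Type} [AddCommGroup C] [Module O C] (xs : Fin r → A) (D₀ : ℕ)
    (Φ : (Fin r → ℕ) → D →ₗ[O] C) (hΦ : ∀ (a : Fin r → ℕ) (j : Fin r) (φ : D), ∑ i, a i ≤ D₀ →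
      Φ a (xs j • φ) = if a j = 0 then 0 else Φ (a - Pi.single j 1) φ)
    (ε : B →ₗ[A] A) (u : B) (hu : ε u = 1) (w : D) :
    ∃ coef : (Fin r → ℕ) → B ⊗[A] D →ₗ[O] C,
      (∀ (a : Fin r → ℕ) (j : Fin r) (m : B ⊗[A] D), ∑ i, a i ≤ D₀ →
        coef a (algebraMap A B (xs j) • m) = if a j = 0 then 0 else coef (a - Pi.single j 1) m) ∧
      coef 0 (u ⊗ₜ[A] w) = Φ 0 w := by
  refine ⟨fun a => Φ a ∘ₗ extFun (O := O) ε, fun a j m ha => ?_, ?_⟩
  · show Φ a (extFun (O := O) ε (algebraMap A B (xs j) • m)) = _
    rw [extFun_smul]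
    exact hΦ a j _ ha
  · show Φ 0 (extFun (O := O) ε (u ⊗ₜ[A] w)) = _
    rw [extFun_tmul, hu, one_smul]

end Fermat.Agent.RT.Two.Hecke

end
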