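import Fermat.Agent.FiniteFlat.OfLattice
import Mathlib.RingTheory.IntegralClosure.IsIntegralClosure.Basic

/-!
# Twists of a Galois order by a permutation module unramified at `l`

The functions `f ↦ h (f u)`, for `h` in an order on `M`, generate a lattice on the functions
`U → M` with Galois permuting `U` through a character unramified at `l`.
-/

set_option autoImplicit false

noncomputable section

namespace Fermat.Agent.RT.Two.Hecke

open Fermat.Agent.Arith Fermat.Agent.FiniteFlat
open scoped Pointwise

variable {U : Type} [Group U]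

/-- Functions on a group with Galois permuting the argument through a character. -/
def Ind (_c : GQ →* U) (M : Type) : Type := U → M

variable (c : GQ →* U) {M : Type} [AddCommGroup M] [DistribMulAction GQ M]

instance : AddCommGroup (Ind c M) := inferInstanceAs (AddCommGroup (U → M))

instance [Finite U] [Finite M] : Finite (Ind c M) := inferInstanceAs (Finite (U → M))

instance : DistribMulAction GQ (Ind c M) where
  smul σ f u := σ • f ((c σ)⁻¹ * u)
  one_smul f := funext fun u => by
    show (1 : GQ) • f ((c 1)⁻¹ * u) = f u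
    rw [map_one, inv_one, one_mul, one_smul]
  mul_smul σ τ f := funext fun u => by
    show (σ * τ) • f ((c (σ * τ))⁻¹ * u) = σ • τ • f ((c τ)⁻¹ * ((c σ)⁻¹ * u))
    rw [map_mul, mul_inv_rev, mul_assoc, mul_smul]
  smul_zero σ := funext fun u => smul_zero σ
  smul_add σ f g := funext fun u => smul_add σ (f _) (g _)

theorem ind_smul_apply (σ : GQ) (f : Ind c M) (u : U) :
    (σ • f) u = σ • (f : U → M) ((c σ)⁻¹ * u) := rfl

/-- The evaluation at an element of the group. -/
def evInd (h : M → QBar) (u : U) : Ind c M → QBar := fun f => h ((f : U → M) u)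

theorem galAct_evInd {h : M → QBar} (hh : ∀ (σ : GQ) m, h (σ • m) = σ (h m)) (d : GQ) (u : U) :
    galAct d (evInd c h u) = evInd c h (c d * u) := funext fun f => by
  show d (h ((d⁻¹ • f : Ind c M) u)) = h ((f : U → M) (c d * u))
  rw [ind_smul_apply, ← hh, smul_inv_smul, map_inv, inv_inv]

/-- The lattice generated by the evaluations. -/
def indLattice (A : ValuationSubring QBar) (O : GalOrder 2 M) : Subalgebra A (Ind c M → QBar) :=
  Algebra.adjoin A {g | ∃ h ∈ O.H, ∃ u, evInd c h u = g}

/-- **Galois orders on permutation twists.** -/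
theorem nonempty_galOrder_ind [Finite U] [Finite M]
    (hc : ∀ A : ValuationSubring QBar, A.LiesOverPrime 2 → ∀ σ ∈ A.inertiaSubgroupIn ℚ, c σ = 1)
    (hopen : IsOpen (c.ker : Set GQ)) (O : GalOrder 2 M) : Nonempty (GalOrder 2 (Ind c M)) := by
  classical
  obtain ⟨A, hA⟩ := exists_liesOverPrime Nat.prime_two
  set S := indLattice c A O
  have hgenS : ∀ h ∈ O.H, ∀ u, evInd c h u ∈ S := fun h hh u =>
    Algebra.subset_adjoin ⟨h, hh, u, rfl⟩
  let : Algebra (Zl 2) A := ((algebraMap (Zl 2) QBar).codRestrict A.toSubring fun x => by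
    rw [IsScalarTower.algebraMap_apply (Zl 2) ℚ QBar, eq_ratCast]
    exact coe_zl_mem hA Nat.prime_two x).toAlgebra
  have : IsScalarTower (Zl 2) A QBar := IsScalarTower.of_algebraMap_eq fun x => rfl
  have hintH : ∀ h ∈ O.H, ∀ m, h m ∈ A := fun h hh m => by
    have h1 : IsIntegral (Zl 2) (h m) := (Algebra.IsIntegral.isIntegral (⟨h, hh⟩ : O.H)).map
      ((Pi.evalAlgHom (Zl 2) (fun _ : M => QBar) m).comp O.H.val)
    obtain ⟨y, hy⟩ := (IsIntegrallyClosed.isIntegral_iff (R := A) (K := QBar)).mp
      (h1.tower_top (A := A))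
    exact hy ▸ y.2
  have hint : ∀ f ∈ S, ∀ m, f m ∈ A := fun f hf => by
    induction hf using Algebra.adjoin_induction with
    | mem g hg => obtain ⟨h, hh, u, rfl⟩ := hg; exact fun m => hintH h hh _
    | algebraMap a => exact fun m => a.2
    | add f g _ _ hf hg => exact fun m => add_mem (hf m) (hg m)
    | mul f g _ _ hf hg => exact fun m => mul_mem (hf m) (hg m)
  have hD : ∀ d : GQ, d • A = A → ∀ f ∈ S, galAct d f ∈ S := fun d hd f hf => by
    induction hf using Algebra.adjoin_induction with
    | mem g hg =>
      obtain ⟨h, hh, u, rfl⟩ := hg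
      rw [galAct_evInd c (O.equivariant h hh)]
      exact hgenS h hh _
    | algebraMap a =>
      have ha : d (a : QBar) ∈ A :=
        (congrArg (fun B : ValuationSubring QBar => d (a : QBar) ∈ B) hd).mp
          (ValuationSubring.smul_mem_pointwise_smul d _ A a.2)
      exact Subalgebra.algebraMap_mem S ⟨_, ha⟩
    | add f g _ _ hf hg =>
      rw [show galAct d (f + g) = galAct d f + galAct d g from funext fun m => map_add d _ _]
      exact add_mem hf hg
    | mul f g _ _ hf hg =>
      rw [show galAct d (f * g) = galAct d f * galAct d g from funext fun m => map_mul d _ _]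
      exact mul_mem hf hg
  have hgen : S.toSubmodule ≤
      Submodule.span A {f | f ∈ S ∧ ∀ u ∈ c.ker, galAct u f = f} := by
    show (Algebra.adjoin A _).toSubmodule ≤ _
    rw [Algebra.adjoin_eq_span]
    refine Submodule.span_mono fun f hf => ?_
    induction hf using Submonoid.closure_induction with
    | mem g hg =>
      obtain ⟨h, hh, u, rfl⟩ := hg
      refine ⟨hgenS h hh u, fun σ hσ => ?_⟩
      rw [galAct_evInd c (O.equivariant h hh), MonoidHom.mem_ker.1 hσ, one_mul]
    | one => exact ⟨one_mem _, fun σ _ => funext fun m => map_one σ⟩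
    | mul f g _ _ hf hg =>
      refine ⟨mul_mem hf.1 hg.1, fun σ hσ => ?_⟩
      rw [show galAct σ (f * g) = galAct σ f * galAct σ g from funext fun m => map_mul σ _ _,
        hf.2 σ hσ, hg.2 σ hσ]
  have hsep : ∀ m m', (∀ f ∈ S, f m = f m') → m = m' := fun m m' h =>
    funext fun u => O.separates _ _ fun g hg => h _ (hgenS g hg u)
  have hneg : ∀ f ∈ S, (fun x => f (-x)) ∈ S := fun f hf => by
    induction hf using Algebra.adjoin_induction with
    | mem g hg =>
      obtain ⟨h, hh, u, rfl⟩ := hg
      exact hgenS _ (O.neg h hh) u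
    | algebraMap a => exact Subalgebra.algebraMap_mem S a
    | add f g _ _ hf hg => exact add_mem hf hg
    | mul f g _ _ hf hg => exact mul_mem hf hg
  have hcomul : ∀ f ∈ S, ∃ (n : ℕ) (a b : Fin n → (Ind c M → QBar)),
      (∀ i, a i ∈ S) ∧ (∀ i, b i ∈ S) ∧ ∀ x y, f (x + y) = ∑ i, a i x * b i y := fun f hf => by
    induction hf using Algebra.adjoin_induction with
    | mem g hg =>
      obtain ⟨h, hh, u, rfl⟩ := hg
      obtain ⟨n, a, b, ha, hb, hab⟩ := O.comul h hh
      exact ⟨n, fun i => evInd c (a i) u, fun i => evInd c (b i) u, fun i => hgenS _ (ha i) u,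
        fun i => hgenS _ (hb i) u, fun x y => hab _ _⟩
    | algebraMap a =>
      exact ⟨1, fun _ => algebraMap A _ a, fun _ => 1, fun _ => Subalgebra.algebraMap_mem S a,
        fun _ => one_mem S, fun x y => by simp⟩
    | add f g _ _ hf hg =>
      obtain ⟨n, a, b, ha, hb, h⟩ := hf
      obtain ⟨n', a', b', ha', hb', h'⟩ := hg
      refine ⟨n + n', Fin.addCases a a', Fin.addCases b b', fun i => ?_, fun i => ?_,
        fun x y => ?_⟩
      · exact Fin.addCases (fun i => by simpa using ha i) (fun i => by simpa using ha' i) i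
      · exact Fin.addCases (fun i => by simpa using hb i) (fun i => by simpa using hb' i) i
      · rw [Pi.add_apply, h, h', Fin.sum_univ_add]
        simp
    | mul f g _ _ hf hg =>
      obtain ⟨n, a, b, ha, hb, h⟩ := hf
      obtain ⟨n', a', b', ha', hb', h'⟩ := hg
      refine ⟨n * n', fun i => a (finProdFinEquiv.symm i).1 * a' (finProdFinEquiv.symm i).2,
        fun i => b (finProdFinEquiv.symm i).1 * b' (finProdFinEquiv.symm i).2,
        fun i => mul_mem (ha _) (ha' _), fun i => mul_mem (hb _) (hb' _), fun x y => ?_⟩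
      rw [Pi.mul_apply, h, h', Finset.sum_mul_sum, ← finProdFinEquiv.sum_comp,
        ← Finset.univ_product_univ, Finset.sum_product]
      simp only [Equiv.symm_apply_apply, Pi.mul_apply]
      exact Finset.sum_congr rfl fun i _ => Finset.sum_congr rfl fun j _ => by ring
  obtain ⟨O', -⟩ := exists_galOrder_of_lattice hA Nat.prime_two S hint hD hopen
    (fun σ hσ => hc A hA σ hσ) hgen hsep hcomul hneg
  exact ⟨O'⟩

/-- The kernel of a homomorphism factoring through a finite extension is open. -/
theorem isOpen_ker (F : IntermediateField ℚ QBar) [FiniteDimensional ℚ F]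
    (h : ∀ σ : GQ, (∀ z ∈ F, σ z = z) → c σ = 1) : IsOpen (c.ker : Set GQ) :=
  Subgroup.isOpen_mono (fun σ hσ => h σ fun z hz => by
    rw [IntermediateField.mem_fixingSubgroup_iff] at hσ
    exact hσ z hz) (IntermediateField.fixingSubgroup_isOpen F)

end Fermat.Agent.RT.Two.Hecke

end
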