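import Fermat.Agent.ConductorLevel.Compare
import Fermat.Agent.GaloisReps.Unconditional
import Fermat.Agent.GaloisReps.CoeffExt
import Fermat.Agent.NewformLocal.Models
import Fermat.Agent.RT.GammaH.EigenVector
import Fermat.Agent.RT.Two.Hecke.Family
import Fermat.Agent.RT.Two.Hecke.Dia

/-!
# The representation at a point of the module, residual characteristic two

A point of the algebra coming from the module is the system of an eigenform with nebentype `χ`;
the twist by a square root `et` of `χ⁻¹` comes from a newform `g`, and the representation of the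
point is the one of `g` twisted back.
-/

set_option autoImplicit false
set_option linter.unusedSectionVars false

noncomputable section

namespace Fermat.Agent.RT.Two

open IsLocalRing MvPolynomial ModularFormClass Fermat.Agent.Arith
open Fermat.Agent.RT.GammaH Fermat.Agent.Deform
open Fermat.Agent.GaloisReps (FullHecke HeckeGaloisModel modelOfCongruence congruenceProperty)

variable {O : Type} [CommRing O] [IsDomain O] [IsDiscreteValuationRing O]
  [IsAdicComplete (maximalIdeal O) O] [Finite (ResidueField O)] [CharZero O]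
  [Algebra (ZMod 2) (ResidueField O)] {N r : ℕ}

namespace TwoSetup

theorem natCast_two_mem (T : TwoSetup O N r) : ((2 : ℕ) : O) ∈ maximalIdeal O := by
  exact_mod_cast T.two_mem

theorem nonempty_emb (T : TwoSetup O N r) : Nonempty (CBar O ≃+* ℂ) := by
  obtain ⟨ι⟩ := GaloisReps.exists_padicHom O T.natCast_two_mem
  exact Glue.nonempty_ringEquiv_complex O ι

/-- An isomorphism of the algebraic closure with `ℂ`. -/
def emb (T : TwoSetup O N r) : CBar O ≃+* ℂ := T.nonempty_emb.some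

variable {T : TwoSetup O N r} (l : T.Loc)

/-- The character of the diamond group at a point. -/
def Loc.charD (θ : l.A →ₐ[O] CBar O) : T.Delta →* ℂˣ :=
  (((T.emb.toRingHom.comp θ.toRingHom) : l.A →+* ℂ).toMonoidHom.comp l.dia).toHomUnits

/-- The nebentype at a point. -/
def Loc.chi (θ : l.A →ₐ[O] CBar O) : (ZMod T.level)ˣ →* ℂˣ := (l.charD θ).comp T.psi

theorem Loc.chi_apply (θ : l.A →ₐ[O] CBar O) (u : (ZMod T.level)ˣ) :
    (l.chi θ u : ℂ) = T.emb (θ (l.dia (T.psi u))) := rfl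

/-- The models at two. -/
abbrev model2 (M : ℕ) [NeZero M] : HeckeGaloisModel M 2 :=
  modelOfCongruence (congruenceProperty M 2)

theorem unipotentAt_model2 (M : ℕ) [NeZero M] {q : ℕ} (hq : q.Prime) (hq2 : q ≠ 2) (hqM : q ∣ M)
    (hsq : ¬ q ^ 2 ∣ M) : NewformLocal.UnipotentAt (model2 M) q :=
  GaloisReps.unipotentAt_modelOfCongruence (congruenceProperty M 2) hq hq2
    (Semistable.torsionUnipotentAt hq hqM hsq)

theorem toricSquareAt_model2 (M : ℕ) [NeZero M] {q : ℕ} (hq : q.Prime) (hq2 : q ≠ 2)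
    (hsq : ¬ q ^ 2 ∣ M) : NewformLocal.ToricSquareAt (model2 M) q :=
  NewformLocal.Toric.toricSquareAt (congruenceProperty M 2) hq hq2 hsq

/-- A newform and a representation realising a point of the module. -/
structure Pt (θ : l.A →ₐ[O] CBar O) : Type 1 where
  M : ℕ
  [neM : NeZero M]
  g : CuspForm (CongruenceSubgroup.Gamma0 M) 2
  isNewform : g.IsNewform
  et : DirichletCharacter ℂ T.level
  sq : et ^ 2 * toDir (l.chi θ) = 1
  bad : badPrimes et ⊆ badPrimes (toDir (l.chi θ))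
  neg : ∀ v ∈ badPrimes et, etaComp et 1 v (-1) = 1
  dvd : M ∣ twistLevel et
  f : FormH T.level T.psi.ker
  isChi : IsChiForm (l.chi θ) f
  f_one : qCoeff f 1 = 1
  f_coeff : ∀ ℓ : ℕ, ℓ.Prime → ℓ ∉ T.S → qCoeff f ℓ = T.emb (θ (l.hk ℓ))
  g_coeff : ∀ ℓ : ℕ, ℓ.Prime → ℓ ∉ T.S →
    qCoeff g ℓ = et (ℓ : ZMod T.level) * T.emb (θ (l.hk ℓ))
  f_rec : ∀ ℓ : ℕ, ℓ.Prime → ℓ ∉ T.S → ∀ n,
    seqOp (nebWeight (toDir (l.chi θ))) ℓ (qCoeff f) n = qCoeff f ℓ * qCoeff f n
  R : Type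
  [commR : CommRing R]
  [domR : IsDomain R]
  [dvrR : IsDiscreteValuationRing R]
  [char0R : CharZero R]
  [algR : Algebra O R]
  [finR : Module.Finite O R]
  [complR : IsAdicComplete (maximalIdeal R) R]
  [finResR : Finite (ResidueField R)]
  j : R →+* CBar O
  j_injective : Function.Injective j
  j_algebraMap : j.comp (algebraMap O R) = algebraMap O (CBar O)
  two_memR : ((2 : ℕ) : R) ∈ maximalIdeal R
  ι : ℤ_[2] →+* R
  θ' : FullHecke M →+* R
  emb_θ' : ∀ t, T.emb (j (θ' t)) = ConductorLevel.eigenChar isNewform.1 ∅ t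

attribute [instance] Pt.neM Pt.commR Pt.domR Pt.dvrR Pt.char0R Pt.algR Pt.finR Pt.complR Pt.finResR

theorem Loc.algebraMap_emb_injective :
    Function.Injective (T.emb.toRingHom.comp (algebraMap O (CBar O))) := by
  refine T.emb.injective.comp ?_
  rw [IsScalarTower.algebraMap_eq O (FractionRing O)]
  exact (algebraMap (FractionRing O) _).injective.comp (IsFractionRing.injective O _)

/-- **Every point of the module is realised.** -/
theorem Loc.nonempty_pt {θ : l.A →ₐ[O] CBar O}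
    (hθ : ∀ a, l.act a = 0 → θ (l.toA a) = 0) : Nonempty (Pt l θ) := by
  let : Algebra O ℂ := (T.emb.toRingHom.comp (algebraMap O (CBar O))).toAlgebra
  have hinj : Function.Injective (algebraMap O ℂ) := Loc.algebraMap_emb_injective
  let θA : T.OpR →ₐ[O] ℂ :=
    { T.emb.toRingHom.comp (θ.comp l.toA).toRingHom with
      commutes' := fun c => congrArg T.emb ((θ.comp l.toA).commutes c) }
  have hθA : ∀ a, localAct O l.e (HomMod O T.S T.psi.ker O) a = 0 → θA a = 0 := fun a ha => by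
    show T.emb (θ (l.toA a)) = 0
    rw [hθ a ha, map_zero]
  have hneg := T.neg_one_mem_ker_psi
  have hL := T.squarefree_level
  obtain ⟨ℓ₀, hℓ₀, hℓ₀S, hEis⟩ := T.exists_nonEisenstein
  obtain ⟨P, hP, hpar⟩ := exists_parabolicOp (K := T.psi.ker) T.S T.abar hL hneg hℓ₀ hℓ₀S
    (fun h => hℓ₀S (T.mem_S_of_dvd_level hℓ₀ h)) hEis
  obtain ⟨φ, hφ0, hφpar, hφ⟩ := exists_eigvec hinj l.heH hP (fun x => hpar ℂ x) θA hθA
  have hdia : ∀ u, diamond T.level T.psi.ker ℂ u φ = (l.chi θ u : ℂ) • φ := fun u => by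
    rw [Loc.chi_apply, dia_psi, show T.emb (θ (l.toA (X (Sum.inl u)))) = θA (X (Sum.inl u)) from rfl,
      ← hφ, opC_inl]
  have hT : ∀ (ℓ : ℕ) [Fact ℓ.Prime], ℓ ∉ T.S →
      hecke T.level T.psi.ker ℓ ℂ φ = T.emb (θ (l.hk ℓ)) • φ := fun ℓ _ hℓS => by
    rw [l.hk_eq ⟨Fact.out, hℓS⟩,
      show T.emb (θ (l.toA (X (Sum.inr ⟨ℓ, Fact.out, hℓS⟩)))) =
        θA (X (Sum.inr ⟨ℓ, Fact.out, hℓS⟩)) from rfl, ← hφ, opC_inr]
  obtain ⟨et, hsq, hbad, hneg1⟩ := T.exists_sqrt_char (l.charD θ)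
  obtain ⟨f, M, g, hg, hdvd, hf, hf1, hcoef, hrec⟩ := Hecke.exists_newform_two hL hneg
    (fun v hv h => T.mem_S_of_dvd_level hv h) hsq hbad (fun ℓ => T.emb (θ (l.hk ℓ))) hφpar hφ0
    hdia hT
  have := neZero_twistLevel (χ := et)
  have : NeZero M :=
    ⟨fun h => NeZero.ne (twistLevel et) (Nat.eq_zero_of_zero_dvd (h ▸ hdvd))⟩
  have : Module.Finite ℤ (FullHecke M) := IntegralStructure.heckeAlgebra_finite M 2 ∅
  obtain ⟨R, i1, i2, i3, i4, i5, i6, i7, i8, i9, j, θ', -, hjinj, hcomm, hθ'⟩ :=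
    GaloisReps.exists_coeffExt O (T.emb.symm.toRingHom.comp (ConductorLevel.eigenChar hg.1 ∅))
  have hpR : ((2 : ℕ) : R) ∈ maximalIdeal R := by
    rw [← map_natCast (algebraMap O R) 2]
    exact map_nonunit (algebraMap O R) _ T.natCast_two_mem
  obtain ⟨ι⟩ := GaloisReps.exists_padicHom R hpR
  exact ⟨{
    M := M
    g := g
    isNewform := hg
    et := et
    sq := hsq
    bad := hbad
    neg := hneg1
    dvd := hdvd
    f := f
    isChi := hf
    f_one := hf1
    f_coeff := fun ℓ hℓ hℓS => (hcoef ℓ hℓ hℓS).1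
    g_coeff := fun ℓ hℓ hℓS => (hcoef ℓ hℓ hℓS).2
    f_rec := hrec
    R := R
    j := j
    j_injective := hjinj
    j_algebraMap := hcomm
    two_memR := hpR
    ι := ι
    θ' := θ'
    emb_θ' := fun t => by
      rw [← RingHom.comp_apply j θ', hθ']
      exact T.emb.apply_symm_apply _ }⟩

namespace Pt

variable {l} {θ : l.A →ₐ[O] CBar O} (P : Pt l θ)

theorem dvd_sq : P.M ∣ T.level ^ 2 := P.dvd.trans twistLevel_dvd_sq

theorem et_pow : ∀ u : (ZMod T.level)ˣ, P.et u ^ 2 ^ (T.n + 1) = 1 := fun u => by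
  have h1 : P.et (u : ZMod T.level) ^ 2 * (l.chi θ u : ℂ) = 1 := by
    rw [← toDir_coe (l.chi θ) u, ← MulChar.pow_apply_coe, ← MulChar.mul_apply, P.sq,
      MulChar.one_apply_coe]
  have h2 : (l.chi θ u : ℂ) ^ 2 ^ T.n = 1 := by
    show ((l.charD θ (T.psi u) : ℂˣ) : ℂ) ^ 2 ^ T.n = 1
    rw [← Units.val_pow_eq_pow_val, ← map_pow, show T.psi u ^ 2 ^ T.n = 1 from
      Multiplicative.toAdd.injective (funext fun i => by
        rw [toAdd_pow, Pi.smul_apply, nsmul_eq_mul, ZMod.natCast_self, zero_mul]; rfl),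
      map_one, Units.val_one]
  have h3 := congrArg (· ^ 2 ^ T.n) h1
  simp only [mul_pow, h2, mul_one, one_pow, ← pow_mul] at h3
  rwa [← pow_succ'] at h3

/-- The twisting character of Galois. -/
def tw : GQ →* (CBar O)ˣ :=
  ((Units.map T.emb.symm.toRingHom.toMonoidHom).comp
    (P.et.toUnitHom.comp (cyclotomicHom T.level)))⁻¹

theorem coe_tw (σ : GQ) :
    ((P.tw σ : (CBar O)ˣ) : CBar O) =
      (T.emb.symm (P.et (cyclotomicHom T.level σ : ZMod T.level)))⁻¹ := by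
  simp [tw, Units.val_inv_eq_inv_val]

theorem emb_tw (σ : GQ) :
    T.emb (P.tw σ : CBar O) = (P.et (cyclotomicHom T.level σ : ZMod T.level))⁻¹ := by
  rw [coe_tw, map_inv₀, T.emb.apply_symm_apply]

/-- The representation of the newform. -/
def rep₀ : GQ →* Matrix (Fin 2) (Fin 2) (CBar O) :=
  ((P.j.mapMatrix (m := Fin 2)).toMonoidHom).comp
    ((LinearMap.toMatrixAlgEquiv ((model2 P.M).eigenBasis P.θ')).toMonoidHom.comp
      ((model2 P.M).eigenAction P.ι P.θ'))

/-- The representation of the point. -/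
def rep : GQ →* M2 (CBar O) where
  toFun σ := (P.tw σ : CBar O) • P.rep₀ σ
  map_one' := by rw [map_one, map_one, Units.val_one, one_smul]
  map_mul' σ τ := by
    rw [map_mul, map_mul, Units.val_mul, smul_mul_smul_comm]

theorem rep_apply (σ : GQ) : P.rep σ = (P.tw σ : CBar O) • P.rep₀ σ := rfl

theorem trace_rep₀ (σ : GQ) : (P.rep₀ σ).trace =
    P.j (LinearMap.trace P.R _ ((model2 P.M).eigenAction P.ι P.θ' σ)) := by
  rw [LinearMap.trace_eq_matrix_trace P.R ((model2 P.M).eigenBasis P.θ'),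
    AddMonoidHom.map_trace P.j]
  rfl

theorem det_rep₀ (σ : GQ) : (P.rep₀ σ).det =
    P.j (LinearMap.det ((model2 P.M).eigenAction P.ι P.θ' σ)) := by
  rw [← LinearMap.det_toMatrix ((model2 P.M).eigenBasis P.θ'), RingHom.map_det]
  rfl

theorem trace_rep (σ : GQ) : (P.rep σ).trace = (P.tw σ : CBar O) * (P.rep₀ σ).trace := by
  rw [rep_apply, Matrix.trace_smul, smul_eq_mul]

theorem det_rep (σ : GQ) : (P.rep σ).det = (P.tw σ : CBar O) ^ 2 * (P.rep₀ σ).det := by
  rw [rep_apply, Matrix.det_smul, Fintype.card_fin]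

theorem tw_sq (σ : GQ) :
    (P.tw σ : CBar O) ^ 2 = θ (l.dia (T.psi (cyclotomicHom T.level σ))) := by
  refine T.emb.injective ?_
  rw [map_pow, emb_tw, ← Loc.chi_apply, inv_pow]
  refine inv_eq_of_mul_eq_one_right ?_
  rw [← toDir_coe (l.chi θ), ← MulChar.pow_apply_coe, ← MulChar.mul_apply, P.sq,
    MulChar.one_apply_coe]

/-- The eigenvalue of the newform at a good prime. -/
theorem j_heckeOp {ℓ : ℕ} (hℓ : ℓ.Prime) (hℓS : ℓ ∉ T.S) :
    T.emb (P.j (P.θ' (HeckeDuality.heckeOp P.M 2 ℓ hℓ))) = qCoeff P.g ℓ := by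
  have hℓM : ¬ ℓ ∣ P.M := fun h =>
    hℓS (T.mem_S_of_dvd_level hℓ (hℓ.dvd_of_dvd_pow (h.trans P.dvd_sq)))
  rw [P.emb_θ', HeckeDuality.heckeOp, dif_neg hℓM, ConductorLevel.eigenChar_T P.isNewform.1 hℓ hℓM]

theorem not_dvd_mul_two {ℓ : ℕ} (hℓ : ℓ.Prime) (hℓS : ℓ ∉ T.S) : ¬ ℓ ∣ P.M * 2 := fun h =>
  (hℓ.dvd_mul.1 h).elim
    (fun h => hℓS (T.mem_S_of_dvd_level hℓ (hℓ.dvd_of_dvd_pow (h.trans P.dvd_sq))))
    (fun h => hℓS (by rw [(Nat.prime_dvd_prime_iff_eq hℓ Nat.prime_two).1 h]; exact T.two_mem_S))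

/-- Traces and determinants of Frobenius on the eigen-lattice of the newform. -/
theorem eigen_frobenius {ℓ : ℕ} (hℓ : ℓ.Prime) (hℓS : ℓ ∉ T.S) {A : ValuationSubring QBar}
    (hA : A.LiesOverPrime ℓ) {σ : GQ} (hσ : A.IsFrobeniusAt σ ℓ) :
    LinearMap.trace P.R _ ((model2 P.M).eigenAction P.ι P.θ' σ) =
        P.θ' (HeckeDuality.heckeOp P.M 2 ℓ hℓ) ∧
      LinearMap.det ((model2 P.M).eigenAction P.ι P.θ' σ) = (ℓ : P.R) :=
  ConductorLevel.trace_det_of_charpoly ((model2 P.M).finrank_eigenspace_domain P.θ')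
    ((model2 P.M).charpoly_eigenAction_frobenius P.ι P.θ' GaloisReps.frobeniusDensity
      P.two_memR hℓ (P.not_dvd_mul_two hℓ hℓS) hA hσ)

/-- **Traces and determinants of Frobenius.** -/
theorem frobenius {ℓ : ℕ} (hℓ : ℓ.Prime) (hℓS : ℓ ∉ T.S) {A : ValuationSubring QBar}
    (hA : A.LiesOverPrime ℓ) {σ : GQ} (hσ : A.IsFrobeniusAt σ ℓ) :
    (P.rep σ).trace = θ (l.hk ℓ) ∧
      (P.rep σ).det = θ ((ℓ : l.A) * l.dia (T.psi (cyclotomicHom T.level σ))) := by
  have hℓL : ¬ ℓ ∣ T.level := fun h => hℓS (T.mem_S_of_dvd_level hℓ h)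
  obtain ⟨htr, hdet⟩ := P.eigen_frobenius hℓ hℓS hA hσ
  refine ⟨T.emb.injective ?_, ?_⟩
  · rw [trace_rep, trace_rep₀, htr, map_mul, emb_tw, P.j_heckeOp hℓ hℓS, P.g_coeff ℓ hℓ hℓS,
      cyclotomicHom_frobenius hA hℓ hσ hℓL, ← mul_assoc, inv_mul_cancel₀, one_mul]
    exact (((ZMod.isUnit_iff_coprime _ _).2 (hℓ.coprime_iff_not_dvd.2 hℓL)).map P.et).ne_zero
  · rw [det_rep, det_rep₀, hdet, map_natCast, tw_sq, map_mul, map_natCast, mul_comm]

theorem rep₀_eq_one {σ : GQ} (h : (model2 P.M).gal σ = 1) : P.rep₀ σ = 1 := by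
  have h1 : (model2 P.M).eigenAction P.ι P.θ' σ = 1 := by
    refine LinearMap.ext fun v => Subtype.ext ?_
    rw [GaloisReps.HeckeGaloisModel.coe_eigenAction, h,
      Matrix.map_one P.ι (map_zero P.ι) (map_one P.ι), Matrix.one_mulVec, Module.End.one_apply]
  show P.j.mapMatrix (LinearMap.toMatrixAlgEquiv _ ((model2 P.M).eigenAction P.ι P.θ' σ)) = 1
  rw [h1, map_one, map_one]

theorem tw_eq_one_of_cyclo {σ : GQ} (h : cyclotomicHom T.level σ = 1) : P.tw σ = 1 := by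
  refine Units.ext (T.emb.injective ?_)
  rw [emb_tw, h, Units.val_one, map_one, inv_one, Units.val_one, map_one]

/-- Unramified outside twice the level. -/
theorem unramified {v : ℕ} (hv : v.Prime) (h : ¬ v ∣ 2 * T.level) {A : ValuationSubring QBar}
    (hA : A.LiesOverPrime v) {σ : GQ} (hσ : σ ∈ A.inertiaSubgroupIn ℚ) : P.rep σ = 1 := by
  rw [rep_apply, P.tw_eq_one_of_cyclo (cyclotomicHom_inertia hA hv hσ
      fun h' => h (dvd_mul_of_dvd_right h' 2)), Units.val_one, one_smul]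
  refine P.rep₀_eq_one ((model2 P.M).gal_unramified v hv (fun h' => h ?_) A hA σ hσ)
  rcases hv.dvd_mul.1 h' with h' | h'
  · exact dvd_mul_of_dvd_right (hv.dvd_of_dvd_pow (h'.trans P.dvd_sq)) 2
  · exact dvd_mul_of_dvd_left h' _

end Pt

end TwoSetup

end Fermat.Agent.RT.Two

end
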