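import Fermat.Agent.Arith.Chebotarev.Main
import Fermat.Agent.RT.Glue.Transfer
import Fermat.Agent.RT.Glue.Twist
import Fermat.Agent.RT.Glue.Inertia
import Fermat.Agent.RT.InertiaTW.Main
import Fermat.Agent.RT.Two.Hecke.Point2

/-!
# Inertia at the primes of the level, residual characteristic two

The representation of the newform at a point has the residual traces of the given representation;
at a prime of the level the representation of the point has trace one plus the diamond of the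
cyclotomic character on inertia.
-/

set_option autoImplicit false
set_option linter.unusedSectionVars false

noncomputable section

open CongruenceSubgroup UpperHalfPlane ModularFormClass
open scoped MatrixGroups ModularForm

namespace Fermat.Agent.RT.Two

open IsLocalRing Fermat.Agent.Arith Fermat.Agent.Deform
open Fermat.Agent.RT.GammaH
open Fermat.Agent.RT.Glue (awaySeq mul_awaySeq awaySeq_mul)

variable {O : Type} [CommRing O] [IsDomain O] [IsDiscreteValuationRing O]
  [IsAdicComplete (maximalIdeal O) O] [Finite (ResidueField O)] [CharZero O]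
  [Algebra (ZMod 2) (ResidueField O)] {N r : ℕ}

namespace TwoSetup

variable {T : TwoSetup O N r} {l : T.Loc}

theorem Loc.hk_sub_mem {ℓ : ℕ} (hℓ : ℓ.Prime) (hℓS : ℓ ∉ T.S) :
    l.hk ℓ - (T.aE ℓ : l.A) ∈ maximalIdeal l.A := by
  rw [l.hk_eq ⟨hℓ, hℓS⟩, ← map_intCast l.toA, ← map_sub, l.toA_mem_maximalIdeal, mem_resIdeal,
    map_sub, opRes_inr, map_intCast, sub_self]

/-- A power of the maximal ideal of the algebra consists of multiples of two. -/
theorem Loc.exists_pow_two_dvd {x : l.A} (hx : x ∈ maximalIdeal l.A) :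
    ∃ (k : ℕ) (y : l.A), x ^ k = 2 * y := by
  obtain ⟨a, rfl⟩ := l.toA_surjective x
  obtain ⟨k, hk⟩ := l.exists_pow_mem (l.toA_mem_maximalIdeal.1 hx)
  obtain ⟨ϖ, hϖ⟩ := IsDiscreteValuationRing.exists_irreducible O
  obtain ⟨e, u, he⟩ := IsDiscreteValuationRing.eq_unit_mul_pow_irreducible
    (show (2 : O) ≠ 0 from two_ne_zero) hϖ
  rw [hϖ.maximalIdeal_eq, Ideal.map_span, Set.image_singleton, Ideal.mem_span_singleton] at hk
  obtain ⟨z, hz⟩ := hk
  refine ⟨k * e, algebraMap O l.A ↑u⁻¹ * z ^ e, ?_⟩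
  rw [pow_mul, hz, mul_pow, ← map_pow, ← mul_assoc, ← map_ofNat (algebraMap O l.A) 2, ← map_mul]
  congr 2
  rw [he, mul_comm (↑u : O), mul_assoc, Units.mul_inv, mul_one]

theorem Loc.isIntegral_point (θ : l.A →ₐ[O] CBar O) (x : l.A) : IsIntegral O (θ x) :=
  (IsIntegral.of_finite O x).map θ

namespace Pt

variable {θ : l.A →ₐ[O] CBar O} (P : Pt l θ)

theorem isIntegral_j (x : P.R) : IsIntegral O (P.j x) :=
  (IsIntegral.of_finite O x).map
    (({ P.j with commutes' := fun c => RingHom.congr_fun P.j_algebraMap c } : P.R →ₐ[O] CBar O))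

/-- Values of the maximal ideal at a point lie in the maximal ideal. -/
theorem mem_maximal {x : l.A} (hx : x ∈ maximalIdeal l.A) {a : P.R} (ha : θ x = P.j a) :
    a ∈ maximalIdeal P.R := by
  by_contra h
  obtain ⟨b, hb⟩ := (not_not.1 h : IsUnit a).exists_right_inv
  obtain ⟨k, y, hy⟩ := Loc.exists_pow_two_dvd hx
  refine one_ne_zero (α := CBar O) (Glue.eq_zero_of_forall_integral T.natCast_two_mem fun M => ?_)
  refine ⟨(θ y * P.j (b ^ k)) ^ M, ((Loc.isIntegral_point θ y).mul (P.isIntegral_j _)).pow M, ?_⟩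
  rw [← mul_pow, ← mul_assoc, Nat.cast_ofNat, ← map_ofNat θ 2, ← map_mul, ← hy, map_pow, ha,
    ← map_pow P.j, ← map_mul, ← mul_pow, hb, one_pow, map_one, one_pow]

/-- The adic representation of the newform. -/
abbrev adic : GaloisRepAdic P.R := (model2 P.M).rep P.ι P.θ' P.two_memR

theorem j_trace_adic (σ : GQ) : P.j (P.adic.trace σ) = (P.rep₀ σ).trace := (P.trace_rep₀ σ).symm

theorem adic_frobenius {ℓ : ℕ} (hℓ : ℓ.Prime) (hℓS : ℓ ∉ T.S) {A : ValuationSubring QBar}
    (hA : A.LiesOverPrime ℓ) {σ : GQ} (hσ : A.IsFrobeniusAt σ ℓ) :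
    P.adic.trace σ = P.θ' (HeckeDuality.heckeOp P.M 2 ℓ hℓ) ∧
      LinearMap.det (P.adic.ρ σ) = (ℓ : P.R) :=
  P.eigen_frobenius hℓ hℓS hA hσ

theorem theta_sub_mem {ℓ : ℕ} (hℓ : ℓ.Prime) (hℓS : ℓ ∉ T.S) :
    P.θ' (HeckeDuality.heckeOp P.M 2 ℓ hℓ) - (T.aE ℓ : P.R) ∈ maximalIdeal P.R := by
  set m := 2 ^ (T.n + 1)
  set a := P.θ' (HeckeDuality.heckeOp P.M 2 ℓ hℓ)
  have hℓL : ¬ ℓ ∣ T.level := fun h => hℓS (T.mem_S_of_dvd_level hℓ h)
  have h1 : P.j (a ^ m) = θ (l.hk ℓ ^ m) := by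
    refine T.emb.injective ?_
    rw [map_pow, map_pow, map_pow, map_pow, P.j_heckeOp hℓ hℓS, P.g_coeff ℓ hℓ hℓS, mul_pow,
      ← ZMod.coe_unitOfCoprime ℓ (hℓ.coprime_iff_not_dvd.2 hℓL), P.et_pow, one_mul]
  have h2 : a ^ m - (T.aE ℓ : P.R) ^ m ∈ maximalIdeal P.R := by
    refine P.mem_maximal (x := l.hk ℓ ^ m - (T.aE ℓ : l.A) ^ m) ?_ ?_
    · obtain ⟨c, hc⟩ := sub_dvd_pow_sub_pow (l.hk ℓ) (T.aE ℓ : l.A) m
      rw [hc]
      exact Ideal.mul_mem_right _ _ (Loc.hk_sub_mem hℓ hℓS)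
    · rw [map_sub, map_sub, h1, map_pow θ (T.aE ℓ : l.A), map_intCast θ, map_pow P.j (T.aE ℓ : P.R),
        map_intCast P.j]
  rw [← residue_eq_zero_iff, map_sub, map_pow, map_pow] at h2
  have : CharP (ResidueField P.R) 2 := by
    refine (CharP.charP_iff_prime_eq_zero Nat.prime_two).2 ?_
    rw [← map_natCast (residue P.R), residue_eq_zero_iff]
    exact P.two_memR
  rw [← sub_pow_char_pow (p := 2)] at h2
  rw [← residue_eq_zero_iff, map_sub]
  exact pow_eq_zero_iff (by positivity) |>.1 h2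

/-- **The residual traces.** -/
theorem residue_trace (σ : GQ) : residue P.R (P.adic.trace σ) =
    ((T.r₂ σ).trace.val : ResidueField P.R) := by
  have : CharP (ResidueField P.R) 2 := by
    refine (CharP.charP_iff_prime_eq_zero Nat.prime_two).2 ?_
    rw [← map_natCast (residue P.R), residue_eq_zero_iff]
    exact P.two_memR
  let c := ZMod.castHom (dvd_refl 2) (ResidueField P.R)
  have hc : ∀ z : ZMod 2, ((z.val : ℕ) : ResidueField P.R) = c z := fun z => by
    rw [← map_natCast c, ZMod.natCast_zmod_val]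
  let b := Module.finBasisOfFinrankEq P.R P.adic.V P.adic.finrank_eq
  let ρb : GQ →* M2 (ResidueField P.R) := mapM (residue P.R) (matOf P.adic b)
  obtain ⟨L₁, hL₁, h1⟩ := isCont_matOf P.adic b 1
  obtain ⟨L₂, hL₂, h2⟩ := T.r₂_finite
  have htr : ∀ g, (ρb g).trace = residue P.R (P.adic.trace g) := fun g => by
    show ((matOf P.adic b g).map (residue P.R)).trace = _
    rw [show P.adic.trace g = (matOf P.adic b g).trace from
      LinearMap.trace_eq_matrix_trace P.R b _, AddMonoidHom.map_trace (residue P.R)]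
  obtain ⟨ℓ, hℓ, hℓS, A, hA, s, hs, he⟩ :=
    Arith.Chebotarev.exists_frobenius_eq (ρb.prod T.r₂) (L₁ ⊔ L₂) (fun g hg => by
      refine Prod.ext (Matrix.ext fun i j => ?_) (h2 g fun z hz => hg z (le_sup_right (a := L₁) hz))
      have := h1 g (fun z hz => hg z (le_sup_left (b := L₂) hz)) i j
      rw [pow_one, ← residue_eq_zero_iff, map_sub, sub_eq_zero] at this
      show residue P.R (matOf P.adic b g i j) = _
      rw [this, Matrix.one_apply, Prod.fst_one, Matrix.one_apply]
      split_ifs <;> simp) σ T.S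
  have he1 := congrArg (fun x => (Prod.fst x).trace) he
  have he2 := congrArg (fun x => (Prod.snd x).trace) he
  simp only [MonoidHom.prod_apply] at he1 he2
  rw [hc, ← htr, ← he1, ← he2, htr, (P.adic_frobenius hℓ hℓS hA hs).1,
    (T.r₂_frobenius ℓ hℓ hℓS A hA s hs).1, map_intCast, ← map_intCast (residue P.R), ← sub_eq_zero,
    ← map_sub, residue_eq_zero_iff]
  exact P.theta_sub_mem hℓ hℓS

theorem isAbsolutelyIrreducible_adic : P.adic.residual.IsAbsolutelyIrreducible := by
  refine Glue.isAbsolutelyIrreducible_of_trace_commutator _ ?_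
  have hex : ∃ k g h : GQ, (T.r₂ (k * g * h)).trace ≠ (T.r₂ (g * k * h)).trace := by
    by_contra hall
    push Not at hall
    have hm : ∀ k g h, (T.r₂ k * T.r₂ g * T.r₂ h).trace = (T.r₂ g * T.r₂ k * T.r₂ h).trace :=
      fun k g h => by simpa only [map_mul] using hall k g h
    have hmem : ∀ X, X ∈ Submodule.span (ZMod 2) (Set.range T.r₂) := fun X => by
      rw [T.r₂_span]; trivial
    have h1 : ∀ k g (Z : Matrix (Fin 2) (Fin 2) (ZMod 2)), (T.r₂ k * T.r₂ g * Z).trace = (T.r₂ g * T.r₂ k * Z).trace := fun k g Z => by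
      induction hmem Z using Submodule.span_induction with
      | mem Z hZ => obtain ⟨h, rfl⟩ := hZ; exact hm k g h
      | zero => simp
      | add x y _ _ hx hy => rw [mul_add, mul_add, Matrix.trace_add, Matrix.trace_add, hx, hy]
      | smul c x _ hx => rw [mul_smul_comm, mul_smul_comm, Matrix.trace_smul, Matrix.trace_smul, hx]
    have h2 : ∀ k (Y Z : Matrix (Fin 2) (Fin 2) (ZMod 2)), (T.r₂ k * Y * Z).trace = (Y * T.r₂ k * Z).trace := fun k Y Z => by
      induction hmem Y using Submodule.span_induction with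
      | mem Y hY => obtain ⟨g, rfl⟩ := hY; exact h1 k g Z
      | zero => simp
      | add x y _ _ hx hy =>
        rw [mul_add, add_mul, add_mul, add_mul, Matrix.trace_add, Matrix.trace_add, hx, hy]
      | smul c x _ hx => simp only [mul_smul_comm, smul_mul_assoc, Matrix.trace_smul, hx]
    have h3 : ∀ X Y Z : Matrix (Fin 2) (Fin 2) (ZMod 2), (X * Y * Z).trace = (Y * X * Z).trace := fun X Y Z => by
      induction hmem X using Submodule.span_induction with
      | mem X hX => obtain ⟨k, rfl⟩ := hX; exact h2 k Y Z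
      | zero => simp
      | add x y _ _ hx hy =>
        rw [mul_add, add_mul, add_mul, add_mul, Matrix.trace_add, Matrix.trace_add, hx, hy]
      | smul c x _ hx => simp only [mul_smul_comm, smul_mul_assoc, Matrix.trace_smul, hx]
    have := h3 (Matrix.single 0 1 1) (Matrix.single 1 0 1) (Matrix.single 0 0 1)
    simp [Matrix.trace_single_eq_same] at this
  obtain ⟨k, g, h, hne⟩ := hex
  refine ⟨k, g, h, (residue_ne_zero_iff_isUnit _).1 fun h0 => hne ?_⟩
  rw [map_sub, sub_eq_zero] at h0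
  replace h0 : ((T.r₂ (k * g * h)).trace.val : ResidueField P.R) =
      ((T.r₂ (g * k * h)).trace.val : ResidueField P.R) := by
    rw [← P.residue_trace, ← P.residue_trace]; exact h0
  have : CharP (ResidueField P.R) 2 := by
    refine (CharP.charP_iff_prime_eq_zero Nat.prime_two).2 ?_
    rw [← map_natCast (residue P.R), residue_eq_zero_iff]
    exact P.two_memR
  refine (ZMod.castHom (dvd_refl 2) (ResidueField P.R)).injective ?_
  rw [← ZMod.natCast_zmod_val (T.r₂ (k * g * h)).trace, ← ZMod.natCast_zmod_val (T.r₂ (g * k * h)).trace,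
    map_natCast, map_natCast]
  exact h0

theorem det_rep₀_inertia {v : ℕ} (hv : v.Prime) (hv2 : v ≠ 2) {A : ValuationSubring QBar}
    (hA : A.LiesOverPrime v) {σ : GQ} (hσ : σ ∈ A.inertiaSubgroupIn ℚ) :
    LinearMap.det ((model2 P.M).eigenAction P.ι P.θ' σ) = 1 := by
  rw [(model2 P.M).det_eigenAction_of_roots P.ι P.θ' P.two_memR (q := 1) (fun n ζ hζ => by
      rw [pow_one]
      exact Arith.inertia_root hA hv hσ hζ fun h =>
        hv2 ((Nat.prime_dvd_prime_iff_eq hv Nat.prime_two).1 (hv.dvd_of_dvd_pow h))),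
    Nat.cast_one]

/-- Inertia is unipotent for the newform at a prime dividing the level once. -/
theorem trace_rep₀_unipotent {v : ℕ} (hv : v.Prime) (hv2 : v ≠ 2) (hsq : ¬ v ^ 2 ∣ P.M)
    {A : ValuationSubring QBar} (hA : A.LiesOverPrime v) {σ : GQ}
    (hσ : σ ∈ A.inertiaSubgroupIn ℚ) : (P.rep₀ σ).trace = 2 := by
  by_cases h : v ∣ P.M
  · exact (Glue.trace_det_eigenMatrix_unipotent (model2 P.M) P.ι P.θ' P.j
      (unipotentAt_model2 P.M hv hv2 h hsq) hA hσ).1
  · rw [P.rep₀_eq_one ((model2 P.M).gal_unramified v hv (fun h' => (hv.dvd_mul.1 h').elim h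
      fun h'' => hv2 ((Nat.prime_dvd_prime_iff_eq hv Nat.prime_two).1 h'')) A hA σ hσ),
      Matrix.trace_one]
    simp

theorem residue_trace_inertia {v : ℕ} (hv : v.Prime) (hvN : ¬ v ∣ 2 * N)
    {A : ValuationSubring QBar} (hA : A.LiesOverPrime v) {σ : GQ}
    (hσ : σ ∈ A.inertiaSubgroupIn ℚ) : P.adic.trace σ - 2 ∈ maximalIdeal P.R := by
  have : CharP (ResidueField P.R) 2 := by
    refine (CharP.charP_iff_prime_eq_zero Nat.prime_two).2 ?_
    rw [← map_natCast (residue P.R), residue_eq_zero_iff]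
    exact P.two_memR
  rw [← residue_eq_zero_iff, map_sub, P.residue_trace, T.r₂_unramified v hv hvN A hA σ hσ,
    show (1 : Matrix (Fin 2) (Fin 2) (ZMod 2)).trace = 0 from by
      rw [Matrix.trace_one, Fintype.card_fin]; rfl, ZMod.val_zero, map_ofNat, Nat.cast_zero,
    CharTwo.two_eq_zero, sub_zero]

theorem not_sq_dvd {v : ℕ} (hv : v.Prime) (hvbad : v ∉ badPrimes P.et) : ¬ v ^ 2 ∣ P.M := fun h => by
  have h1 : v * v ∣ T.level * ∏ w ∈ badPrimes P.et, w := by
    rw [← pow_two]; exact h.trans P.dvd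
  have hcop : v.Coprime (∏ w ∈ badPrimes P.et, w) := hv.coprime_iff_not_dvd.2 fun hd => by
    obtain ⟨w, hw, hvw⟩ := hv.prime.exists_mem_finset_dvd hd
    exact hvbad ((Nat.prime_dvd_prime_iff_eq hv (mem_badPrimes.1 hw).1).1 hvw ▸ hw)
  exact hv.not_isUnit (T.squarefree_level v
    ((Nat.Coprime.mul_left hcop hcop).dvd_of_dvd_mul_right h1))

theorem mem_badPrimes_q {v : ℕ} (hv : v ∈ badPrimes (toDir (l.chi θ))) : ∃ i, v = T.q i := by
  obtain ⟨hp, hvL, u, hu, hne⟩ := mem_badPrimes.1 hv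
  by_contra hq
  push Not at hq
  refine hne ?_
  rw [toDir_coe, Loc.chi, MonoidHom.comp_apply, TwoSetup.psi, MonoidHom.comp_apply,
    T.psiRoot_eq_one hvL hp hq hu, map_one, map_one, Units.val_one]

theorem et_sq_mul (u : (ZMod T.level)ˣ) :
    P.et (u : ZMod T.level) ^ 2 * T.emb (θ (l.dia (T.psi u))) = 1 := by
  rw [← Loc.chi_apply, ← toDir_coe (l.chi θ) u, ← MulChar.pow_apply_coe, ← MulChar.mul_apply, P.sq,
    MulChar.one_apply_coe]

/-- **Inertia at a prime of the level.** -/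
theorem trace_inertia {v : ℕ} (hv : v.Prime) (hvL : v ∣ T.level) (hv2 : v ≠ 2)
    {A : ValuationSubring QBar} (hA : A.LiesOverPrime v) {σ : GQ}
    (hσ : σ ∈ A.inertiaSubgroupIn ℚ) :
    (P.rep σ).trace = 1 + θ (l.dia (T.psi (cyclotomicHom T.level σ))) := by
  set u := cyclotomicHom T.level σ with hu_def
  have : Fact v.Prime := ⟨hv⟩
  have hvR : ¬ v ∣ T.level / v := coprime_div_of_squarefree T.squarefree_level hv hvL
  have hu1 : ((u : ZMod T.level).cast : ZMod (T.level / v)) = 1 := by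
    have : NeZero (T.level / v) := ⟨fun h => hvR (h ▸ dvd_zero v)⟩
    rw [← unitsMap_eq_one_iff (Nat.div_dvd_of_dvd hvL), hu_def, unitsMap_cyclotomicHom]
    exact cyclotomicHom_inertia hA hv hσ hvR
  refine T.emb.injective ?_
  rw [P.trace_rep, map_mul, P.emb_tw, map_add, map_one, ← hu_def]
  have hsq := P.et_sq_mul u
  have het0 : P.et (u : ZMod T.level) ≠ 0 := fun h => by simp [h] at hsq
  by_cases hbad : v ∈ badPrimes P.et
  · obtain ⟨i, rfl⟩ := mem_badPrimes_q (l := l) (θ := θ) (P.bad hbad)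
    set w := cyclotomicHom (T.q i) σ with hw_def
    have hw : ((u : ZMod T.level).cast : ZMod (T.q i)) = (w : ZMod (T.q i)) := by
      rw [hw_def, ← unitsMap_cyclotomicHom hvL, ZMod.unitsMap_val]
    have hspec := etaComp_spec (χ := P.et) (e := 1) T.squarefree_level hv hvL u
      ((unitsMap_eq_one_iff _ u).2 hu1)
    rw [pow_one, hw] at hspec
    set eta := etaComp P.et 1 (T.q i)
    have heta1 : eta ≠ 1 := etaComp_ne_one T.squarefree_level P.sq (P.bad hbad)
    have heta2 : eta ^ 2 ≠ 1 := fun h1 => by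
      obtain ⟨-, -, x, hx, hne⟩ := mem_badPrimes.1 (P.bad hbad)
      have h2 := etaComp_spec (χ := P.et) (e := 1) T.squarefree_level hv hvL x
        ((unitsMap_eq_one_iff _ x).2 hx)
      rw [pow_one] at h2
      have h3 := P.et_sq_mul x
      have hxu : IsUnit ((x : ZMod T.level).cast : ZMod (T.q i)) :=
        x.isUnit.map (ZMod.castHom hvL (ZMod (T.q i)))
      rw [← h2, ← MulChar.pow_apply' _ two_ne_zero, h1, MulChar.one_apply hxu, one_mul,
        ← Loc.chi_apply] at h3
      rw [toDir_coe] at hne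
      exact hne h3
    have h4 : 4 ∣ T.q i - 1 := (show 4 = 2 ^ 2 by norm_num) ▸ T.pow_dvd_sub_one i (by omega)
    set R := (T.level / T.q i) ^ 2
    have : NeZero R := ⟨pow_ne_zero _ fun h => hvR (h ▸ dvd_zero _)⟩
    have : NeZero (T.q i ^ 2 * R) := ⟨mul_ne_zero (pow_ne_zero 2 hv.ne_zero) (NeZero.ne R)⟩
    have hlev : T.q i ^ 2 * R = T.level ^ 2 := by rw [← mul_pow, Nat.mul_div_cancel' hvL]
    obtain ⟨F, hF0, hF, hFa, hFrec⟩ := Glue.exists_partial_twist (e := 1) T.squarefree_level P.sq P.bad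
      hbad (isNeb_of_isChiForm P.isChi) (hasCoeff_formH P.f) P.f_one
      (fun q hq h => T.mem_S_of_dvd_level hq h) P.f_rec
    have hN : ¬ T.q i ∣ 2 * N := fun h => (hv.dvd_mul.1 h).elim
      (fun h => hv2 ((Nat.prime_dvd_prime_iff_eq hv Nat.prime_two).1 h)) (T.q_not_dvd i)
    have key := InertiaTW.traceInertiaFor (R := R) (g := P.g) (fun h => hv2 h.symm)
      (fun h => hvR (hv.dvd_of_dvd_pow h)) (GaloisReps.congruenceProperty _ 2)
      ((show 2 ∣ 4 by norm_num).trans h4) (by omega) heta1 (P.neg _ hbad) heta2 F _ hF hFa hF0 T.S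
      (fun q hq h => ?_) (fun ℓ hℓ hℓS n => ?_) P.R P.two_memR
      (T.emb.toRingHom.comp P.j) (T.emb.injective.comp P.j_injective) P.adic
      P.isAbsolutelyIrreducible_adic (fun ℓ hℓ hℓS A' hA' τ hτ => ?_) A hA
      (fun τ hτ => ⟨P.det_rep₀_inertia hv hv2 hA hτ, P.residue_trace_inertia hv hN hA hτ⟩)
      σ hσ w (fun μ hμ => cyclotomicHom_spec σ hμ)
    · rw [RingHom.comp_apply, P.j_trace_adic] at key
      have hinv : eta⁻¹ (w : ZMod (T.q i)) = (P.et (u : ZMod T.level))⁻¹ := by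
        rw [MulChar.inv_apply_eq_inv', hspec]
      rw [hinv, hspec] at key
      change (P.et (u : ZMod T.level))⁻¹ * T.emb (P.rep₀ σ).trace = _
      rw [show T.emb (P.rep₀ σ).trace = _ from key]
      field_simp
      linear_combination -hsq
    · refine T.mem_S q hq ?_
      rcases hq.dvd_mul.1 h with h | h
      · refine dvd_mul_of_dvd_right (hq.dvd_of_dvd_pow (n := 2) (h.trans ?_)) 6
        exact ⟨T.q i, by rw [mul_right_comm, ← pow_two, hlev]; rfl⟩
      · exact dvd_mul_of_dvd_left (h.trans (by norm_num)) _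
    · rw [hFrec ℓ hℓ hℓS n, pow_one, P.f_coeff ℓ hℓ hℓS, P.g_coeff ℓ hℓ hℓS]
    · refine ⟨?_, (P.adic_frobenius hℓ hℓS hA' hτ).2⟩
      rw [RingHom.comp_apply, (P.adic_frobenius hℓ hℓS hA' hτ).1]
      exact P.j_heckeOp hℓ hℓS
  · have h1 : P.et (u : ZMod T.level) = 1 :=
      not_not.1 fun hne => hbad (mem_badPrimes.2 ⟨hv, hvL, u, hu1, hne⟩)
    rw [h1, one_pow, one_mul] at hsq
    rw [h1, hsq, P.trace_rep₀_unipotent hv hv2 (P.not_sq_dvd hv hbad) hA hσ, map_ofNat, inv_one,
      one_mul]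
    norm_num

/-- Determinants on inertia. -/
theorem det_inertia {v : ℕ} (hv : v.Prime) (hv2 : v ≠ 2) {A : ValuationSubring QBar}
    (hA : A.LiesOverPrime v) {σ : GQ} (hσ : σ ∈ A.inertiaSubgroupIn ℚ) :
    (P.rep σ).det = θ (l.dia (T.psi (cyclotomicHom T.level σ))) := by
  rw [P.det_rep, P.det_rep₀, P.det_rep₀_inertia hv hv2 hA hσ, map_one, mul_one, P.tw_sq]

end Pt

end TwoSetup

end Fermat.Agent.RT.Two

end
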