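import Fermat.Agent.FiniteFlat.DatumFlat
import Fermat.Agent.RT.Glue.Flat
import Fermat.Agent.RT.Glue.FlatDescent
import Fermat.Agent.RT.Two.Hecke.InducedOrder
import Fermat.Agent.RT.Two.Hecke.Inertia2

/-!
# The family of representations at the points of a level, residual characteristic two
-/

set_option autoImplicit false
set_option linter.unusedSectionVars false

noncomputable section

namespace Fermat.Agent.RT.Two

open IsLocalRing Fermat.Agent.Arith Fermat.Agent.Deform
open Fermat.Agent.RT.GammaH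
open Fermat.Agent.GaloisReps (galAlg galLevel ModelLevel repAlg)
open Fermat.Agent.FiniteFlat (GalOrder)
open scoped MonoidAlgebra

namespace Hecke

theorem trace_mul_sub_mem {R : Type} [CommRing R] (I : Ideal R) {X Y : M2 R}
    (h : ∀ i j, Y i j - (1 : M2 R) i j ∈ I) :
    (X * Y).trace - X.trace ∈ I ∧ (X * Y).det - X.det ∈ I := by
  have hY : (Ideal.Quotient.mk I).mapMatrix Y = 1 := Matrix.ext fun i j => by
    rw [RingHom.mapMatrix_apply, Matrix.map_apply, (Ideal.Quotient.eq).2 (h i j), Matrix.one_apply,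
      Matrix.one_apply]
    split_ifs <;> simp
  constructor <;> rw [← Ideal.Quotient.eq_zero_iff_mem, map_sub, sub_eq_zero]
  · rw [AddMonoidHom.map_trace (Ideal.Quotient.mk I), AddMonoidHom.map_trace (Ideal.Quotient.mk I),
      ← RingHom.mapMatrix_apply, ← RingHom.mapMatrix_apply, map_mul, hY, mul_one]
  · rw [RingHom.map_det, RingHom.map_det, map_mul, hY, mul_one]

theorem exists_pow_maximal_le {R : Type} [CommRing R] [IsDomain R] [IsDiscreteValuationRing R]
    [CharZero R] (M : ℕ) : ∃ n : ℕ, maximalIdeal R ^ n ≤ Ideal.span {(2 : R) ^ M} := by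
  obtain ⟨ϖ, hϖ⟩ := IsDiscreteValuationRing.exists_irreducible R
  obtain ⟨e, u, he⟩ := IsDiscreteValuationRing.eq_unit_mul_pow_irreducible
    (show (2 : R) ≠ 0 from two_ne_zero) hϖ
  refine ⟨e * M, ?_⟩
  rw [hϖ.maximalIdeal_eq, Ideal.span_singleton_pow, Ideal.span_singleton_le_span_singleton, he,
    mul_pow, pow_mul]
  exact (IsUnit.mul_left_dvd (u.isUnit.pow M)).2 dvd_rfl

variable {U : Type} [Group U] [DecidableEq U] (c : GQ →* U)

/-- The part of a group ring element over an element of `U`. -/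
def part (u : U) : ℤ[GQ] →ₗ[ℤ] ℤ[GQ] :=
  (MonoidAlgebra.basis GQ ℤ).constr ℤ fun g => if c g = u then MonoidAlgebra.single g 1 else 0

theorem part_single (u : U) (g : GQ) (a : ℤ) :
    part c u (MonoidAlgebra.single g a) = if c g = u then MonoidAlgebra.single g a else 0 := by
  have h : MonoidAlgebra.single g a = a • MonoidAlgebra.basis GQ ℤ g := by
    rw [MonoidAlgebra.basis_apply, MonoidAlgebra.smul_single, smul_eq_mul, mul_one]
  rw [h, map_smul, part, Module.Basis.constr_basis, MonoidAlgebra.basis_apply, smul_ite, smul_zero]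

theorem part_single_mul (u : U) (σ : GQ) (y : ℤ[GQ]) :
    part c u (MonoidAlgebra.single σ 1 * y) =
      MonoidAlgebra.single σ 1 * part c ((c σ)⁻¹ * u) y := by
  induction y using MonoidAlgebra.induction_linear with
  | zero => rw [mul_zero, map_zero, map_zero, mul_zero]
  | add a b ha hb => rw [mul_add, map_add, map_add, ha, hb, mul_add]
  | single g n =>
    rw [MonoidAlgebra.single_mul_single, part_single, part_single, map_mul, one_mul]
    simp only [eq_inv_mul_iff_mul_eq]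
    split_ifs <;> simp [MonoidAlgebra.single_mul_single]

theorem map_sum_part [Fintype U] {K : Type} [CommRing K] (w : U → K) (r f : ℤ[GQ] →+ K)
    (h : ∀ g n, r (MonoidAlgebra.single g n) = w (c g) * f (MonoidAlgebra.single g n)) (y : ℤ[GQ]) :
    r y = ∑ u, w u * f (part c u y) := by
  induction y using MonoidAlgebra.induction_linear with
  | zero => simp
  | add a b ha hb =>
    rw [map_add, ha, hb, ← Finset.sum_add_distrib]
    exact Finset.sum_congr rfl fun u _ => by rw [map_add, map_add, mul_add]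
  | single g n =>
    rw [h, Finset.sum_eq_single (c g) (fun u _ hu => by
      rw [part_single, if_neg (Ne.symm hu), map_zero, mul_zero]) (fun h => absurd (Finset.mem_univ _) h),
      part_single, if_pos rfl]

end Hecke

variable {O : Type} [CommRing O] [IsDomain O] [IsDiscreteValuationRing O]
  [IsAdicComplete (maximalIdeal O) O] [Finite (ResidueField O)] [CharZero O]
  [Algebra (ZMod 2) (ResidueField O)] {N r : ℕ}

namespace TwoSetup

variable {T : TwoSetup O N r} (l : T.Loc)

/-- A basis of the elliptic lattice. -/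
def basisE (T : TwoSetup O N r) : Module.Basis (Fin 2) O T.ρE.V :=
  Module.finBasisOfFinrankEq O T.ρE.V T.ρE.finrank_eq

/-- The elliptic matrices. -/
def matE (T : TwoSetup O N r) : GQ →* M2 O := matOf T.ρE T.basisE

theorem trace_matE (σ : GQ) : (T.matE σ).trace = T.ρE.trace σ :=
  (LinearMap.trace_eq_matrix_trace O T.basisE _).symm

theorem det_matE (σ : GQ) : (T.matE σ).det = LinearMap.det (T.ρE.ρ σ) :=
  LinearMap.det_toMatrix T.basisE (T.ρE.ρ σ)

/-- The point comes from the module. -/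
def Loc.IsMod (θ : l.A →ₐ[O] CBar O) : Prop := ∀ a, l.act a = 0 → θ (l.toA a) = 0

/-- The realisation of a point of the module. -/
def Loc.pt {θ : l.A →ₐ[O] CBar O} (h : l.IsMod θ) : Pt l θ := (l.nonempty_pt h).some

theorem Loc.apply_of_not_isMod {θ : l.A →ₐ[O] CBar O} (h : ¬ l.IsMod θ) (x : l.A) :
    θ x = algebraMap O (CBar O) (l.thetaE x) :=
  ((l.point_cases θ).resolve_left h) x

open scoped Classical in
/-- The representation at a point. -/
def Loc.repAt (θ : l.A →ₐ[O] CBar O) : GQ →* M2 (CBar O) :=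
  if h : l.IsMod θ then (l.pt h).rep
  else (algebraMap O (CBar O)).mapMatrix.toMonoidHom.comp T.matE

theorem Loc.repAt_mod {θ : l.A →ₐ[O] CBar O} (h : l.IsMod θ) : l.repAt θ = (l.pt h).rep := dif_pos h

theorem Loc.repAt_E {θ : l.A →ₐ[O] CBar O} (h : ¬ l.IsMod θ) (σ : GQ) :
    l.repAt θ σ = (algebraMap O (CBar O)).mapMatrix (T.matE σ) := by
  rw [Loc.repAt, dif_neg h]; rfl

theorem Loc.trace_repAt_E {θ : l.A →ₐ[O] CBar O} (h : ¬ l.IsMod θ) (σ : GQ) :
    (l.repAt θ σ).trace = algebraMap O (CBar O) (T.ρE.trace σ) := by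
  rw [l.repAt_E h, RingHom.mapMatrix_apply, ← AddMonoidHom.map_trace (algebraMap O (CBar O)),
    trace_matE]

theorem Loc.det_repAt_E {θ : l.A →ₐ[O] CBar O} (h : ¬ l.IsMod θ) (σ : GQ) :
    (l.repAt θ σ).det = algebraMap O (CBar O) (LinearMap.det (T.ρE.ρ σ)) := by
  rw [l.repAt_E h, ← RingHom.map_det, det_matE]

/-- The prescribed determinants of Frobenius. -/
def Loc.dFrob (ℓ : ℕ) : l.A :=
  if h : ℓ.Coprime T.level then (ℓ : l.A) * l.dia (T.psi (ZMod.unitOfCoprime ℓ h)) else 0

theorem Loc.dFrob_eq {ℓ : ℕ} (hℓ : ℓ.Prime) (hℓS : ℓ ∉ T.S) {A : ValuationSubring QBar}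
    (hA : A.LiesOverPrime ℓ) {σ : GQ} (hσ : A.IsFrobeniusAt σ ℓ) :
    l.dFrob ℓ = (ℓ : l.A) * l.dia (T.psi (cyclotomicHom T.level σ)) := by
  have hℓL : ¬ ℓ ∣ T.level := fun h => hℓS (T.mem_S_of_dvd_level hℓ h)
  have hu : cyclotomicHom T.level σ = ZMod.unitOfCoprime ℓ (hℓ.coprime_iff_not_dvd.2 hℓL) :=
    Units.ext (by rw [cyclotomicHom_frobenius hA hℓ hσ hℓL, ZMod.coe_unitOfCoprime])
  rw [Loc.dFrob, dif_pos (hℓ.coprime_iff_not_dvd.2 hℓL), hu]

theorem Loc.frobenius_repAt (θ : l.A →ₐ[O] CBar O) {ℓ : ℕ} (hℓ : ℓ.Prime) (hℓS : ℓ ∉ T.S)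
    {A : ValuationSubring QBar} (hA : A.LiesOverPrime ℓ) {σ : GQ} (hσ : A.IsFrobeniusAt σ ℓ) :
    (l.repAt θ σ).trace = θ (l.hk ℓ) ∧ (l.repAt θ σ).det = θ (l.dFrob ℓ) := by
  rw [l.dFrob_eq hℓ hℓS hA hσ]
  by_cases h : l.IsMod θ
  · rw [l.repAt_mod h]
    exact (l.pt h).frobenius hℓ hℓS hA hσ
  · obtain ⟨h1, h2⟩ := T.ρE_frobenius ℓ hℓ hℓS A hA σ hσ
    rw [l.trace_repAt_E h, l.det_repAt_E h, l.apply_of_not_isMod h, l.apply_of_not_isMod h, h1, h2,
      map_mul l.thetaE, map_natCast l.thetaE, l.thetaE_dia, mul_one, l.thetaE_hk hℓ hℓS]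
    exact ⟨rfl, rfl⟩

instance Loc.finite_points : Finite (l.A →ₐ[O] CBar O) := inferInstance

theorem smallAt_of_mem {R : Type} [CommRing R] [Algebra O R] [Module.Finite O R] (j : R →+* CBar O)
    (hj : j.comp (algebraMap O R) = algebraMap O (CBar O)) {M : ℕ} {x : R}
    (hx : x ∈ Ideal.span {(2 : R) ^ M}) : SmallAt O M (j x) := by
  obtain ⟨a, rfl⟩ := Ideal.mem_span_singleton'.1 hx
  refine ⟨j a, (IsIntegral.of_finite O a).map
    (({ j with commutes' := fun c => RingHom.congr_fun hj c } : R →ₐ[O] CBar O)), ?_⟩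
  rw [map_mul, map_pow, map_ofNat, mul_comm]

theorem SmallAt.smul_left {M : ℕ} {x z : CBar O} (hz : IsIntegral O z) (h : SmallAt O M x) :
    SmallAt O M (z * x) := by
  obtain ⟨a, ha, rfl⟩ := h
  exact ⟨z * a, hz.mul ha, by ring⟩

theorem SmallAt.sum {M : ℕ} {ι : Type} (s : Finset ι) (f : ι → CBar O)
    (h : ∀ i ∈ s, SmallAt O M (f i)) : SmallAt O M (∑ i ∈ s, f i) := by
  classical
  induction s using Finset.induction_on with
  | empty => exact ⟨0, isIntegral_zero, by simp⟩
  | insert i s hi ih =>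
    obtain ⟨a, ha, hfa⟩ := h i (Finset.mem_insert_self i s)
    obtain ⟨b, hb, hfb⟩ := ih fun j hj => h j (Finset.mem_insert_of_mem hj)
    exact ⟨a + b, ha.add hb, by rw [Finset.sum_insert hi, hfa, hfb, mul_add]⟩

namespace Pt

variable {l} {θ : l.A →ₐ[O] CBar O} (P : Pt l θ)

theorem isIntegral_tw (σ : GQ) : IsIntegral O (P.tw σ : CBar O) := by
  refine IsIntegral.of_pow (show 0 < 2 ^ (T.n + 1) by positivity) ?_
  have h : P.tw σ ^ 2 ^ (T.n + 1) = 1 := by
    refine Units.ext (T.emb.injective ?_)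
    rw [Units.val_pow_eq_pow_val, map_pow, P.emb_tw, inv_pow, P.et_pow, inv_one, Units.val_one,
      map_one]
  rw [← Units.val_pow_eq_pow_val, h, Units.val_one]
  exact isIntegral_one

theorem exists_cont (M : ℕ) : ∃ F : IntermediateField ℚ QBar, FiniteDimensional ℚ F ∧
    ∀ σ : GQ, (∀ z ∈ F, σ z = z) → ∀ g,
      SmallAt O M ((P.rep (g * σ)).trace - (P.rep g).trace) ∧
        SmallAt O M ((P.rep (g * σ)).det - (P.rep g).det) := by
  obtain ⟨ζ, hζ⟩ := HasEnoughRootsOfUnity.exists_primitiveRoot QBar T.level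
  have : FiniteDimensional ℚ (IntermediateField.adjoin ℚ {ζ}) :=
    IntermediateField.adjoin.finiteDimensional (Algebra.IsIntegral.isIntegral ζ)
  obtain ⟨n, hn⟩ := Hecke.exists_pow_maximal_le (R := P.R) M
  let b := Module.finBasisOfFinrankEq P.R P.adic.V P.adic.finrank_eq
  obtain ⟨L₁, hL₁, h1⟩ := isCont_matOf P.adic b n
  refine ⟨L₁ ⊔ IntermediateField.adjoin ℚ {ζ}, inferInstance, fun σ hσ g => ?_⟩
  have hc : cyclotomicHom T.level σ = 1 := Units.ext (by
    rw [cyclotomicHom_eq_of_forall (c := 1) fun μ hμ => ?_, Nat.cast_one, Units.val_one]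
    rw [pow_one]
    exact hσ μ (le_sup_right (a := L₁) (by
      obtain ⟨i, -, rfl⟩ := hζ.eq_pow_of_pow_eq_one hμ
      exact pow_mem (IntermediateField.mem_adjoin_simple_self ℚ ζ) i)))
  have htw : P.tw (g * σ) = P.tw g := by rw [map_mul, P.tw_eq_one_of_cyclo hc, mul_one]
  have hI := Hecke.trace_mul_sub_mem (Ideal.span {(2 : P.R) ^ M}) (X := matOf P.adic b g)
    (Y := matOf P.adic b σ) fun i j => hn (h1 σ (fun z hz => hσ z (le_sup_left (a := L₁) hz)) i j)
  rw [← map_mul] at hI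
  have htr : ∀ x, (P.rep₀ x).trace = P.j (matOf P.adic b x).trace := fun x => by
    rw [P.trace_rep₀]
    exact congrArg P.j (LinearMap.trace_eq_matrix_trace P.R b (P.adic.ρ x))
  have hdet : ∀ x, (P.rep₀ x).det = P.j (matOf P.adic b x).det := fun x => by
    rw [P.det_rep₀]
    exact congrArg P.j (LinearMap.det_toMatrix b (P.adic.ρ x)).symm
  constructor
  · rw [P.trace_rep, P.trace_rep, htw, ← mul_sub, htr, htr, ← map_sub]
    exact SmallAt.smul_left (P.isIntegral_tw g) (smallAt_of_mem P.j P.j_algebraMap hI.1)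
  · rw [P.det_rep, P.det_rep, htw, ← mul_sub, hdet, hdet, ← map_sub]
    exact SmallAt.smul_left ((P.isIntegral_tw g).pow 2) (smallAt_of_mem P.j P.j_algebraMap hI.2)

end Pt

theorem Loc.exists_cont (θ : l.A →ₐ[O] CBar O) (M : ℕ) :
    ∃ F : IntermediateField ℚ QBar, FiniteDimensional ℚ F ∧
    ∀ σ : GQ, (∀ z ∈ F, σ z = z) → ∀ g,
      SmallAt O M ((l.repAt θ (g * σ)).trace - (l.repAt θ g).trace) ∧
        SmallAt O M ((l.repAt θ (g * σ)).det - (l.repAt θ g).det) := by
  by_cases h : l.IsMod θ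
  · rw [l.repAt_mod h]
    exact (l.pt h).exists_cont M
  · obtain ⟨n, hn⟩ := Hecke.exists_pow_maximal_le (R := O) M
    obtain ⟨L₁, hL₁, h1⟩ := isCont_matOf T.ρE T.basisE n
    refine ⟨L₁, hL₁, fun σ hσ g => ?_⟩
    have hI := Hecke.trace_mul_sub_mem (Ideal.span {(2 : O) ^ M}) (X := T.matE g) (Y := T.matE σ)
      fun i j => hn (h1 σ hσ i j)
    rw [← map_mul] at hI
    constructor
    · rw [l.trace_repAt_E h, l.trace_repAt_E h, ← trace_matE, ← trace_matE, ← map_sub]
      exact smallAt_of_mem (algebraMap O (CBar O)) (by rw [Algebra.algebraMap_self, RingHom.comp_id])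
        hI.1
    · rw [l.det_repAt_E h, l.det_repAt_E h, ← det_matE, ← det_matE, ← map_sub]
      exact smallAt_of_mem (algebraMap O (CBar O)) (by rw [Algebra.algebraMap_self, RingHom.comp_id])
        hI.2

/-- The family of all points. -/
def Loc.family : PointFamily O l.A T.S (l.A →ₐ[O] CBar O) where
  π θ := θ
  separates _ h := l.eq_zero_of_forall h
  ρ := l.repAt
  t := l.hk
  d := l.dFrob
  frobenius θ _ hℓ hℓS _ hV _ hσ := l.frobenius_repAt θ hℓ hℓS hV hσ
  cont M := by
    choose F hF hFc using fun θ => l.exists_cont θ M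
    exact ⟨⨆ θ, F θ, IntermediateField.finiteDimensional_iSup_of_finite,
      fun σ hσ g θ => hFc θ σ (fun z hz => hσ z (le_iSup F θ hz)) g⟩

/-- A finite Galois order detects the small traces at a point. -/
def Loc.Detects (M : ℕ) (s : Finset (l.A →ₐ[O] CBar O)) : Prop :=
  ∃ (X : Type) (_ : AddCommGroup X) (_ : DistribMulAction GQ X) (_ : Finite X),
    Nonempty (GalOrder 2 X) ∧ ∃ F : MonoidAlgebra ℤ GQ →+ X,
      (∀ (σ : GQ) y, F (MonoidAlgebra.single σ 1 * y) = σ • F y) ∧
      ∀ y, F y = 0 → ∀ θ ∈ s, SmallAt O M ((MonoidAlgebra.lift ℤ _ GQ (l.repAt θ) y).trace)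

theorem level_odd (T : TwoSetup O N r) : ¬ 2 ∣ T.level := fun h => by
  rcases Nat.prime_two.dvd_mul.1 h with h | h
  · have := Nat.odd_iff.1 T.odd
    omega
  · obtain ⟨i, -, hi⟩ := Nat.prime_two.prime.exists_mem_finset_dvd h
    have h2 : T.q i = 2 := ((Nat.prime_dvd_prime_iff_eq Nat.prime_two (T.q_prime i)).1 hi).symm
    have := Nat.le_of_dvd (by omega) (T.q_congr i)
    have : 1 < 2 ^ (T.n + 3) := Nat.one_lt_two_pow (by omega)
    omega

theorem isOpen_ker_cyclo (T : TwoSetup O N r) :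
    IsOpen ((cyclotomicHom T.level).ker : Set GQ) := by
  obtain ⟨ζ, hζ⟩ := HasEnoughRootsOfUnity.exists_primitiveRoot QBar T.level
  have : FiniteDimensional ℚ (IntermediateField.adjoin ℚ {ζ}) :=
    IntermediateField.adjoin.finiteDimensional (Algebra.IsIntegral.isIntegral ζ)
  refine Hecke.isOpen_ker _ (IntermediateField.adjoin ℚ {ζ}) fun σ hσ => Units.ext ?_
  rw [cyclotomicHom_eq_of_forall (c := 1) fun μ hμ => ?_, Nat.cast_one, Units.val_one]
  rw [pow_one]
  obtain ⟨i, -, rfl⟩ := hζ.eq_pow_of_pow_eq_one hμ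
  exact hσ _ (pow_mem (IntermediateField.mem_adjoin_simple_self ℚ ζ) i)

set_option maxHeartbeats 800000 in
theorem Pt.detects {θ : l.A →ₐ[O] CBar O} (h : l.IsMod θ) (M : ℕ) : l.Detects M {θ} := by
  classical
  set P := l.pt h
  set D := model2 P.M
  have h2M : ¬ 2 ∣ P.M := fun hd =>
    T.level_odd (Nat.prime_two.dvd_of_dvd_pow (hd.trans P.dvd_sq))
  obtain ⟨OM⟩ := FiniteFlat.nonempty_galOrder_modelOfCongruence h2M
    (GaloisReps.congruenceProperty P.M 2) M
  obtain ⟨OW⟩ := GaloisReps.nonempty_galOrder_pi OM (Fin D.d)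
  obtain ⟨OI⟩ := Hecke.nonempty_galOrder_ind (cyclotomicHom T.level) (fun A hA σ hσ =>
    cyclotomicHom_inertia hA Nat.prime_two hσ T.level_odd) (isOpen_ker_cyclo T) OW
  let F : MonoidAlgebra ℤ GQ →+ Hecke.Ind (cyclotomicHom T.level) (Fin D.d → ModelLevel D M) :=
    { toFun := fun y => ((fun u j i => galAlg D M (Hecke.part (cyclotomicHom T.level) u y) i j) :)
      map_zero' := by funext u j i; simp; rfl
      map_add' := fun x y => by funext u j i; simp; rfl }
  refine ⟨_, inferInstance, inferInstance, inferInstance, ⟨OI⟩, F, fun σ y => ?_,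
    fun y hy θ' hθ' => ?_⟩
  · funext u j
    show (fun i =>
        galAlg D M (Hecke.part (cyclotomicHom T.level) u (MonoidAlgebra.single σ 1 * y)) i j) =
      (galLevel D M σ).mulVec fun i =>
        galAlg D M (Hecke.part (cyclotomicHom T.level) ((cyclotomicHom T.level σ)⁻¹ * u) y) i j
    rw [Hecke.part_single_mul, map_mul, GaloisReps.galAlg_single, one_smul]
    funext i
    rw [Matrix.mul_apply]
    rfl
  rw [Finset.mem_singleton.1 hθ', l.repAt_mod h]
  have hker : ∀ u, galAlg D M (Hecke.part (cyclotomicHom T.level) u y) = 0 := fun u =>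
    Matrix.ext fun i j => congrFun (congrFun (congrFun hy u) j) i
  let f : MonoidAlgebra ℤ GQ →+ CBar O := P.j.toAddMonoidHom.comp
    ((LinearMap.trace P.R _).toAddMonoidHom.comp
      (Glue.eigenAlg D P.ι P.θ').toRingHom.toAddMonoidHom)
  let rr : MonoidAlgebra ℤ GQ →+ CBar O :=
    (Matrix.traceAddMonoidHom (Fin 2) (CBar O)).comp
      (MonoidAlgebra.lift ℤ _ GQ P.rep).toRingHom.toAddMonoidHom
  let w : (ZMod T.level)ˣ → CBar O := fun u => (T.emb.symm (P.et (u : ZMod T.level)))⁻¹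
  have hsum := Hecke.map_sum_part (cyclotomicHom T.level) w rr f (fun g n => by
    show (MonoidAlgebra.lift ℤ _ GQ P.rep (MonoidAlgebra.single g n)).trace = w _ *
      P.j (LinearMap.trace P.R _ (Glue.eigenAlg D P.ι P.θ' (MonoidAlgebra.single g n)))
    rw [MonoidAlgebra.lift_single, Algebra.smul_def, eq_intCast, ← zsmul_eq_mul]
    refine (map_zsmul (Matrix.traceAddMonoidHom (Fin 2) (CBar O)) n (P.rep g)).trans ?_
    rw [Matrix.traceAddMonoidHom_apply, P.trace_rep, P.coe_tw, Glue.eigenAlg, MonoidAlgebra.lift_single,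
      Algebra.smul_def n (D.eigenAction P.ι P.θ' g), eq_intCast, ← zsmul_eq_mul, map_zsmul, map_zsmul, ← P.trace_rep₀, mul_smul_comm]) y
  show SmallAt O M (rr y)
  rw [hsum]
  refine SmallAt.sum _ _ fun u _ => SmallAt.smul_left ?_ (smallAt_of_mem P.j P.j_algebraMap
    (Ideal.mem_span_singleton.2 ?_))
  · refine IsIntegral.of_pow (show 0 < 2 ^ (T.n + 1) by positivity) ?_
    rw [show w u ^ 2 ^ (T.n + 1) = 1 by
      simp only [w, inv_pow, ← map_pow, P.et_pow, map_one, inv_one]]
    exact isIntegral_one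
  · have := Glue.dvd_trace_eigenAlg D P.ι P.θ' (hker u)
    rwa [Nat.cast_ofNat] at this

set_option maxHeartbeats 800000 in
theorem Loc.detects_E {θ : l.A →ₐ[O] CBar O} (h : ¬ l.IsMod θ) (M : ℕ) : l.Detects M {θ} := by
  classical
  set I : Ideal O := Ideal.span {(2 : O) ^ M}
  have : Finite (O ⧸ I) := by
    obtain ⟨n, hn⟩ := Hecke.exists_pow_maximal_le (R := O) M
    have : Finite (O ⧸ maximalIdeal O) := inferInstanceAs (Finite (ResidueField O))
    have : Finite (O ⧸ maximalIdeal O ^ n) :=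
      Ideal.finite_quotient_pow (IsNoetherian.noetherian (maximalIdeal O)) n
    exact Finite.of_surjective _ (Ideal.Quotient.factor_surjective hn)
  set W := T.ρE.V ⧸ (I • (⊤ : Submodule O T.ρE.V))
  let := EC.Rep.levelDistribMulAction T.ρE I
  have : Finite W := Module.finite_of_finite (O ⧸ I)
  obtain ⟨H, i1, i2, hfin, -, -, e, he, heσ⟩ := T.ρE_flat.2 I inferInstance
  obtain ⟨OW⟩ := Glue.nonempty_galOrder_of_hopf e he fun σ f g hfg => heσ σ f g hfg
  obtain ⟨OP⟩ := GaloisReps.nonempty_galOrder_pi OW (Fin 2)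
  let q : T.ρE.V →ₗ[O] W := (I • (⊤ : Submodule O T.ρE.V)).mkQ
  let F : MonoidAlgebra ℤ GQ →+ (Fin 2 → W) :=
    { toFun := fun y j => q (repAlg T.ρE y (T.basisE j))
      map_zero' := by funext j; simp
      map_add' := fun x y => by funext j; simp }
  refine ⟨Fin 2 → W, inferInstance, inferInstance, inferInstance, ⟨OP⟩, F, fun σ y => ?_,
    fun y hy θ' hθ' => ?_⟩
  · funext j
    show q (repAlg T.ρE (MonoidAlgebra.single σ 1 * y) (T.basisE j)) =
      T.ρE.levelAction I σ (q (repAlg T.ρE y (T.basisE j)))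
    rw [map_mul, GaloisReps.repAlg_single, one_smul]
    rfl
  rw [Finset.mem_singleton.1 hθ']
  have hmem : ∀ v, repAlg T.ρE y v ∈ I • (⊤ : Submodule O T.ρE.V) := fun v => by
    rw [← T.basisE.sum_repr v, map_sum]
    exact Submodule.sum_mem _ fun j _ => by
      rw [map_smul]
      exact Submodule.smul_mem _ _ ((Submodule.Quotient.mk_eq_zero _).1 (congrFun hy j))
  have hkey : (MonoidAlgebra.lift ℤ _ GQ (l.repAt θ) y).trace =
      algebraMap O (CBar O) (LinearMap.trace O T.ρE.V (repAlg T.ρE y)) := by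
    clear hy hmem hθ'
    induction y using MonoidAlgebra.induction_linear with
    | zero => rw [map_zero, Matrix.trace_zero, map_zero, map_zero, map_zero]
    | add a b ha hb => rw [map_add, Matrix.trace_add, ha, hb, map_add, map_add, map_add]
    | single g n =>
      rw [MonoidAlgebra.lift_single, Algebra.smul_def, eq_intCast, ← zsmul_eq_mul]
      refine (map_zsmul (Matrix.traceAddMonoidHom (Fin 2) (CBar O)) n (l.repAt θ g)).trans ?_
      rw [Matrix.traceAddMonoidHom_apply, l.trace_repAt_E h, GaloisReps.repAlg_single, map_zsmul, map_zsmul]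
      rfl
  rw [hkey]
  exact smallAt_of_mem (algebraMap O (CBar O)) (by rw [Algebra.algebraMap_self, RingHom.comp_id])
    (GaloisReps.trace_mem_of_forall_mem I _ hmem)

open scoped Classical in
theorem Loc.detects (M : ℕ) (θ₀ : l.A →ₐ[O] CBar O) (s : Finset (l.A →ₐ[O] CBar O)) :
    l.Detects M (insert θ₀ s) := by
  classical
  have hone : ∀ θ, l.Detects M {θ} := fun θ => by
    by_cases h : l.IsMod θ
    exacts [Pt.detects l h M, l.detects_E h M]
  induction s using Finset.induction_on with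
  | empty => exact hone θ₀
  | insert θ s hθ ih =>
    obtain ⟨X, _, _, _, ⟨OX⟩, F, hF, hker⟩ := ih
    obtain ⟨X', _, _, _, ⟨OX'⟩, F', hF', hker'⟩ := hone θ
    refine ⟨X × X', inferInstance, inferInstance, inferInstance, ⟨OX.prod OX'⟩, F.prod F',
      fun σ y => Prod.ext (hF σ y) (hF' σ y), fun y hy θ' hθ' => ?_⟩
    rw [Finset.insert_comm, Finset.mem_insert] at hθ'
    rcases hθ' with rfl | hθ'
    · exact hker' y (congrArg Prod.snd hy) _ (Finset.mem_singleton_self _)
    · exact hker y (congrArg Prod.fst hy) _ hθ'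

theorem Loc.flatDetected_family : l.family.FlatDetected := fun M => by
  classical
  have := Fintype.ofFinite (l.A →ₐ[O] CBar O)
  have θ₀ : l.A →ₐ[O] CBar O := (IsScalarTower.toAlgHom O O (CBar O)).comp l.thetaE
  obtain ⟨X, i1, i2, i3, hX, F, hF, hker⟩ := l.detects M θ₀ Finset.univ
  exact ⟨X, i1, i2, i3, hX, F, hF, fun y hy θ =>
    hker y hy θ (Finset.mem_insert_of_mem (Finset.mem_univ θ))⟩

theorem span_rbar (T : TwoSetup O N r) :
    Submodule.span (ResidueField O) (Set.range T.rbar) = ⊤ := by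
  refine eq_top_iff.2 fun X _ => ?_
  let φ := algebraMap (ZMod 2) (ResidueField O)
  have h1 : ∀ Y : Matrix (Fin 2) (Fin 2) (ZMod 2),
      φ.mapMatrix Y ∈ Submodule.span (ResidueField O) (Set.range T.rbar) := fun Y => by
    have hY : Y ∈ Submodule.span (ZMod 2) (Set.range T.r₂) := T.r₂_span ▸ Submodule.mem_top
    induction hY using Submodule.span_induction with
    | mem Y hY => obtain ⟨σ, rfl⟩ := hY; exact Submodule.subset_span ⟨σ, rfl⟩
    | zero => rw [map_zero]; exact zero_mem _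
    | add a b _ _ ha hb => rw [map_add]; exact add_mem ha hb
    | smul c a _ ha =>
      rw [show φ.mapMatrix (c • a) = φ c • φ.mapMatrix a from
        Matrix.ext fun i j => by simp [RingHom.mapMatrix_apply]]
      exact Submodule.smul_mem _ _ ha
  rw [Matrix.matrix_eq_sum_single X]
  refine Submodule.sum_mem _ fun i _ => Submodule.sum_mem _ fun j _ => ?_
  rw [show Matrix.single i j (X i j) = X i j • Matrix.single i j (1 : ResidueField O) by
      rw [Matrix.smul_single, smul_eq_mul, mul_one],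
    show (Matrix.single i j (1 : ResidueField O)) = φ.mapMatrix (Matrix.single i j 1) by
      rw [RingHom.mapMatrix_apply, Matrix.map_single, map_one]]
  exact Submodule.smul_mem _ _ (h1 _)

theorem det_r₂ (T : TwoSetup O N r) (σ : GQ) : (T.r₂ σ).det = 1 := by
  have h : IsUnit (T.r₂ σ).det := ((Group.isUnit σ).map T.r₂).map Matrix.detMonoidHom
  revert h
  generalize (T.r₂ σ).det = z
  revert z
  decide

theorem exists_distinct (T : TwoSetup O N r) :
    ∃ σ, ∃ u w : ResidueField O, u ≠ w ∧ (T.rbar σ).trace = u + w ∧ (T.rbar σ).det = u * w := by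
  have := charP_residue (O := O)
  obtain ⟨σ, hσ⟩ := T.exists_trace_one
  obtain ⟨ω, hω⟩ := T.exists_omega
  refine ⟨σ, ω, ω + 1, by simp, ?_, ?_⟩
  · show ((T.r₂ σ).map (algebraMap (ZMod 2) (ResidueField O))).trace = _
    rw [← AddMonoidHom.map_trace (algebraMap (ZMod 2) (ResidueField O)), hσ, map_one, ← add_assoc,
      CharTwo.add_self_eq_zero, zero_add]
  · show ((algebraMap (ZMod 2) (ResidueField O)).mapMatrix (T.r₂ σ)).det = _
    rw [← RingHom.map_det, T.det_r₂, map_one, ← CharTwo.neg_eq (1 : ResidueField O)]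
    linear_combination -hω + ω * (CharTwo.two_eq_zero (R := ResidueField O))

theorem Loc.rbar_frobenius {ℓ : ℕ} (hℓ : ℓ.Prime) (hℓS : ℓ ∉ T.S) {A : ValuationSubring QBar}
    (hA : A.LiesOverPrime ℓ) {σ : GQ} (hσ : A.IsFrobeniusAt σ ℓ) :
    (T.rbar σ).trace = l.aug (l.hk ℓ) ∧ (T.rbar σ).det = l.aug (l.dFrob ℓ) := by
  have := charP_residue (O := O)
  obtain ⟨h1, h2⟩ := T.r₂_frobenius ℓ hℓ hℓS A hA σ hσ
  constructor
  · show ((T.r₂ σ).map (algebraMap (ZMod 2) (ResidueField O))).trace = _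
    rw [← AddMonoidHom.map_trace (algebraMap (ZMod 2) (ResidueField O)), h1, map_intCast,
      l.aug_hk hℓ hℓS]
  · show ((algebraMap (ZMod 2) (ResidueField O)).mapMatrix (T.r₂ σ)).det = _
    rw [← RingHom.map_det, h2, map_one, l.dFrob_eq hℓ hℓS hA hσ, map_mul l.aug, l.aug_dia, mul_one,
      map_natCast l.aug]
    have hodd : ℓ % 2 = 1 := hℓ.eq_two_or_odd.resolve_left fun h => hℓS (h ▸ T.two_mem_S)
    rw [← Nat.mod_add_div ℓ 2, hodd, Nat.cast_add, Nat.cast_mul,
      CharP.cast_eq_zero (ResidueField O) 2, zero_mul, Nat.cast_one, add_zero]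

/-- The conclusion of the gluing at a level. -/
theorem Loc.exists_rep (hG : GlueInput O) : ∃ (R : GQ →* M2 l.A) (hR : IsCont R),
    (∀ σ, (R σ).map l.aug = T.rbar σ) ∧
    (∀ θ σ, θ (R σ).trace = (l.repAt θ σ).trace ∧ θ (R σ).det = (l.repAt θ σ).det) ∧
    (∀ σ, (∀ θ, l.repAt θ σ = 1) → R σ = 1) ∧ (toRep R hR).IsFlatAt 2 := by
  obtain ⟨F₂, hF₂, hfix⟩ := T.r₂_finite
  obtain ⟨R, hR, haug, htd, hone, hflat⟩ := hG T.two_mem l.A T.S _ l.family l.aug T.rbar T.span_rbar
    T.exists_distinct ⟨F₂, hF₂, fun σ hσ => by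
      show ((algebraMap (ZMod 2) (ResidueField O)).mapMatrix) (T.r₂ σ) = 1
      rw [hfix σ hσ, map_one]⟩
    fun ℓ hℓ hℓS V hV σ hσ => l.rbar_frobenius hℓ hℓS hV hσ
  exact ⟨R, hR, haug, htd, hone, hflat l.flatDetected_family⟩

end TwoSetup

end Fermat.Agent.RT.Two

end
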