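import Fermat.Agent.Deform.Matrix
import Fermat.Agent.Arith.Places
import Fermat.Prelude.Def_GaloisRep_LocalConditions
import Fermat.Prelude.Def_GaloisRep_Flat

/-!
# The Hecke side of minimal lifting at two: interface

A set of auxiliary primes `q i ≡ 1 (mod 2 ^ (n + 3))` gives a finite local algebra `B` with a
representation interpolating the forms of level `N ∏ q i` with diamond characters and one elliptic
point, and a module free over the group ring of the diamonds.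
-/

set_option autoImplicit false

noncomputable section

namespace Fermat.Agent.RT.Two

open IsLocalRing Fermat.Agent.Deform Fermat.Agent.Arith

/-- A system of eigenvalues of an eigenform of level `N`, with values in `K`. -/
def IsLevelSystem (N : ℕ) (S : Finset ℕ) {K : Type} [CommRing K] (a : ℕ → K) : Prop :=
  ∃ (g : CuspForm (CongruenceSubgroup.Gamma0 N) 2) (e : K →+* ℂ), g.IsNormalizedEigenform ∧
    Function.Injective e ∧
    ∀ ℓ : ℕ, ℓ.Prime → ℓ ∉ S → e (a ℓ) = ModularFormClass.qCoeff g ℓ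

variable (O : Type) [CommRing O] [IsDomain O] [IsDiscreteValuationRing O]
  [IsAdicComplete (maximalIdeal O) O] [Finite (ResidueField O)] [CharZero O]
  [Algebra (ZMod 2) (ResidueField O)]

/-- The data of one auxiliary level. -/
structure TwoSetup (N r : ℕ) : Type 1 where
  n : ℕ
  squarefree : Squarefree N
  odd : Odd N
  exists_three_mod_four : ∃ p : ℕ, p.Prime ∧ p ∣ N ∧ p % 4 = 3
  two_mem : (2 : O) ∈ maximalIdeal O
  /-- the residue field contains the cube roots of unity -/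
  exists_omega : ∃ ω : ResidueField O, ω ^ 2 + ω + 1 = 0
  /-- the auxiliary primes -/
  q : Fin r → ℕ
  q_injective : Function.Injective q
  q_prime : ∀ i, (q i).Prime
  q_not_dvd : ∀ i, ¬ q i ∣ N
  q_congr : ∀ i, 2 ^ (n + 3) ∣ q i - 1
  /-- the bad primes -/
  S : Finset ℕ
  mem_S : ∀ v : ℕ, v.Prime → v ∣ 6 * (N * ∏ i, q i) → v ∈ S
  /-- the residual representation -/
  r₂ : GQ →* Matrix (Fin 2) (Fin 2) (ZMod 2)
  r₂_span : Submodule.span (ZMod 2) (Set.range r₂) = ⊤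
  r₂_finite : ∃ L : IntermediateField ℚ QBar, FiniteDimensional ℚ L ∧
    ∀ σ : GQ, (∀ z ∈ L, σ z = z) → r₂ σ = 1
  r₂_unramified : ∀ v : ℕ, v.Prime → ¬ v ∣ 2 * N → ∀ A : ValuationSubring QBar, A.LiesOverPrime v →
    ∀ σ ∈ A.inertiaSubgroupIn ℚ, r₂ σ = 1
  /-- the traces of the elliptic curve -/
  aE : ℕ → ℤ
  r₂_frobenius : ∀ ℓ : ℕ, ℓ.Prime → ℓ ∉ S → ∀ A : ValuationSubring QBar, A.LiesOverPrime ℓ →
    ∀ σ : GQ, A.IsFrobeniusAt σ ℓ → (r₂ σ).trace = (aE ℓ : ZMod 2) ∧ (r₂ σ).det = 1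
  /-- the elliptic point -/
  ρE : GaloisRepAdic O
  ρE_frobenius : ∀ ℓ : ℕ, ℓ.Prime → ℓ ∉ S → ∀ A : ValuationSubring QBar, A.LiesOverPrime ℓ →
    ∀ σ : GQ, A.IsFrobeniusAt σ ℓ →
      ρE.trace σ = (aE ℓ : O) ∧ LinearMap.det (ρE.ρ σ) = (ℓ : O)
  ρE_unramified : ∀ v : ℕ, v.Prime → ¬ v ∣ 2 * N → ρE.IsUnramifiedAt v
  ρE_unipotent : ∀ v : ℕ, v.Prime → v ∣ N → ∀ A : ValuationSubring QBar, A.LiesOverPrime v →
    ∀ σ ∈ A.inertiaSubgroupIn ℚ, ρE.trace σ = 2 ∧ LinearMap.det (ρE.ρ σ) = 1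
  ρE_flat : ρE.IsFlatAt 2
  /-- places and Frobenius elements at the auxiliary primes -/
  A : Fin r → ValuationSubring QBar
  liesOver : ∀ i, (A i).LiesOverPrime (q i)
  F : Fin r → GQ
  isFrobenius : ∀ i, (A i).IsFrobeniusAt (F i) (q i)
  F_nonscalar : ∀ i, ∀ c : ZMod 2, r₂ (F i) ≠ c • 1
  /-- the chosen roots -/
  rE : Fin r → O
  rE_root : ∀ i, rE i ^ 2 - ρE.trace (F i) * rE i + LinearMap.det (ρE.ρ (F i)) = 0

variable {O} {N r : ℕ} (T : TwoSetup O N r)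

/-- The residual matrices. -/
def TwoSetup.rbar : GQ →* M2 (ResidueField O) :=
  mapM (algebraMap (ZMod 2) (ResidueField O)) T.r₂

/-- What an auxiliary level provides. -/
structure TwoLevel (μ : ℕ) : Type 1 where
  B : Type
  [commRing : CommRing B]
  [isLocalRing : IsLocalRing B]
  [algebra : Algebra O B]
  [finiteB : Module.Finite O B]
  [freeB : Module.Free O B]
  [complete : IsAdicComplete (maximalIdeal B) B]
  M : Type
  [addCommGroup : AddCommGroup M]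
  [moduleB : Module B M]
  [moduleO : Module O M]
  [isScalarTower : IsScalarTower O B M]
  [finiteM : Module.Finite B M]
  spanFinrank_le : (⊤ : Submodule B M).spanFinrank ≤ μ
  /-- the augmentation -/
  aug : B →ₐ[O] ResidueField O
  R : GQ →* M2 B
  cont : IsCont R
  R_aug : ∀ σ, (R σ).map aug = T.rbar σ
  /-- traces at the good primes -/
  t : ℕ → B
  frobenius : ∀ ℓ : ℕ, ℓ.Prime → ℓ ∉ T.S → ∀ A : ValuationSubring QBar, A.LiesOverPrime ℓ →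
    ∀ σ : GQ, A.IsFrobeniusAt σ ℓ → (R σ).trace = t ℓ
  X : Fin r → B
  aug_X : ∀ i, aug (X i) = residue O (T.rE i)
  adjoin_eq_top : Algebra.adjoin O
    ((Set.range fun σ => (R σ).trace) ∪ (Set.range fun σ => (R σ).det) ∪ Set.range X) = ⊤
  unramified : ∀ v : ℕ, v.Prime → ¬ v ∣ 2 * (N * ∏ i, T.q i) →
    ∀ A : ValuationSubring QBar, A.LiesOverPrime v → ∀ σ ∈ A.inertiaSubgroupIn ℚ, R σ = 1
  unipotent : ∀ v : ℕ, v.Prime → v ∣ N → ∀ A : ValuationSubring QBar, A.LiesOverPrime v →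
    ∀ σ ∈ A.inertiaSubgroupIn ℚ, (R σ).trace = 2 ∧ (R σ).det = 1
  flat : (toRep R cont).IsFlatAt 2
  det_congr : ∀ σ : GQ, (∀ μ' : QBar, μ' ^ ∏ i, T.q i = 1 → σ μ' = μ') → ∀ k a : ℕ,
    (∀ μ' : QBar, μ' ^ 2 ^ k = 1 → σ μ' = μ' ^ a) → (R σ).det - a ∈ Ideal.span {(2 : B) ^ k}
  τ : Fin r → GQ
  τ_mem : ∀ i, τ i ∈ (T.A i).inertiaSubgroupIn ℚ
  τ_sqrt : ∀ i, ∀ z : QBar, z ^ 2 = (T.q i : QBar) → τ i z = -z
  x : Fin r → B
  trace_τ : ∀ i, (R (τ i)).trace = 2 + x i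
  det_τ : ∀ i, (R (τ i)).det = 1 + x i
  /-- frames in which Frobenius is triangular -/
  P : Fin r → (M2 B)ˣ
  frame : ∀ i, ((↑(P i)⁻¹ : M2 B) * R (T.F i) * P i) 1 0 = 0 ∧
    ((↑(P i)⁻¹ : M2 B) * R (T.F i) * P i) 0 0 = X i
  y : Fin r → B
  y_eq : ∀ i, y i = ((↑(P i)⁻¹ : M2 B) * R (τ i) * P i) 0 0 - 1
  v : Fin r → B
  v_eq : ∀ i, v i = (T.q i : B) * (R (T.F i)).trace ^ 2 -
    ((T.q i : B) + 1) ^ 2 * (R (T.F i)).det
  relation : ∀ i (m : M), (v i * (y i * (y i - x i))) • m = 0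
  /-- the elliptic point -/
  θE : B →ₐ[O] O
  θE_t : ∀ ℓ : ℕ, ℓ.Prime → ℓ ∉ T.S → θE (t ℓ) = (T.aE ℓ : O)
  θE_X : ∀ i, θE (X i) = T.rE i
  θE_frobenius : ∀ i, θE (R (T.F i)).trace = T.ρE.trace (T.F i) ∧
    θE (R (T.F i)).det = LinearMap.det (T.ρE.ρ (T.F i))
  θE_xy : ∀ i, θE (x i) = 0 ∧ θE (y i) = 0
  /-- an element vanishing at the points of level `N` kills the coinvariants -/
  kills : ∀ b : B, (∀ θ : B →ₐ[O] AlgebraicClosure (FractionRing O),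
      (∀ i, θ (x i) = 0 ∧ θ (y i) = 0) → IsLevelSystem N T.S (fun ℓ => θ (t ℓ)) → θ b = 0) →
    ∀ m : M, ((∏ i, v i * ((R (T.F i)).trace ^ 2 - 4 * (R (T.F i)).det)) * b) • m ∈
      Ideal.span (Set.range x) • (⊤ : Submodule B M)
  /-- an eigenform of level `N` gives a point with a vector and coefficient functionals -/
  occurs : ∀ a₀ : ℕ → O, IsLevelSystem N T.S a₀ →
    (∀ ℓ : ℕ, ℓ.Prime → ℓ ∉ T.S → residue O (a₀ ℓ) = (T.aE ℓ : ResidueField O)) →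
    ∀ (ρ₀ : GaloisRepAdic O), (∀ ℓ : ℕ, ℓ.Prime → ℓ ∉ T.S → ∀ A : ValuationSubring QBar,
      A.LiesOverPrime ℓ → ∀ σ : GQ, A.IsFrobeniusAt σ ℓ →
        ρ₀.trace σ = a₀ ℓ ∧ LinearMap.det (ρ₀.ρ σ) = (ℓ : O)) →
    ∀ r₀ : Fin r → O,
      (∀ i, r₀ i ^ 2 - ρ₀.trace (T.F i) * r₀ i + LinearMap.det (ρ₀.ρ (T.F i)) = 0) →
      (∀ i, residue O (r₀ i) = residue O (T.rE i)) →
    ∃ θ₀ : B →ₐ[O] O, (∀ ℓ : ℕ, ℓ.Prime → ℓ ∉ T.S → θ₀ (t ℓ) = a₀ ℓ) ∧
      (∀ i, θ₀ (X i) = r₀ i ∧ θ₀ (x i) = 0 ∧ θ₀ (y i) = 0 ∧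
        θ₀ (R (T.F i)).trace = ρ₀.trace (T.F i) ∧
        θ₀ (R (T.F i)).det = LinearMap.det (ρ₀.ρ (T.F i))) ∧
      ∃ w : M, (∀ b : B, (b - algebraMap O B (θ₀ b)) • w ∈
          Ideal.span (Set.range x) • (⊤ : Submodule B M)) ∧
        ∀ (π : O) (K D : ℕ), Irreducible π → D < 2 ^ T.n →
          (∀ j, 1 ≤ j → j ≤ D → π ^ K ∣ ((2 ^ T.n).choose j : O)) →
          ∃ coef : (Fin r → ℕ) → M →ₗ[O] O ⧸ Ideal.span {π ^ K},
            (∀ (a : Fin r → ℕ) (j : Fin r) (m : M), ∑ i, a i ≤ D → coef a (x j • m) =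
              if a j = 0 then 0 else coef (a - Pi.single j 1) m) ∧
            (K ≠ 0 → IsUnit (coef 0 w))

attribute [instance] TwoLevel.commRing TwoLevel.isLocalRing TwoLevel.algebra TwoLevel.finiteB
  TwoLevel.freeB TwoLevel.complete TwoLevel.addCommGroup TwoLevel.moduleB TwoLevel.moduleO
  TwoLevel.isScalarTower TwoLevel.finiteM

/-- The Hecke side: one bound for all auxiliary sets of the same size. -/
def HeckeSideInput (O : Type) [CommRing O] [IsDomain O] [IsDiscreteValuationRing O]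
    [IsAdicComplete (maximalIdeal O) O] [Finite (ResidueField O)] [CharZero O]
    [Algebra (ZMod 2) (ResidueField O)] : Prop :=
  ∀ N r : ℕ, ∃ μ : ℕ, ∀ T : TwoSetup O N r, Nonempty (TwoLevel T μ)

end Fermat.Agent.RT.Two

end
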