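import Mathlib.NumberTheory.GaussSum
import Mathlib.NumberTheory.LegendreSymbol.QuadraticChar.Basic
import Fermat.Agent.RT.InertiaTW.InertiaOne
import Fermat.Agent.RT.Two.Hecke.Dia

/-!
# Inertia generators at the auxiliary primes

An inertia element at `q i` whose cyclotomic character generates the `i`-th factor of the diamond
group moves the square root of `q i`, by the quadratic Gauss sum.
-/

set_option autoImplicit false
set_option linter.unusedSectionVars false

noncomputable section

namespace Fermat.Agent.RT.Two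

open IsLocalRing Fermat.Agent.Arith
open Fermat.Agent.RT.GammaH

namespace Hecke

/-- An element acting on `μ_q` through a non-square moves the square roots of `q ≡ 1 (mod 4)`. -/
theorem apply_sqrt_eq_neg {q : ℕ} [hq : Fact q.Prime] (h4 : q % 4 = 1) {σ : GQ} (w : (ZMod q)ˣ)
    (hσ : ∀ μ : QBar, μ ^ q = 1 → σ μ = μ ^ (w : ZMod q).val) (hw : ¬ IsSquare (w : ZMod q))
    {z : QBar} (hz : z ^ 2 = (q : QBar)) : σ z = -z := by
  classical
  have hq2 : q ≠ 2 := fun h => by subst h; omega
  have hchar : ringChar (ZMod q) ≠ 2 := by rwa [ZMod.ringChar_zmod_n]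
  obtain ⟨ζ, hζ⟩ := HasEnoughRootsOfUnity.exists_primitiveRoot QBar q
  set ψ : AddChar (ZMod q) QBar := AddChar.zmodChar q hζ.pow_eq_one
  have hψ : ψ.IsPrimitive := AddChar.zmodChar_primitive_of_primitive_root q hζ
  set χ : MulChar (ZMod q) QBar := (quadraticChar (ZMod q)).ringHomComp (Int.castRingHom QBar)
  have hχ1 : χ ≠ 1 := by
    intro h
    obtain ⟨a, ha⟩ := quadraticChar_exists_neg_one' hchar
    have := DFunLike.congr_fun h (a : ZMod q)
    rw [MulChar.ringHomComp_apply, ha, MulChar.one_apply_coe] at this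
    norm_num at this
  have hχ2 : χ.IsQuadratic := (quadraticChar_isQuadratic (ZMod q)).comp _
  have hneg : χ (-1) = 1 := by
    rw [MulChar.ringHomComp_apply, quadraticChar_neg_one hchar, ZMod.card,
      ZMod.χ₄_nat_one_mod_four h4, map_one]
  set g := gaussSum χ ψ
  have hg : g ^ 2 = (q : QBar) := by
    rw [gaussSum_sq hχ1 hχ2 hψ, hneg, one_mul, ZMod.card]
  have hσg : σ g = gaussSum χ (ψ.mulShift (w : ZMod q)) := by
    rw [show g = ∑ a, χ a * ψ a from rfl, map_sum]
    refine Finset.sum_congr rfl fun a _ => ?_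
    rw [map_mul, show σ (χ a) = χ a from by
      rw [MulChar.ringHomComp_apply, eq_intCast, map_intCast], AddChar.mulShift_apply]
    congr 1
    rw [AddChar.zmodChar_apply, AddChar.zmodChar_apply,
      hσ _ (by rw [← pow_mul, mul_comm, pow_mul, hζ.pow_eq_one, one_pow]), ← pow_mul, ZMod.val_mul,
      ← pow_eq_pow_mod _ hζ.pow_eq_one, mul_comm a.val]
  have hχw : χ (w : ZMod q) = -1 := by
    rw [MulChar.ringHomComp_apply, quadraticChar_neg_one_iff_not_isSquare.2 hw, map_neg, map_one]
  have hmul := gaussSum_mulShift χ ψ w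
  rw [← hσg, hχw, neg_one_mul, neg_eq_iff_eq_neg] at hmul
  rcases eq_or_eq_neg_of_sq_eq_sq z g (hz.trans hg.symm) with rfl | rfl
  · exact hmul
  · rw [map_neg, hmul]

end Hecke

variable {O : Type} [CommRing O] [IsDomain O] [IsDiscreteValuationRing O]
  [IsAdicComplete (maximalIdeal O) O] [Finite (ResidueField O)] [CharZero O]
  [Algebra (ZMod 2) (ResidueField O)] {N r : ℕ}

namespace TwoSetup

variable (T : TwoSetup O N r)

/-- The standard generator of the diamond group at an auxiliary prime. -/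
def gen (i : Fin r) : T.Delta := Multiplicative.ofAdd (Pi.single i 1)

theorem q_mod_four (i : Fin r) : T.q i % 4 = 1 := by
  have h : 4 ∣ T.q i - 1 := (show 4 = 2 ^ 2 by norm_num) ▸ T.pow_dvd_sub_one i (by omega)
  have := (T.q_prime i).two_le
  omega

theorem exists_tau (i : Fin r) : ∃ τ : GQ, τ ∈ (T.A i).inertiaSubgroupIn ℚ ∧
    (∀ z : QBar, z ^ 2 = (T.q i : QBar) → τ z = -z) ∧
    T.psi (cyclotomicHom T.level τ) = T.gen i := by
  have : Fact (T.q i).Prime := ⟨T.q_prime i⟩
  obtain ⟨a, ha⟩ := T.log_surjective i (Multiplicative.ofAdd 1)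
  obtain ⟨τ, hτ, hτa⟩ := InertiaTW.exists_inertia_unit (T.liesOver i) a
  have hns : ¬ IsSquare (a : ZMod (T.q i)) := by
    rintro ⟨b, hb⟩
    have hb0 : b ≠ 0 := fun h => a.ne_zero (by rw [hb, h, mul_zero])
    have h1 : T.log i (Units.mk0 b hb0) * T.log i (Units.mk0 b hb0) = Multiplicative.ofAdd 1 := by
      rw [← map_mul, ← ha]
      exact congrArg _ (Units.ext hb.symm)
    have h2 := congrArg (fun z : Multiplicative (ZMod (2 ^ (T.n + 1))) =>
      ZMod.castHom (show 2 ∣ 2 ^ (T.n + 1) from dvd_pow_self 2 (by omega)) (ZMod 2) z.toAdd) h1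
    simp only [toAdd_mul, toAdd_ofAdd, map_add, map_one, CharTwo.add_self_eq_zero] at h2
    exact zero_ne_one h2
  refine ⟨τ, hτ, fun z hz => Hecke.apply_sqrt_eq_neg (T.q_mod_four i) a hτa hns hz, ?_⟩
  set u := cyclotomicHom T.level τ
  have hu : ((u : ZMod T.level).cast : ZMod (T.level / T.q i)) = 1 := by
    have hvR : ¬ T.q i ∣ T.level / T.q i :=
      coprime_div_of_squarefree T.squarefree_level (T.q_prime i) (T.q_dvd_level i)
    have : NeZero (T.level / T.q i) := ⟨fun h => hvR (h ▸ dvd_zero _)⟩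
    rw [← unitsMap_eq_one_iff (Nat.div_dvd_of_dvd (T.q_dvd_level i)), unitsMap_cyclotomicHom]
    exact cyclotomicHom_inertia (T.liesOver i) (T.q_prime i) hτ hvR
  have hi : ZMod.unitsMap (T.q_dvd_level i) u = a := by
    rw [unitsMap_cyclotomicHom]
    refine Units.ext ?_
    rw [cyclotomicHom_eq_of_forall hτa, ZMod.natCast_zmod_val]
  refine Multiplicative.toAdd.injective (funext fun j => ?_)
  rw [T.psi_apply, T.psiRoot_apply, gen, toAdd_ofAdd]
  rcases eq_or_ne j i with rfl | hji
  · rw [hi, ha, toAdd_ofAdd, map_one, Pi.single_eq_same]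
  · rw [T.unitsMap_q_eq_one (T.q_dvd_level i) (T.q_prime i) j
      (fun h => hji (T.q_injective h).symm) hu, map_one, toAdd_one, map_zero,
      Pi.single_eq_of_ne hji]

/-- The chosen inertia generators. -/
def tau (i : Fin r) : GQ := (T.exists_tau i).choose

theorem tau_mem (i : Fin r) : T.tau i ∈ (T.A i).inertiaSubgroupIn ℚ :=
  (T.exists_tau i).choose_spec.1

theorem tau_sqrt (i : Fin r) {z : QBar} (hz : z ^ 2 = (T.q i : QBar)) : T.tau i z = -z :=
  (T.exists_tau i).choose_spec.2.1 z hz

theorem psi_tau (i : Fin r) : T.psi (cyclotomicHom T.level (T.tau i)) = T.gen i :=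
  (T.exists_tau i).choose_spec.2.2

end TwoSetup

end Fermat.Agent.RT.Two

end
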