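import Fermat.Agent.ConductorLevel.Raise
import Fermat.Agent.RT.Two.Hecke.Family2
import Fermat.Agent.RT.Two.Hecke.Tau

/-!
# Properties of the representation over the algebra of a level

Inertia, the determinant, and the relations at the auxiliary primes, from the points.
-/

set_option autoImplicit false
set_option linter.unusedSectionVars false

noncomputable section

namespace Fermat.Agent.RT.Two

open IsLocalRing Fermat.Agent.Arith Fermat.Agent.Deform
open Fermat.Agent.RT.GammaH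
open Fermat.Agent.NewformLocal (toricOp)

namespace Hecke

/-- An element vanishing at the points of a reduced torsion-free quotient lies in the ideal. -/
theorem mem_of_forall_points {O : Type} [CommRing O] [IsDomain O] [IsDiscreteValuationRing O]
    {A : Type} [CommRing A] [Algebra O A] [Module.Finite O A] (J : Ideal A)
    (hrad : ∀ (a : A) (k : ℕ), a ^ k ∈ J → a ∈ J)
    (hsat : ∀ (c : O) (a : A), c ≠ 0 → c • a ∈ J → a ∈ J) {x : A}
    (h : ∀ θ : A →ₐ[O] CBar O, (∀ a ∈ J, θ a = 0) → θ x = 0) : x ∈ J := by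
  rw [← Ideal.Quotient.eq_zero_iff_mem]
  by_contra hx
  have : IsReduced (A ⧸ J) := ⟨fun y ⟨k, hk⟩ => by
    obtain ⟨a, rfl⟩ := Ideal.Quotient.mk_surjective y
    rw [← map_pow, Ideal.Quotient.eq_zero_iff_mem] at hk
    exact Ideal.Quotient.eq_zero_iff_mem.2 (hrad a k hk)⟩
  have : Module.IsTorsionFree O (A ⧸ J) := Module.IsTorsionFree.of_smul_eq_zero fun c y hcy => by
    obtain ⟨a, rfl⟩ := Ideal.Quotient.mk_surjective y
    by_cases hc : c = 0
    · exact Or.inl hc
    rw [← Ideal.Quotient.mkₐ_eq_mk O, ← map_smul, Ideal.Quotient.mkₐ_eq_mk,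
      Ideal.Quotient.eq_zero_iff_mem] at hcy
    exact Or.inr (Ideal.Quotient.eq_zero_iff_mem.2 (hsat c a hc hcy))
  obtain ⟨θ, hθ⟩ := Glue.exists_algHom_apply_ne_zero (O := O) hx
  refine hθ (h (θ.comp (Ideal.Quotient.mkₐ O J)) fun a ha => ?_)
  show θ (Ideal.Quotient.mk J a) = 0
  rw [Ideal.Quotient.eq_zero_iff_mem.2 ha, map_zero]

/-- A two by two matrix with eigenvalues `1` and `ζ ≠ 1`, `ζ ^ m = 1`, has order dividing `m`. -/
theorem pow_eq_one_of_eigen {K : Type} [Field K] (X : M2 K) {ζ : K} (htr : X.trace = 1 + ζ)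
    (hdet : X.det = ζ) (hζ : ζ ≠ 1) {m : ℕ} (hm : ζ ^ m = 1) : X ^ m = 1 := by
  have hX : X * X = (1 + ζ) • X - ζ • 1 := by
    have h1 := htr
    have h2 := hdet
    rw [Matrix.trace_fin_two] at h1
    rw [Matrix.det_fin_two] at h2
    ext i j
    fin_cases i <;> fin_cases j <;> simp [Matrix.mul_apply, Fin.sum_univ_two]
    · linear_combination X 0 0 * h1 - h2
    · linear_combination X 0 1 * h1
    · linear_combination X 1 0 * h1
    · linear_combination X 1 1 * h1 - h2
  have key : ∀ k : ℕ, (ζ - 1) • X ^ k = (ζ ^ k - 1) • X + (ζ - ζ ^ k) • (1 : M2 K) := by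
    intro k
    induction k with
    | zero => simp
    | succ k ih =>
      rw [pow_succ X, ← smul_mul_assoc, ih, add_mul, smul_mul_assoc, smul_mul_assoc, one_mul, hX]
      module
  have h := key m
  rw [hm, sub_self, zero_smul, zero_add] at h
  exact smul_right_injective _ (sub_ne_zero.2 hζ) h

end Hecke

variable {O : Type} [CommRing O] [IsDomain O] [IsDiscreteValuationRing O]
  [IsAdicComplete (maximalIdeal O) O] [Finite (ResidueField O)] [CharZero O]
  [Algebra (ZMod 2) (ResidueField O)] {N r : ℕ}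

namespace TwoSetup

variable {T : TwoSetup O N r} (l : T.Loc)

/-- A representation over the algebra of the level. -/
structure Glob : Type where
  R : GQ →* M2 l.A
  cont : IsCont R
  R_aug : ∀ σ, (R σ).map l.aug = T.rbar σ
  point : ∀ θ σ, θ (R σ).trace = (l.repAt θ σ).trace ∧ θ (R σ).det = (l.repAt θ σ).det
  one_of : ∀ σ, (∀ θ, l.repAt θ σ = 1) → R σ = 1
  flat : (toRep R cont).IsFlatAt 2

theorem nonempty_glob (hG : GlueInput O) : Nonempty (Glob l) := by
  obtain ⟨R, hR, h1, h2, h3, h4⟩ := l.exists_rep hG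
  exact ⟨⟨R, hR, h1, h2, h3, h4⟩⟩

theorem Loc.eq_of_points {x y : l.A} (h : ∀ θ : l.A →ₐ[O] CBar O, θ x = θ y) : x = y :=
  sub_eq_zero.1 (l.eq_zero_of_forall fun θ => by rw [map_sub, h θ, sub_self])

theorem Loc.algebraMap_ker_aug : RingHom.ker l.aug = maximalIdeal l.A :=
  eq_maximalIdeal (RingHom.ker_isMaximal_of_surjective _ fun z => by
    obtain ⟨a, rfl⟩ := residue_surjective (R := O) z
    exact ⟨algebraMap O l.A a, l.aug.commutes a⟩)

theorem Loc.mem_maximalIdeal_iff {x : l.A} : x ∈ maximalIdeal l.A ↔ l.aug x = 0 := by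
  rw [← l.algebraMap_ker_aug, RingHom.mem_ker]

theorem Loc.pow_act_eq_zero {a : T.OpR} {k : ℕ} {x : l.P}
    (h : (l.act a ^ k) x = 0) : l.act a x = 0 := by
  rw [← map_pow] at h
  obtain ⟨σ, hσ⟩ := RT.GammaH.exists_injective_complex O
  let : Algebra O ℂ := σ.toAlgebra
  obtain ⟨ℓ, hℓ, hℓS, hEis⟩ := T.exists_nonEisenstein
  obtain ⟨P, hP, hpar⟩ := exists_parabolicOp (K := T.psi.ker) T.S T.abar T.squarefree_level
    T.neg_one_mem_ker_psi hℓ hℓS (fun h => hℓS (T.mem_S_of_dvd_level hℓ h)) hEis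
  exact Subtype.ext (GammaH.smul_eq_zero_of_pow_smul T.neg_one_mem_ker_psi T.squarefree_level
    T.hasRoots (fun v hv h => T.mem_S_of_dvd_level hv h) hσ l.heH hP (fun z => hpar ℂ z) x.2 (n := k)
    (congrArg Subtype.val h))

/-- The action of the algebra on the localised module. -/
def Loc.actA : l.A →ₐ[O] Module.End O l.P := (AlgHom.fst O _ _).comp l.toPair

theorem Loc.actA_toA (a : T.OpR) : l.actA (l.toA a) = l.act a := rfl

/-- The vectors fixed by the diamonds. -/
def Loc.invariants : Submodule O l.P :=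
  ⨅ q : T.Delta, LinearMap.ker (l.actA (l.dia q) - 1)

theorem Loc.mem_invariants {x : l.P} : x ∈ l.invariants ↔ ∀ q, l.actA (l.dia q) x = x := by
  simp [Loc.invariants, sub_eq_zero]

/-- The annihilator of the localised module. -/
def Loc.annAll : Ideal l.A := RingHom.ker l.actA

theorem Loc.mem_annAll {a : l.A} : a ∈ l.annAll ↔ ∀ x, l.actA a x = 0 := by
  rw [Loc.annAll, RingHom.mem_ker, LinearMap.ext_iff]
  simp

/-- The annihilator of the coinvariants. -/
def Loc.annInv : Ideal l.A where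
  carrier := {a | ∀ x ∈ l.invariants, l.actA a x = 0}
  add_mem' := fun ha hb x hx => by rw [map_add, LinearMap.add_apply, ha x hx, hb x hx, add_zero]
  zero_mem' := fun x _ => by rw [map_zero, LinearMap.zero_apply]
  smul_mem' := fun c a ha x hx => by
    rw [smul_eq_mul, map_mul, Module.End.mul_apply, ha x hx, map_zero]

theorem Loc.annAll_le : l.annAll ≤ l.annInv := fun _ ha x _ => l.mem_annAll.1 ha x

theorem Loc.dia_sub_one_mem (q : T.Delta) : l.dia q - 1 ∈ l.annInv := fun x hx => by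
  rw [map_sub, map_one, LinearMap.sub_apply, l.mem_invariants.1 hx q, Module.End.one_apply,
    sub_self]

theorem Loc.pow_actA_eq_zero {a : l.A} {k : ℕ} {x : l.P} (h : l.actA (a ^ k) x = 0) :
    l.actA a x = 0 := by
  obtain ⟨a, rfl⟩ := l.toA_surjective a
  rw [← map_pow, l.actA_toA, map_pow] at h
  exact l.pow_act_eq_zero h

theorem Loc.annAll_radical (a : l.A) (k : ℕ) (h : a ^ k ∈ l.annAll) : a ∈ l.annAll :=
  l.mem_annAll.2 fun x => l.pow_actA_eq_zero (l.mem_annAll.1 h x)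

theorem Loc.annInv_radical (a : l.A) (k : ℕ) (h : a ^ k ∈ l.annInv) : a ∈ l.annInv :=
  fun x hx => l.pow_actA_eq_zero (h x hx)

theorem Loc.smul_P_cancel {c : O} (hc : c ≠ 0) {x : l.P} (h : c • x = 0) : x = 0 := by
  let b := Module.Free.chooseBasis O l.P
  refine b.repr.injective ?_
  ext i
  have h' := congrArg (fun z => b.repr z i) h
  rw [map_smul, map_zero, Finsupp.smul_apply, Finsupp.zero_apply, smul_eq_mul] at h'
  rw [map_zero, Finsupp.zero_apply]
  exact (mul_eq_zero.1 h').resolve_left hc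

theorem Loc.annAll_saturated (c : O) (a : l.A) (hc : c ≠ 0) (h : c • a ∈ l.annAll) : a ∈ l.annAll :=
  l.mem_annAll.2 fun x => l.smul_P_cancel hc (by
    have := l.mem_annAll.1 h x
    rwa [map_smul, LinearMap.smul_apply] at this)

theorem Loc.annInv_saturated (c : O) (a : l.A) (hc : c ≠ 0) (h : c • a ∈ l.annInv) : a ∈ l.annInv :=
  fun x hx => l.smul_P_cancel hc (by
    have := h x hx
    rwa [map_smul, LinearMap.smul_apply] at this)

theorem Loc.isMod_of_annAll {θ : l.A →ₐ[O] CBar O} (h : ∀ a ∈ l.annAll, θ a = 0) : l.IsMod θ :=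
  fun a ha => h _ (by rw [Loc.annAll, RingHom.mem_ker, l.actA_toA, ha])

/-- The first relation element at an auxiliary prime. -/
def Loc.xA (i : Fin r) : l.A := l.dia (T.gen i) - 1

namespace Pt

variable {l} {θ : l.A →ₐ[O] CBar O} (P : Pt l θ)

theorem tw_pow (σ : GQ) : P.tw σ ^ 2 ^ (T.n + 1) = 1 := by
  refine Units.ext (T.emb.injective ?_)
  rw [Units.val_pow_eq_pow_val, map_pow, P.emb_tw, inv_pow, P.et_pow, inv_one, Units.val_one,
    map_one]

/-- The matrices of the newform over its coefficient ring. -/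
def mat₀ : GQ →* M2 P.R :=
  (LinearMap.toMatrixAlgEquiv ((model2 P.M).eigenBasis P.θ')).toMonoidHom.comp
    ((model2 P.M).eigenAction P.ι P.θ')

theorem rep₀_eq (σ : GQ) : P.rep₀ σ = P.j.mapMatrix (P.mat₀ σ) := rfl

theorem sq_trace_frobenius_of_dvd {q : ℕ} (hv : q.Prime) (hvp : q ≠ 2) (hvM : q ∣ P.M)
    (hsq : ¬ q ^ 2 ∣ P.M) {A : ValuationSubring QBar} (hA : A.LiesOverPrime q) {σ : GQ}
    (hσ : A.IsFrobeniusAt σ q) :
    (P.rep₀ σ).trace ^ 2 = ((q : CBar O) + 1) ^ 2 ∧ (P.rep₀ σ).det = (q : CBar O) := by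
  refine ⟨Glue.trace_sq_eigenMatrix_frobenius (model2 P.M) P.ι P.θ' P.j P.isNewform
    T.emb.toRingHom P.emb_θ' P.two_memR hv hvp hvM (unipotentAt_model2 P.M hv hvp hvM hsq)
    (toricSquareAt_model2 P.M hv hvp hsq) hA hσ, ?_⟩
  rw [P.det_rep₀, (model2 P.M).det_eigenAction_of_roots P.ι P.θ' P.two_memR (q := q)
    (fun n ζ hζ => GaloisReps.frobenius_apply_root hA hv hσ hζ fun h =>
        hvp ((Nat.prime_dvd_prime_iff_eq hv Nat.prime_two).1 (hv.dvd_of_dvd_pow h))), map_natCast]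

theorem dvd_not_sq {i : Fin r} (hbad : T.q i ∉ badPrimes P.et) : ¬ T.q i ^ 2 ∣ P.M :=
  P.not_sq_dvd (T.q_prime i) hbad

theorem q_ne_two (i : Fin r) : T.q i ≠ 2 := fun h => by
  have := T.q_mod_four i
  omega

theorem tw_tau_of_not_bad {i : Fin r} (hbad : T.q i ∉ badPrimes P.et) : P.tw (T.tau i) = 1 := by
  set u := cyclotomicHom T.level (T.tau i)
  have hvR : ¬ T.q i ∣ T.level / T.q i :=
    coprime_div_of_squarefree T.squarefree_level (T.q_prime i) (T.q_dvd_level i)
  have : NeZero (T.level / T.q i) := ⟨fun h => hvR (h ▸ dvd_zero _)⟩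
  have hu : ((u : ZMod T.level).cast : ZMod (T.level / T.q i)) = 1 := by
    rw [← unitsMap_eq_one_iff (Nat.div_dvd_of_dvd (T.q_dvd_level i)), unitsMap_cyclotomicHom]
    exact cyclotomicHom_inertia (T.liesOver i) (T.q_prime i) (T.tau_mem i) hvR
  have h1 : P.et (u : ZMod T.level) = 1 :=
    not_not.1 fun hne => hbad (mem_badPrimes.2 ⟨T.q_prime i, T.q_dvd_level i, u, hu, hne⟩)
  refine Units.ext (T.emb.injective ?_)
  rw [emb_tw, h1, inv_one, Units.val_one, map_one]

/-- Either the point is special at an auxiliary prime, or unramified, or twisted. -/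
theorem cases_aux (i : Fin r) :
    (T.q i ∣ P.M ∧ (T.q i : CBar O) * (P.rep (T.F i)).trace ^ 2 -
        ((T.q i : CBar O) + 1) ^ 2 * (P.rep (T.F i)).det = 0) ∨
      (¬ T.q i ∣ P.M ∧ P.rep (T.tau i) = 1) ∨ P.rep (T.F i) * P.rep (T.tau i) = P.rep (T.tau i) * P.rep (T.F i) := by
  have : Fact (T.q i).Prime := ⟨T.q_prime i⟩
  have hA := T.liesOver i
  by_cases hbad : T.q i ∈ badPrimes P.et
  · refine Or.inr (Or.inr ?_)
    set τ := T.tau i
    set ζ := θ (l.dia (T.psi (cyclotomicHom T.level τ))) with hζdef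
    have htr : (P.rep τ).trace = 1 + ζ :=
      P.trace_inertia (T.q_prime i) (T.q_dvd_level i) (q_ne_two i) hA (T.tau_mem i)
    have hdet : (P.rep τ).det = ζ :=
      P.det_inertia (T.q_prime i) (q_ne_two i) hA (T.tau_mem i)
    have hζm : ζ ^ 2 ^ T.n = 1 := by
      rw [hζdef, ← map_pow, ← map_pow, show T.psi (cyclotomicHom T.level τ) ^ 2 ^ T.n = 1 from
        Multiplicative.toAdd.injective (funext fun j => by
          rw [toAdd_pow, Pi.smul_apply, nsmul_eq_mul, ZMod.natCast_self, zero_mul]; rfl),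
        map_one, map_one]
    have hζ1 : ζ ≠ 1 := by
      obtain ⟨-, hvL, u, hu, hne⟩ := mem_badPrimes.1 (P.bad hbad)
      intro h
      refine hne ?_
      rw [toDir_coe, Loc.chi_apply]
      have hpsi : T.psi u = T.gen i ^ ((T.psi u).toAdd i).val := by
        refine Multiplicative.toAdd.injective (funext fun j => ?_)
        rw [toAdd_pow, gen, toAdd_ofAdd, Pi.smul_apply, Pi.single_apply]
        rcases eq_or_ne j i with rfl | hji
        · rw [if_pos rfl, nsmul_one, ZMod.natCast_zmod_val]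
        · rw [if_neg hji, smul_zero, T.psi_apply, T.psiRoot_apply,
            T.unitsMap_q_eq_one hvL (T.q_prime i) j (fun h => hji (T.q_injective h).symm) hu,
            map_one, toAdd_one, map_zero]
      rw [hpsi, ← T.psi_tau i, map_pow, map_pow, ← hζdef, h, one_pow, map_one]
    have hX := Hecke.pow_eq_one_of_eigen (P.rep τ) htr hdet hζ1 hζm
    have hXq : P.rep τ ^ T.q i = P.rep τ := by
      obtain ⟨k, hk⟩ := T.pow_dvd_sub_one i (k := T.n) (by omega)
      rw [← Nat.sub_add_cancel (T.q_prime i).one_le, pow_succ, hk, pow_mul, hX, one_pow, one_mul]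
    have hN : ¬ T.q i ∣ 2 * N := fun h => ((T.q_prime i).dvd_mul.1 h).elim
      (fun h => q_ne_two i ((Nat.prime_dvd_prime_iff_eq (T.q_prime i) Nat.prime_two).1 h))
      (T.q_not_dvd i)
    have h2 : 2 ∣ T.q i - 1 := by
      have := T.pow_dvd_sub_one i (k := 1) (by omega)
      rwa [pow_one] at this
    have hconj : P.mat₀ (T.F i * τ * (T.F i)⁻¹) = P.mat₀ τ ^ T.q i :=
      InertiaTW.rho_conj_frobenius hA (T.q_prime i) Nat.prime_two h2 P.two_memR P.mat₀
        (isCont_matOf P.adic ((model2 P.M).eigenBasis P.θ'))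
        (fun σ hσ => (LinearMap.det_toMatrix ((model2 P.M).eigenBasis P.θ') _).trans
          (P.det_rep₀_inertia (T.q_prime i) (q_ne_two i) hA hσ))
        (fun σ hσ => by
          rw [show (P.mat₀ σ).trace = P.adic.trace σ from
            (LinearMap.trace_eq_matrix_trace P.R ((model2 P.M).eigenBasis P.θ') _).symm]
          exact P.residue_trace_inertia (T.q_prime i) hN hA hσ)
        (T.isFrobenius i) (T.tau_mem i)
    have htwq : P.tw τ ^ T.q i = P.tw τ := by
      obtain ⟨k, hk⟩ := T.pow_dvd_sub_one i (k := T.n + 1) (by omega)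
      rw [← Nat.sub_add_cancel (T.q_prime i).one_le, pow_succ, hk, pow_mul, P.tw_pow, one_pow,
        one_mul]
    have hrep : P.rep (T.F i * τ * (T.F i)⁻¹) = P.rep τ ^ T.q i := by
      rw [P.rep_apply, P.rep_apply, smul_pow, P.rep₀_eq, P.rep₀_eq, hconj, map_pow,
        ← Units.val_pow_eq_pow_val, htwq]
      congr 2
      rw [map_mul, map_mul, map_inv, mul_comm (P.tw (T.F i)), mul_inv_cancel_right]
    rw [hXq] at hrep
    conv_rhs => rw [← hrep]
    rw [← map_mul, ← map_mul, inv_mul_cancel_right]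
  by_cases hM : T.q i ∣ P.M
  · refine Or.inl ⟨hM, ?_⟩
    obtain ⟨h1, h2⟩ := P.sq_trace_frobenius_of_dvd (T.q_prime i) (q_ne_two i) hM
      (P.dvd_not_sq hbad) hA (T.isFrobenius i)
    rw [P.trace_rep, P.det_rep, h2, mul_pow, h1]
    ring
  · refine Or.inr (Or.inl ⟨hM, ?_⟩)
    rw [P.rep_apply, P.tw_tau_of_not_bad hbad, Units.val_one, one_smul]
    exact P.rep₀_eq_one ((model2 P.M).gal_unramified (T.q i) (T.q_prime i) (fun h =>
      ((T.q_prime i).dvd_mul.1 h).elim hM fun h => q_ne_two i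
        ((Nat.prime_dvd_prime_iff_eq (T.q_prime i) Nat.prime_two).1 h)) (T.A i) hA (T.tau i)
      (T.tau_mem i))

/-- A point of the coinvariants which is nowhere special is the system of a form of level `N`. -/
theorem isLevelSystem (hdia : ∀ q, θ (l.dia q) = 1) (hM : ∀ i, ¬ T.q i ∣ P.M) :
    IsLevelSystem N T.S fun ℓ => θ (l.hk ℓ) := by
  have hchi : toDir (l.chi θ) = 1 := MulChar.ext fun u => by
    rw [toDir_coe, Loc.chi_apply, hdia, map_one, MulChar.one_apply_coe]
  have hempty : badPrimes P.et = ∅ := Finset.eq_empty_of_forall_notMem fun v hv => by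
    obtain ⟨-, -, u, -, hne⟩ := mem_badPrimes.1 (P.bad hv)
    rw [hchi, MulChar.one_apply_coe] at hne
    exact hne rfl
  have het : P.et = 1 := by
    have h := prod_etaLift_eq_pow (χ := P.et) (e := 1) T.squarefree_level
    rw [hempty, Finset.prod_empty, pow_one] at h
    exact h.symm
  have hML : P.M ∣ T.level := by
    have h : P.M ∣ T.level * ∏ v ∈ badPrimes P.et, v := P.dvd
    rwa [hempty, Finset.prod_empty, mul_one] at h
  have hMN : P.M ∣ N := by
    refine Nat.Coprime.dvd_of_dvd_mul_right ?_ hML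
    exact Nat.Coprime.prod_right fun i _ => ((T.q_prime i).coprime_iff_not_dvd.2 (hM i)).symm
  obtain ⟨h, hh, hcoef⟩ := ConductorLevel.exists_raise T.squarefree hMN P.isNewform.1
  refine ⟨h, T.emb.toRingHom, hh, T.emb.injective, fun ℓ hℓ hℓS => ?_⟩
  rw [hcoef ℓ hℓ fun hd => hℓS (T.mem_S_of_dvd_level hℓ (hd.mul_right _)), P.g_coeff ℓ hℓ hℓS, het,
    MulChar.one_apply ((ZMod.isUnit_iff_coprime _ _).2 (hℓ.coprime_iff_not_dvd.2
      fun hd => hℓS (T.mem_S_of_dvd_level hℓ hd))), one_mul]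
  rfl

end Pt

namespace Glob

variable {l} (G : Glob l)

theorem trace_frobenius {ℓ : ℕ} (hℓ : ℓ.Prime) (hℓS : ℓ ∉ T.S) {A : ValuationSubring QBar}
    (hA : A.LiesOverPrime ℓ) {σ : GQ} (hσ : A.IsFrobeniusAt σ ℓ) :
    (G.R σ).trace = l.hk ℓ ∧ (G.R σ).det = l.dFrob ℓ := by
  constructor <;> refine l.eq_of_points fun θ => ?_
  · rw [(G.point θ σ).1, (l.frobenius_repAt θ hℓ hℓS hA hσ).1]
  · rw [(G.point θ σ).2, (l.frobenius_repAt θ hℓ hℓS hA hσ).2]

theorem unramified {v : ℕ} (hv : v.Prime) (h : ¬ v ∣ 2 * T.level) {A : ValuationSubring QBar}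
    (hA : A.LiesOverPrime v) {σ : GQ} (hσ : σ ∈ A.inertiaSubgroupIn ℚ) : G.R σ = 1 := by
  refine G.one_of σ fun θ => ?_
  by_cases hθ : l.IsMod θ
  · rw [l.repAt_mod hθ]; exact (l.pt hθ).unramified hv h hA hσ
  · have hN : ¬ v ∣ 2 * N := fun hd => h (hd.trans (Nat.mul_dvd_mul_left 2 (dvd_mul_right N _)))
    rw [l.repAt_E hθ]
    show (algebraMap O (CBar O)).mapMatrix (LinearMap.toMatrixAlgEquiv T.basisE (T.ρE.ρ σ)) = 1
    rw [T.ρE_unramified v hv hN A hA σ hσ]
    exact (congrArg (algebraMap O (CBar O)).mapMatrix (map_one (LinearMap.toMatrixAlgEquiv T.basisE))).trans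
      (map_one _)

theorem inertia {v : ℕ} (hv : v.Prime) (hvL : v ∣ T.level) {A : ValuationSubring QBar}
    (hA : A.LiesOverPrime v) {σ : GQ} (hσ : σ ∈ A.inertiaSubgroupIn ℚ) :
    (G.R σ).trace = 1 + l.dia (T.psi (cyclotomicHom T.level σ)) ∧
      (G.R σ).det = l.dia (T.psi (cyclotomicHom T.level σ)) := by
  have hv2 : v ≠ 2 := fun h => T.level_odd (h ▸ hvL)
  have key : ∀ θ : l.A →ₐ[O] CBar O,
      (l.repAt θ σ).trace = θ (1 + l.dia (T.psi (cyclotomicHom T.level σ))) ∧
        (l.repAt θ σ).det = θ (l.dia (T.psi (cyclotomicHom T.level σ))) := fun θ => by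
    by_cases hθ : l.IsMod θ
    · rw [l.repAt_mod hθ, map_add, map_one]
      exact ⟨(l.pt hθ).trace_inertia hv hvL hv2 hA hσ, (l.pt hθ).det_inertia hv hv2 hA hσ⟩
    · have h2 : T.ρE.trace σ = 2 ∧ LinearMap.det (T.ρE.ρ σ) = 1 := by
        by_cases hvN : v ∣ N
        · exact T.ρE_unipotent v hv hvN A hA σ hσ
        · have hN : ¬ v ∣ 2 * N := fun hd => (hv.dvd_mul.1 hd).elim
            (fun h => hv2 ((Nat.prime_dvd_prime_iff_eq hv Nat.prime_two).1 h)) hvN
          have h := T.ρE_unramified v hv hN A hA σ hσ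
          exact ⟨by rw [GaloisRepAdic.trace, h, LinearMap.trace_one, T.ρE.finrank_eq, Nat.cast_ofNat],
            by rw [h, map_one]⟩
      rw [l.trace_repAt_E hθ, l.det_repAt_E hθ, l.apply_of_not_isMod hθ, l.apply_of_not_isMod hθ,
        h2.1, h2.2, map_add l.thetaE, map_one l.thetaE, l.thetaE_dia, one_add_one_eq_two]
      exact ⟨rfl, rfl⟩
  constructor <;> refine l.eq_of_points fun θ => ?_
  · rw [(G.point θ σ).1, (key θ).1]
  · rw [(G.point θ σ).2, (key θ).2]

theorem span_eq_top : Submodule.span l.A (Set.range G.R) = ⊤ :=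
  span_range_eq_top_of_map l.aug.toRingHom
    (fun y => ⟨algebraMap O l.A (Function.surjInv residue_surjective y), by
      rw [AlgHom.toRingHom_eq_coe, RingHom.coe_coe, AlgHom.commutes, ResidueField.algebraMap_eq,
        Function.surjInv_eq residue_surjective]⟩)
    (fun _ => l.mem_maximalIdeal_iff.2) _
    ((show (fun σ => (G.R σ).map l.aug.toRingHom) = T.rbar from funext G.R_aug) ▸ T.span_rbar)

theorem trace_map_mul (θ : l.A →ₐ[O] CBar O) (a g : GQ) :
    ((G.R a).map θ * (G.R g).map θ).trace = (l.repAt θ a * l.repAt θ g).trace := by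
  rw [← map_mul (l.repAt θ), ← (G.point θ (a * g)).1, map_mul G.R]
  show _ = θ.toRingHom ((G.R a * G.R g).trace)
  rw [AddMonoidHom.map_trace θ.toRingHom]
  exact congrArg Matrix.trace (Matrix.map_mul (f := θ.toRingHom)).symm

theorem map_eq_one {θ : l.A →ₐ[O] CBar O} {σ : GQ} (h : l.repAt θ σ = 1) :
    (G.R σ).map θ = 1 := by
  refine sub_eq_zero.1 (Matrix.ext fun i j => (Submodule.mem_bot (CBar O)).1 ?_)
  refine Deform.mem_of_trace_mul (Deform.span_map_eq_top θ.toRingHom G.span_eq_top) ⊥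
    ((G.R σ).map θ - 1) (fun g => ?_) i j
  rw [Submodule.mem_bot, sub_mul, one_mul, Matrix.trace_sub, sub_eq_zero]
  show ((G.R σ).map θ * (G.R g).map θ).trace = ((G.R g).map θ).trace
  rw [G.trace_map_mul, h, one_mul, ← (G.point θ g).1]
  exact AddMonoidHom.map_trace θ.toRingHom _

/-- The second relation element at an auxiliary prime. -/
def vA (i : Fin r) : l.A :=
  (T.q i : l.A) * (G.R (T.F i)).trace ^ 2 - ((T.q i : l.A) + 1) ^ 2 * (G.R (T.F i)).det

theorem apply_vA (θ : l.A →ₐ[O] CBar O) (i : Fin r) :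
    θ (G.vA i) = (T.q i : CBar O) * (l.repAt θ (T.F i)).trace ^ 2 -
      ((T.q i : CBar O) + 1) ^ 2 * (l.repAt θ (T.F i)).det := by
  rw [vA, map_sub, map_mul, map_mul, map_pow θ, map_pow θ, map_add, map_natCast, map_one,
    (G.point θ _).1, (G.point θ _).2]

/-- **The relation at an auxiliary prime.** -/
theorem commutator_mem (i : Fin r) (a b : Fin 2) :
    G.vA i * (G.R (T.tau i) * G.R (T.F i) - G.R (T.F i) * G.R (T.tau i)) a b ∈ l.annAll := by
  set Mx := G.R (T.tau i) * G.R (T.F i) - G.R (T.F i) * G.R (T.tau i) with hMx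
  show (G.vA i • Mx) a b ∈ l.annAll
  refine Deform.mem_of_trace_mul G.span_eq_top l.annAll _ (fun g => ?_) a b
  refine Hecke.mem_of_forall_points l.annAll l.annAll_radical l.annAll_saturated fun θ hθ => ?_
  rw [smul_mul_assoc, Matrix.trace_smul, smul_eq_mul, map_mul, hMx, sub_mul, Matrix.trace_sub,
    map_sub, ← map_mul G.R, ← map_mul G.R, ← map_mul G.R, ← map_mul G.R, (G.point θ _).1,
    (G.point θ _).1, map_mul (l.repAt θ), map_mul (l.repAt θ), map_mul (l.repAt θ),
    map_mul (l.repAt θ), G.apply_vA, l.repAt_mod (l.isMod_of_annAll hθ)]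
  rcases (l.pt (l.isMod_of_annAll hθ)).cases_aux i with ⟨-, h⟩ | ⟨-, h⟩ | h
  · rw [h, zero_mul]
  · rw [h, one_mul, mul_one, sub_self, mul_zero]
  · rw [h, sub_self, mul_zero]

/-- At a point of the coinvariants where no `vA` vanishes: unramified and of level `N`. -/
theorem level_point {θ : l.A →ₐ[O] CBar O} (hθ : ∀ a ∈ l.annInv, θ a = 0)
    (hv : ∀ i, θ (G.vA i) ≠ 0) :
    (∀ i, (G.R (T.tau i)).map θ = 1) ∧ IsLevelSystem N T.S fun ℓ => θ (l.hk ℓ) := by
  have hmod : l.IsMod θ := l.isMod_of_annAll fun a ha => hθ a (l.annAll_le ha)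
  have hdia : ∀ q, θ (l.dia q) = 1 := fun q => sub_eq_zero.1 (by
    rw [← map_one θ, ← map_sub]; exact hθ _ (l.dia_sub_one_mem q))
  set P := l.pt hmod
  have hcase : ∀ i, ¬ T.q i ∣ P.M ∧ P.rep (T.tau i) = 1 := fun i => by
    have hbad : T.q i ∉ badPrimes P.et := fun hb => by
      obtain ⟨-, -, u, -, hne⟩ := mem_badPrimes.1 (P.bad hb)
      rw [toDir_coe, Loc.chi_apply, hdia, map_one] at hne
      exact hne rfl
    by_cases hM : T.q i ∣ P.M
    · refine absurd ?_ (hv i)
      obtain ⟨h1, h2⟩ := P.sq_trace_frobenius_of_dvd (T.q_prime i) (Pt.q_ne_two i) hM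
        (P.dvd_not_sq hbad) (T.liesOver i) (T.isFrobenius i)
      rw [G.apply_vA, l.repAt_mod hmod, P.trace_rep, P.det_rep, h2, mul_pow, h1]
      ring
    · refine ⟨hM, ?_⟩
      rw [P.rep_apply, P.tw_tau_of_not_bad hbad, Units.val_one, one_smul]
      exact P.rep₀_eq_one ((model2 P.M).gal_unramified (T.q i) (T.q_prime i) (fun h =>
        ((T.q_prime i).dvd_mul.1 h).elim hM fun h => Pt.q_ne_two i
          ((Nat.prime_dvd_prime_iff_eq (T.q_prime i) Nat.prime_two).1 h)) (T.A i) (T.liesOver i)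
        (T.tau i) (T.tau_mem i))
  refine ⟨fun i => G.map_eq_one ?_, P.isLevelSystem hdia fun i => (hcase i).1⟩
  rw [l.repAt_mod hmod]
  exact (hcase i).2

/-- The determinant is the cyclotomic character times the diamonds. -/
theorem det_congr {σ : GQ} (hσ : T.psi (cyclotomicHom T.level σ) = 1) (k a : ℕ)
    (ha : ∀ μ : QBar, μ ^ 2 ^ k = 1 → σ μ = μ ^ a) :
    (G.R σ).det - (a : l.A) ∈ Ideal.span {(2 : l.A) ^ k} := by
  classical
  set I : Ideal l.A := Ideal.span {(2 : l.A) ^ k}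
  obtain ⟨n, hn⟩ : ∃ n, maximalIdeal l.A ^ n ≤ I := by
    have : IsNoetherianRing l.A := isNoetherian_of_tower O inferInstance
    have hfg : (maximalIdeal l.A).FG := IsNoetherian.noetherian _
    refine Ideal.exists_pow_le_of_le_radical_of_fg (fun x hx => ?_) hfg
    obtain ⟨m, y, hy⟩ := Loc.exists_pow_two_dvd hx
    exact ⟨m * k, Ideal.mem_span_singleton'.2 ⟨y ^ k, by rw [pow_mul, hy, mul_pow, mul_comm]⟩⟩
  obtain ⟨L₁, hL₁, h1⟩ := G.cont n
  obtain ⟨ζ, hζ⟩ := HasEnoughRootsOfUnity.exists_primitiveRoot QBar (2 ^ k * T.level)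
  have : FiniteDimensional ℚ (IntermediateField.adjoin ℚ {ζ}) :=
    IntermediateField.adjoin.finiteDimensional (Algebra.IsIntegral.isIntegral ζ)
  have : NeZero (2 ^ k * T.level) := ⟨mul_ne_zero (pow_ne_zero _ two_ne_zero) (NeZero.ne _)⟩
  let f := (Ideal.Quotient.mk I).mapMatrix.toMonoidHom.comp G.R
  obtain ⟨ℓ, hℓ, hℓS, A, hA, s, hs, he⟩ :=
    Arith.Chebotarev.exists_frobenius_eq
      (M := Matrix (Fin 2) (Fin 2) (l.A ⧸ I) × (ZMod (2 ^ k * T.level))ˣ)
      (f.prod (cyclotomicHom (2 ^ k * T.level)))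
      (L₁ ⊔ IntermediateField.adjoin ℚ {ζ}) (fun g hg => by
        refine Prod.ext (Matrix.ext fun i j => ?_) (Units.ext ?_)
        · show Ideal.Quotient.mk I (G.R g i j) = _
          rw [(Ideal.Quotient.eq).2 (hn (h1 g (fun z hz => hg z (le_sup_left (b := IntermediateField.adjoin ℚ {ζ}) hz)) i j)),
            Matrix.one_apply, Prod.fst_one, Matrix.one_apply]
          split_ifs <;> simp
        · show ((cyclotomicHom (2 ^ k * T.level) g : (ZMod (2 ^ k * T.level))ˣ) :
            ZMod (2 ^ k * T.level)) = 1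
          rw [cyclotomicHom_eq_of_forall (c := 1) fun μ hμ => ?_, Nat.cast_one]
          rw [pow_one]
          obtain ⟨i, -, rfl⟩ := hζ.eq_pow_of_pow_eq_one hμ
          exact hg _ (le_sup_right (a := L₁)
            (pow_mem (IntermediateField.mem_adjoin_simple_self ℚ ζ) i))) σ T.S
  have he1 := congrArg (fun x => (Prod.fst x).det) he
  have he2 := congrArg Prod.snd he
  simp only [MonoidHom.prod_apply] at he1 he2
  change ((G.R s).map (Ideal.Quotient.mk I)).det = ((G.R σ).map (Ideal.Quotient.mk I)).det at he1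
  rw [← RingHom.mapMatrix_apply, ← RingHom.mapMatrix_apply, ← RingHom.map_det, ← RingHom.map_det,
    (G.trace_frobenius hℓ hℓS hA hs).2] at he1
  have hℓL : ¬ ℓ ∣ T.level := fun h => hℓS (T.mem_S_of_dvd_level hℓ h)
  have hℓk : ¬ ℓ ∣ 2 ^ k * T.level := fun h => (hℓ.dvd_mul.1 h).elim
    (fun h => hℓS (by rw [(Nat.prime_dvd_prime_iff_eq hℓ Nat.prime_two).1 (hℓ.dvd_of_dvd_pow h)];
                      exact T.two_mem_S)) hℓL
  have hpsi : T.psi (cyclotomicHom T.level s) = 1 := by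
    rw [← unitsMap_cyclotomicHom (dvd_mul_left T.level (2 ^ k)) s, he2,
      unitsMap_cyclotomicHom, hσ]
  have hcong : ((ℓ : ℕ) : ZMod (2 ^ k)) = (a : ZMod (2 ^ k)) := by
    have : NeZero (2 ^ k) := ⟨pow_ne_zero _ two_ne_zero⟩
    rw [← cyclotomicHom_eq_of_forall ha, ← unitsMap_cyclotomicHom (dvd_mul_right (2 ^ k) T.level) σ,
      ← he2, unitsMap_cyclotomicHom, cyclotomicHom_frobenius hA hℓ hs fun h =>
        hℓk (dvd_mul_of_dvd_left h _)]
  rw [l.dFrob_eq hℓ hℓS hA hs, hpsi, map_one, mul_one] at he1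
  rw [← Ideal.Quotient.eq_zero_iff_mem, map_sub, ← he1, ← map_sub, Ideal.Quotient.eq_zero_iff_mem]
  obtain ⟨c, hc⟩ : ((2 ^ k : ℕ) : ℤ) ∣ (ℓ : ℤ) - (a : ℤ) := by
    rw [← ZMod.intCast_zmod_eq_zero_iff_dvd]
    simp [hcong]
  refine Ideal.mem_span_singleton'.2 ⟨(c : l.A), ?_⟩
  have h := congrArg (fun z : ℤ => (z : l.A)) hc
  simp only [Int.cast_sub, Int.cast_natCast, Int.cast_mul, Nat.cast_pow, Nat.cast_ofNat] at h
  rw [h, mul_comm]
  push_cast
  ring

end Glob

end TwoSetup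

end Fermat.Agent.RT.Two

end
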