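import Fermat.Agent.ConductorLevel.Raise
import Fermat.Agent.RT.GammaH.Lattice
import Fermat.Agent.RT.Two.Hecke.RepFacts

/-!
# A form of level `N` gives a point of the coinvariants

The periods of the form, raised to the auxiliary level, are a class fixed by the diamonds; the
norm of the diamond group and the localiser map integral classes to invariants of the localised
module and act on the class by nonzero scalars.
-/

set_option autoImplicit false
set_option linter.unusedSectionVars false

noncomputable section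

namespace Fermat.Agent.RT.Two

open IsLocalRing MvPolynomial Fermat.Agent.Arith ModularFormClass
open Fermat.Agent.RT.GammaH
open Fermat.Agent.Periods.Congruence (per per_injective)

variable {O : Type} [CommRing O] [IsDomain O] [IsDiscreteValuationRing O]
  [IsAdicComplete (maximalIdeal O) O] [Finite (ResidueField O)] [CharZero O]
  [Algebra (ZMod 2) (ResidueField O)] {N r : ℕ}

namespace TwoSetup

variable {T : TwoSetup O N r} (l : T.Loc)

/-- The sum of the diamond operators. -/
def normOp (T : TwoSetup O N r) : T.OpR :=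
  ∑ q : T.Delta, X (Sum.inl (psiInv T.psi_surjective q))

theorem Loc.toA_normOp : l.toA T.normOp = ∑ q : T.Delta, l.dia q := map_sum l.toA _ _

theorem Loc.act_normOp_mem (y : l.P) : l.act T.normOp y ∈ l.invariants := by
  rw [← l.actA_toA, l.toA_normOp, l.mem_invariants]
  intro h
  rw [map_sum, LinearMap.sum_apply, map_sum]
  exact Fintype.sum_equiv (Equiv.mulLeft h) _ _ fun q => by
    rw [Equiv.coe_mulLeft, map_mul, map_mul, Module.End.mul_apply]

/-- **A form of level `N` gives a point of the coinvariants.** -/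
theorem Loc.exists_point_of_level {a₀ : ℕ → O} (hN : IsLevelSystem N T.S a₀)
    (hres : ∀ ℓ : ℕ, ℓ.Prime → ℓ ∉ T.S → residue O (a₀ ℓ) = (T.aE ℓ : ResidueField O)) :
    ∃ θ₀ : l.A →ₐ[O] O, (∀ a ∈ l.annInv, θ₀ a = 0) ∧ (∀ q, θ₀ (l.dia q) = 1) ∧
      (∀ a, residue O (θ₀ a) = l.aug a) ∧
      ∀ ℓ : ℕ, ℓ.Prime → ℓ ∉ T.S → θ₀ (l.hk ℓ) = a₀ ℓ := by
  classical
  obtain ⟨g, e, hg, he, hge⟩ := hN
  obtain ⟨G, hG, hGg⟩ :=
    ConductorLevel.exists_raise T.squarefree_level (dvd_mul_right N (∏ i, T.q i)) hg
  let : Algebra O ℂ := e.toAlgebra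
  set ev₀ : T.OpR →ₐ[O] O := aeval (Sum.elim (fun _ => 1) fun ℓ => a₀ ℓ.1) with hev
  set θC : T.OpR →ₐ[O] ℂ := (Algebra.ofId O ℂ).comp ev₀ with hθC
  have hevres : ∀ a, residue O (ev₀ a) = opRes T.S T.abar T.level a := fun a => by
    refine AlgHom.congr_fun
      (φ₁ := (IsScalarTower.toAlgHom O O (ResidueField O)).comp ev₀) ?_ a
    refine MvPolynomial.algHom_ext fun i => ?_
    rcases i with u | ℓ
    · show residue O (ev₀ _) = _
      rw [opRes_inl, hev, aeval_X, Sum.elim_inl, map_one]
    · show residue O (ev₀ _) = _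
      rw [opRes_inr, hev, aeval_X, Sum.elim_inr, hres ℓ.1 ℓ.2.1 ℓ.2.2]
  set gH : FormH T.level T.psi.ker := toFormH G
  set v : HomC T.psi.ker := per gH
  have hv : v ≠ 0 := fun h => by
    have h1 : gH = 0 := per_injective Gamma_le_gammaH h
    exact hG.ne_zero (DFunLike.coe_injective
      (congrArg (fun F : FormH T.level T.psi.ker => (⇑F : _ → ℂ)) h1))
  have heig : ∀ a, opC O T.S T.psi.ker a v = θC a • v := fun a => by
    induction a using MvPolynomial.induction_on with
    | C c => rw [opC_C, Module.algebraMap_end_apply, ← algebraMap_eq, AlgHom.commutes]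
    | add a b ha hb => rw [map_add, map_add, LinearMap.add_apply, ha, hb, add_smul]
    | mul_X a i ha =>
      have hi : opC O T.S T.psi.ker (X i) v = θC (X i) • v := by
        rcases i with u | ℓ
        · rw [opC_inl, show θC (X (Sum.inl u)) = 1 by simp [hθC, hev], ← per_diaForm,
            isChiForm_toFormH G u, MonoidHom.one_apply, Units.val_one, per_smul]
        · have : Fact ℓ.1.Prime := ⟨ℓ.2.1⟩
          have hℓ : θC (X (Sum.inr ℓ)) = qCoeff G ℓ.1 := by
            rw [hGg ℓ.1 ℓ.2.1 fun hd => ℓ.2.2 (T.mem_S_of_dvd_level ℓ.2.1 hd),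
              ← hge ℓ.1 ℓ.2.1 ℓ.2.2]
            simp [hθC, hev]
            rfl
          rw [opC_inr, hℓ, ← per_heckeForm, heckeForm_toFormH hG, per_smul]
      rw [map_mul, map_mul, Module.End.mul_apply, hi, map_smul, ha, smul_smul, mul_comm]
  -- operators killing the integral classes kill the system
  have hkill : ∀ b : T.OpR, (∀ x : HomMod O T.S T.psi.ker O, b • x = 0) → θC b = 0 := fun b hb => by
    obtain ⟨m, w, ψ, hψ⟩ := exists_int_decomp v
    let x : Fin m → HomMod O T.S T.psi.ker O := fun i => toHomMod ((Int.castAddHom O).comp (ψ i))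
    have hv' : v = ∑ i, w i • toHomC (x i) := AddMonoidHom.ext fun γ => by
      rw [hψ γ, AddMonoidHom.finsetSum_apply]
      refine Finset.sum_congr rfl fun i _ => ?_
      show w i * _ = w i * algebraMap O ℂ ((ψ i γ : ℤ) : O)
      rw [map_intCast]
    have h0 : opC O T.S T.psi.ker b v = 0 := by
      rw [hv', map_sum]
      refine Finset.sum_eq_zero fun i _ => ?_
      rw [map_smul, ← toHomC_smul, hb, map_zero, smul_zero]
    exact smul_left_injective ℂ hv ((heig b).symm.trans (h0.trans (zero_smul ℂ v).symm))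
  have hcard : ev₀ T.normOp = (Fintype.card T.Delta : O) := by
    simp [normOp, hev, map_sum]
  have hunit : ev₀ l.e ≠ 0 := fun h => by
    have h1 := hevres (l.e - 1)
    rw [(mem_resIdeal _ _).1 l.heH.sub_one_mem, map_sub, h, map_one, zero_sub, map_neg, map_one,
      neg_eq_zero] at h1
    exact one_ne_zero h1
  have hzero : ∀ a, (∀ x ∈ l.invariants, l.act a x = 0) → ev₀ a = 0 := fun a ha => by
    have h1 := hkill (a * T.normOp * l.e) fun x => by
      have hy := l.heH.smul_self_mem (O := O) x
      have h2 := ha _ (l.act_normOp_mem ⟨_, hy⟩)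
      rw [mul_smul, mul_smul]
      exact congrArg Subtype.val h2
    rw [map_mul, map_mul] at h1
    have hne : ∀ z, ev₀ z ≠ 0 → θC z ≠ 0 := fun z hz h => hz (he (h.trans (map_zero e).symm))
    refine he ((((mul_eq_zero.1 h1).resolve_right (hne _ hunit) |> mul_eq_zero.1).resolve_right
      (hne _ ?_)).trans (map_zero e).symm)
    rw [hcard]
    exact Nat.cast_ne_zero.2 Fintype.card_ne_zero
  refine ⟨Ideal.Quotient.liftₐ _ ev₀ fun a ha => hzero a fun x _ => by
      rw [(l.pair_eq_zero.1 (RingHom.mem_ker.1 ha)).1, LinearMap.zero_apply],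
    fun a ha => ?_, fun q => ?_, fun a => ?_, fun ℓ hℓ hℓS => ?_⟩
  · obtain ⟨a, rfl⟩ := l.toA_surjective a
    exact hzero a fun x hx => by rw [← l.actA_toA]; exact ha x hx
  · show ev₀ (X (Sum.inl (psiInv T.psi_surjective q))) = 1
    rw [hev, aeval_X, Sum.elim_inl]
  · obtain ⟨a, rfl⟩ := l.toA_surjective a
    exact hevres a
  · rw [l.hk_eq ⟨hℓ, hℓS⟩]
    show ev₀ (X (Sum.inr ⟨ℓ, hℓ, hℓS⟩)) = _
    rw [hev, aeval_X, Sum.elim_inr]

end TwoSetup

end Fermat.Agent.RT.Two

end
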