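import Fermat.Agent.RT.MazurQ.Rigid

/-!
# Eigen classes of level `q M` fixed by inertia

At a level `M` divisible by `4` or `9` the two reductions of an inertia-fixed eigen class of level
`q M` lift to eigen classes of level `M`; two classes with the same lifts differ by a class on which
Frobenius is `-q w`.
-/

set_option autoImplicit false
set_option linter.unusedSectionVars false

noncomputable section

namespace Fermat.Agent.RT.Two.Socle

open AlgebraicCurve ModularCurve Fermat.Agent.Semistable Fermat.Agent.Arith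
open Fermat.Agent.RT.Mazur Fermat.Agent.RT.MazurP Fermat.Agent.RT.MazurQ
open Fermat.Agent.NewformLocal.Toric Fermat.Agent.RT.AtP

/-- Shortcut instance for the function fields. -/
local instance (n : ℕ) : Algebra QBar (FB n) := inferInstance

variable {A : ValuationSubring QBar} {q M p : ℕ} [hq : Fact q.Prime] [hp : Fact p.Prime] [NeZero M]
  {G : ℕ → Prop} {a : ℕ → ℕ}

/-- The lift of a reduction. -/
theorem exists_lift (hA : A.LiesOverPrime q) [CharP (Res A) q] [IsAlgClosed (Res A)]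
    [FF.IsFunctionField (Res A) (KM A M)] (h : Setup A M q) (V : VUnit A h.hqM) (hV : V.Simple)
    (hqp : p ≠ q) (hG : ∀ l, l.Prime → G l → ¬ l ∣ q * M)
    (hex : ∃ l, l.Prime ∧ G l ∧ ((l + 1 : ℕ) : ZMod p) ≠ (a l : ZMod p))
    (f : JacTorsion.divGrp QBar (FB (q * M)) p)
    (hfI : InertiaFixed A (((f : (FB (q * M))ˣ) : FB (q * M)) : LSer))
    (hfe : IsEigen (q * M) G (fun l => (a l : ℤ))
      (JacTorsion.toTorsion (Additive.ofMul f) : JZero (q * M))) (s : Fin 2) :
    ∃ (g : JacTorsion.divGrp QBar (FB M) p) (z : KM A M),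
      IsRed A (iota2 M q h.hqM s ((f : (FB (q * M))ˣ) : FB (q * M))) (z : LaurentSeries (Res A)) ∧
      IsRed A (((g : (FB M)ˣ) : FB M) : LSer) (z : LaurentSeries (Res A)) ∧
      (JacTorsion.toTorsion (Additive.ofMul g) : JZero M) ∈ eigTors M p G a := by
  obtain ⟨K, hK, hδ⟩ := exists_kum hA h hqp hG hex f hfI hfe
  have hKr : IsRed A (iota2 M q h.hqM s ((f : (FB (q * M))ˣ) : FB (q * M)))
      (K.fb s : LaurentSeries (Res A)) := hK ▸ K.isRed_fb s
  have hdiv : ∀ P : Place (Res A) (KM A M), (p : ℤ) ∣ P.ord (K.fb s) := fun P =>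
    dvd_ord_fb hA h.hM V hV (unramField_e hA) K hδ s P
  obtain ⟨g, hg⟩ := exists_divGrp_lift hA h.hM (FiniteFlat.injectiveOnTorsion_of_lattice M) hqp
    h.hqM ⟨Units.mk0 (K.fb s) (K.fb_ne s), hdiv⟩
  have he := isEigen_of_isRed hA h.hM (FiniteFlat.injectiveOnTorsion_of_lattice M) hqp h.hqM hG hg
    (heckeEig_of_isRed hA h.hM h.hqM G a hG (f := f) hfe s hKr)
  refine ⟨g, K.fb s, hKr, hg, ?_, fun l hl hGl => by rw [he l hl hGl, natCast_zsmul]⟩
  rw [← natCast_zsmul]
  exact Pic0.mem_torsion.mp (JacTorsion.toTorsion (Additive.ofMul g)).2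

/-- **The reduction map on inertia-fixed eigen classes.** -/
theorem exists_reduction_map (hA : A.LiesOverPrime q) (hqM : ¬ q ∣ M) (hqp : p ≠ q) {c : ℕ}
    (hc : c = 4 ∨ c = 9) (hcM : c ∣ M) (hG : ∀ l, l.Prime → G l → ¬ l ∣ q * M)
    (hex : ∃ l, l.Prime ∧ G l ∧ ((l + 1 : ℕ) : ZMod p) ≠ (a l : ZMod p))
    {σ : GQ} (hσ : A.IsFrobeniusAt σ q) :
    ∃ Φ : {x : JZero (q * M) // x ∈ eigTors (q * M) p G a ∧
        ∀ τ ∈ A.inertiaSubgroupIn ℚ, τ • x = x} → eigTors M p G a × eigTors M p G a,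
      ∀ x x', Φ x = Φ x' →
        σ • (x.1 - x'.1) = -(q • (wSA hqM • (x.1 - x'.1 : Pic0 QBar (FB (q * M))))) := by
  classical
  have : CharP (Res A) q := Arith.residueField_charP hA hq.out
  have := Arith.residueField_isAlgClosed A
  have : FF.IsFunctionField (Res A) (KM A M) :=
    isFunctionField_KM A (natCast_res_ne_zero hA hq.out hqM)
  have h : Setup A M q := setup hA hq.out hqM
  obtain ⟨V⟩ := RT.MazurP.exists_vUnit (p := q) (M := M) hA h.hM h.hqM
  have hV : V.Simple := V.simple_of_goodM hA h.hM h.good (genus_identity_of_dvd hc hqM hcM)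
  have hkum : ∀ x : {x : JZero (q * M) // x ∈ eigTors (q * M) p G a ∧
      ∀ τ ∈ A.inertiaSubgroupIn ℚ, τ • x = x},
      ∃ f : JacTorsion.divGrp QBar (FB (q * M)) p,
        (JacTorsion.toTorsion (Additive.ofMul f) : JZero (q * M)) = x.1 ∧
        InertiaFixed A (((f : (FB (q * M))ˣ) : FB (q * M)) : LSer) := fun x => by
    obtain ⟨f, hf, -, hfI⟩ := exists_rational_kummer A
      (⟨x.1, Pic0.mem_torsion.mpr (by rw [natCast_zsmul]; exact x.2.1.1)⟩ :
        Pic0.torsion QBar (FB (q * M)) p) x.2.2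
    exact ⟨f, congrArg Subtype.val hf, hfI⟩
  choose f hf hfI using hkum
  have hfe : ∀ x, IsEigen (q * M) G (fun l => (a l : ℤ))
      (JacTorsion.toTorsion (Additive.ofMul (f x)) : JZero (q * M)) := fun x l hl hGl => by
    rw [hf, x.2.1.2 l hl hGl, natCast_zsmul]
  choose g z hz hgz hge using fun x => exists_lift hA h V hV hqp hG hex (f x) (hfI x) (hfe x)
  refine ⟨fun x => (⟨_, hge x 0⟩, ⟨_, hge x 1⟩), fun x x' he => ?_⟩
  have heq : ∀ s, (JacTorsion.toTorsion (Additive.ofMul (g x s)) : JZero M) =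
      JacTorsion.toTorsion (Additive.ofMul (g x' s)) := by
    intro s
    fin_cases s
    · exact congrArg (fun y => ((y.1 : eigTors M p G a) : JZero M)) he
    · exact congrArg (fun y => ((y.2 : eigTors M p G a) : JZero M)) he
  have e : ((((f x * (f x')⁻¹ : JacTorsion.divGrp QBar (FB (q * M)) p) : (FB (q * M))ˣ) :
      FB (q * M))) = ((f x : (FB (q * M))ˣ) : FB (q * M)) * (((f x' : (FB (q * M))ˣ) :
      FB (q * M)))⁻¹ := by
    rw [Subgroup.coe_mul, Units.val_mul, Subgroup.coe_inv, Units.val_inv_eq_inv_val]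
  have htor : (JacTorsion.toTorsion (Additive.ofMul (f x * (f x')⁻¹)) : JZero (q * M)) =
      x.1 - x'.1 := by
    rw [ofMul_mul, ofMul_inv, map_add, map_neg, AddSubgroup.coe_add, AddSubgroup.coe_neg, hf, hf,
      sub_eq_add_neg]
  have key := smul_eq_neg_of_red_pow (G := G) (a := a) hA h V hV hqp hG hex (f x * (f x')⁻¹) ?_ ?_
    (fun s => ?_) hσ
  · rw [htor] at key
    exact key
  · rw [e]
    push_cast
    exact (hfI x).mul (hfI x').inv
  · intro l hl hGl
    rw [htor, map_sub, x.2.1.2 l hl hGl, x'.2.1.2 l hl hGl, natCast_zsmul, nsmul_sub]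
  · have h0 : JacTorsion.toTorsion (Additive.ofMul (g x s * (g x' s)⁻¹)) = 0 := by
      rw [ofMul_mul, ofMul_inv, map_add, map_neg, add_neg_eq_zero]
      exact Subtype.ext (heq s)
    obtain ⟨u, hu⟩ := (JacTorsion.toTorsion_eq_zero_iff _).mp h0
    obtain ⟨k, hk⟩ := exists_isRed_pow (p := p) hA h.hM u
    have hu' : (u ^ p : (FB M)ˣ) = ((g x s * (g x' s)⁻¹ : JacTorsion.divGrp QBar (FB M) p) :
        (FB M)ˣ) := hu
    rw [hu', Subgroup.coe_mul, Units.val_mul, Subgroup.coe_inv, Units.val_inv_eq_inv_val] at hk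
    push_cast at hk
    have h1 := (hgz x s).mul (hgz x' s).inv
    obtain ⟨w, hw, hwe⟩ := hk.unique h1
    obtain ⟨w', rfl⟩ := IsAlgClosed.exists_pow_nat_eq w hp.out.pos
    refine ⟨algebraMap (Res A) (KM A M) w' * k, ?_⟩
    rw [e]
    have h2 := (hz x s).mul (hz x' s).inv
    rw [hwe, ← map_inv₀, ← map_mul] at h2
    push_cast
    rw [mul_pow, ← map_pow]
    exact h2

end Fermat.Agent.RT.Two.Socle

end
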